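import Mathlib
import Fermat.Agent.S16.Estar24

/-!
# S16 (C): the interface `EisCong` of the upper-bound tests

`EisCong p M g`: `g` is a weight-two cusp form of level `Γ₀(p)` (function level, `S20.IsCF`) whose
`q`-expansion coefficients are integers congruent to the Eisenstein system `σ*(n)` (sum of the
divisors of `n` prime to `p`, `Estar.sigmaStar`) modulo `M`, for all `n ≥ 1`.
Consumers: `LevelOne/T1`, `EllEqP`, `T2`, `Upper`, `UpperTwo`, `UpperThree`.
-/

set_option autoImplicit false

namespace Fermat.Agent.S16.LevelOne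

open UpperHalfPlane

/-- `g` is a weight-2 cusp form of level `p` whose `q`-expansion is congruent to the Eisenstein
system `σ*(n)` modulo `M` (integer coefficients). -/
structure EisCong (p M : ℕ) (g : ℍ → ℂ) : Prop where
  isCF : Fermat.Agent.S20.IsCF p 2 g
  cong : ∀ n : ℕ, 1 ≤ n → ∃ m : ℤ,
    ModularFormClass.qCoeff g n =
      (((Fermat.Agent.S16.Estar.sigmaStar p n : ℤ) + (M : ℤ) * m : ℤ) : ℂ)

end Fermat.Agent.S16.LevelOne
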