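import Mathlib

/-!
# S16 (C1): definition of the explicit trace `Γ₀(p) → SL(2,ℤ)` at function level

`trFun k p f = f + ∑_{j<p} f ∣[k] (S T^j)`; the cosets `Γ₀(p)·1, Γ₀(p)·S T^j` (`j < p`) exhaust
`Γ₀(p) \ SL(2,ℤ)` for `p` prime.
-/

set_option autoImplicit false

namespace Fermat.Agent.S16.LevelOne

open UpperHalfPlane
open scoped MatrixGroups ModularForm

/-- the explicit trace from `Γ₀(p)` to level one -/
noncomputable def trFun (k : ℤ) (p : ℕ) (f : ℍ → ℂ) : ℍ → ℂ :=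
  f + ∑ j ∈ Finset.range p, f ∣[k] (ModularGroup.S * ModularGroup.T ^ (j : ℤ))

theorem trFun_def (k : ℤ) (p : ℕ) (f : ℍ → ℂ) :
    trFun k p f = f + ∑ j ∈ Finset.range p, f ∣[k] (ModularGroup.S * ModularGroup.T ^ (j : ℤ)) :=
  rfl

end Fermat.Agent.S16.LevelOne
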