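import Mathlib
import Fermat.Prelude.Def_ModularForm_HeckeOperator
import Fermat.Agent.S20.LevelOne
import Fermat.Agent.S16.LevelRaise
import Fermat.Agent.S16.LevelOne.TraceDef

/-!
# S16 (C2): the Fricke operator on `M_k(Γ₀(p))`, function level

`W = [0,-1;p,0]`, `frickeW k p f = f ∣[k] W` (Mathlib slash normalisation).
-/

set_option autoImplicit false

namespace Fermat.Agent.S16.LevelOne.Fricke

open UpperHalfPlane ModularForm CongruenceSubgroup Matrix.SpecialLinearGroup ModularGroup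
open Fermat.Agent.S20 Fermat.Agent.S20.Rank Fermat.Agent.S24.JConj Fermat.Agent.S16.LevelRaise
open Fermat.Agent.S16.LevelOne
open scoped MatrixGroups ModularForm Manifold

noncomputable section

/-! ### Matrices -/

/-- the Fricke matrix `[0,-1;p,0]` -/
def frickeMatrix (p : ℕ) : GL (Fin 2) ℝ :=
  if hp : p = 0 then 1 else
    Matrix.GeneralLinearGroup.mkOfDetNeZero !![0, -1; (p : ℝ), 0]
      (by rw [Matrix.det_fin_two_of]; simpa using hp)

/-- the scalar matrix `c • 1` -/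
def scalarGL (c : ℝ) (hc : c ≠ 0) : GL (Fin 2) ℝ :=
  Matrix.GeneralLinearGroup.mkOfDetNeZero !![c, 0; 0, c]
    (by rw [Matrix.det_fin_two_of]; simp [hc])

@[simp] theorem val_frickeMatrix {p : ℕ} (hp : p ≠ 0) :
    ((frickeMatrix p : GL (Fin 2) ℝ) : Matrix (Fin 2) (Fin 2) ℝ) = !![0, -1; (p : ℝ), 0] := by
  simp [frickeMatrix, hp]

@[simp] theorem val_scalarGL (c : ℝ) (hc : c ≠ 0) :
    ((scalarGL c hc : GL (Fin 2) ℝ) : Matrix (Fin 2) (Fin 2) ℝ) = !![c, 0; 0, c] := rfl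

theorem det_frickeMatrix {p : ℕ} (hp : p ≠ 0) : ((frickeMatrix p).det : ℝ) = p := by
  rw [Matrix.GeneralLinearGroup.val_det_apply, val_frickeMatrix hp, Matrix.det_fin_two_of]
  ring

theorem det_scalarGL (c : ℝ) (hc : c ≠ 0) : ((scalarGL c hc).det : ℝ) = c ^ 2 := by
  rw [Matrix.GeneralLinearGroup.val_det_apply, val_scalarGL, Matrix.det_fin_two_of]
  ring

theorem det_scalarGL_pos (c : ℝ) (hc : c ≠ 0) : 0 < ((scalarGL c hc).det : ℝ) := by
  rw [det_scalarGL]; positivity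

/-- slash by a scalar matrix -/
theorem slash_scalarGL (k : ℤ) (c : ℝ) (hc : c ≠ 0) (f : ℍ → ℂ) :
    f ∣[k] scalarGL c hc = (((|c| : ℝ) : ℂ) ^ (2 * k - 2) * (c : ℂ) ^ (-k)) • f := by
  ext τ
  have hsmul : scalarGL c hc • τ = τ := by
    apply UpperHalfPlane.ext
    rw [UpperHalfPlane.coe_smul_of_det_pos (det_scalarGL_pos c hc)]
    have hcC : (c : ℂ) ≠ 0 := by exact_mod_cast hc
    simp [UpperHalfPlane.num, UpperHalfPlane.denom]
    field_simp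
  have hσ : UpperHalfPlane.σ (scalarGL c hc) = .refl ℝ ℂ := by
    rw [UpperHalfPlane.σ, if_pos (det_scalarGL_pos c hc)]
  have hden : UpperHalfPlane.denom (scalarGL c hc) τ = c := by
    simp [UpperHalfPlane.denom]
  rw [ModularForm.slash_apply, hσ, det_scalarGL, hden, hsmul]
  simp only [ContinuousAlgEquiv.refl_apply, Pi.smul_apply, smul_eq_mul]
  have habs : ((|c ^ 2| : ℝ) : ℂ) = ((|c| : ℝ) : ℂ) ^ 2 := by
    rw [abs_pow]; push_cast; ring
  have hc' : ((|c| : ℝ) : ℂ) ≠ 0 := by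
    exact_mod_cast abs_ne_zero.mpr hc
  rw [habs, ← zpow_natCast (((|c| : ℝ) : ℂ)) 2, ← zpow_mul]
  have : ((2 : ℕ) : ℤ) * (k - 1) = 2 * k - 2 := by push_cast; ring
  rw [this]
  ring

/-! ### Matrix identities -/

theorem coe_S_mul_T_zpow (j : ℤ) :
    ((S * T ^ j : SL(2, ℤ)) : Matrix (Fin 2) (Fin 2) ℤ) = !![0, -1; 1, j] := by
  rw [Matrix.SpecialLinearGroup.coe_mul, coe_S, coe_T_zpow]
  ext a b
  fin_cases a <;> fin_cases b <;> simp [Matrix.mul_apply, Fin.sum_univ_two]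

theorem frickeMatrix_mul_heckeMatrix {p : ℕ} (hp : p ≠ 0) (j : ℕ) :
    frickeMatrix p * heckeMatrix p j =
      scalarGL (p : ℝ) (by exact_mod_cast hp) * mapGL ℝ (S * T ^ (j : ℤ)) := by
  apply Matrix.GeneralLinearGroup.ext
  intro a b
  rw [Matrix.GeneralLinearGroup.coe_mul, Matrix.GeneralLinearGroup.coe_mul, val_frickeMatrix hp,
    val_heckeMatrix hp, val_scalarGL, mapGL_coe_matrix, Matrix.SpecialLinearGroup.map_apply_coe,
    coe_S_mul_T_zpow]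
  fin_cases a <;> fin_cases b <;> simp [Matrix.mul_apply, Fin.sum_univ_two]

theorem heckeDiagMatrix_mul_frickeMatrix {p : ℕ} (hp : p ≠ 0) :
    heckeDiagMatrix p * frickeMatrix p =
      scalarGL (p : ℝ) (by exact_mod_cast hp) * mapGL ℝ S := by
  apply Matrix.GeneralLinearGroup.ext
  intro a b
  rw [Matrix.GeneralLinearGroup.coe_mul, Matrix.GeneralLinearGroup.coe_mul, val_frickeMatrix hp,
    val_heckeDiagMatrix hp, val_scalarGL, mapGL_coe_matrix, Matrix.SpecialLinearGroup.map_apply_coe,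
    coe_S]
  fin_cases a <;> fin_cases b <;> simp [Matrix.mul_apply, Fin.sum_univ_two]

theorem frickeMatrix_eq {p : ℕ} (hp : p ≠ 0) :
    frickeMatrix p = mapGL ℝ S * heckeDiagMatrix p := by
  apply Matrix.GeneralLinearGroup.ext
  intro a b
  rw [Matrix.GeneralLinearGroup.coe_mul, val_frickeMatrix hp,
    val_heckeDiagMatrix hp, mapGL_coe_matrix, Matrix.SpecialLinearGroup.map_apply_coe, coe_S]
  fin_cases a <;> fin_cases b <;> simp [Matrix.mul_apply, Fin.sum_univ_two]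

theorem frickeMatrix_mul_self {p : ℕ} (hp : p ≠ 0) :
    frickeMatrix p * frickeMatrix p =
      scalarGL (-(p : ℝ)) (by simpa using hp) := by
  apply Matrix.GeneralLinearGroup.ext
  intro a b
  rw [Matrix.GeneralLinearGroup.coe_mul, val_frickeMatrix hp, val_scalarGL]
  fin_cases a <;> fin_cases b <;> simp [Matrix.mul_apply, Fin.sum_univ_two]

/-- the `W`-conjugate of an element of `Γ₀(p)` -/
def conjW (p : ℕ) (γ : SL(2, ℤ)) (h : (p : ℤ) ∣ γ 1 0) : SL(2, ℤ) :=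
  ⟨!![γ 1 1, -(γ 1 0 / p); -(p * γ 0 1), γ 0 0], by
    obtain ⟨c, hc⟩ := h
    have hdet : γ 0 0 * γ 1 1 - γ 0 1 * γ 1 0 = 1 := by
      have := γ.det_coe
      rw [Matrix.det_fin_two] at this
      exact this
    rw [Matrix.det_fin_two_of, hc]
    rcases eq_or_ne (p : ℤ) 0 with hp | hp
    · rw [hp] at hc ⊢
      simp only [zero_mul] at hc
      rw [hc] at hdet
      simp only [zero_mul, Int.ediv_zero, neg_zero, mul_zero, sub_zero]
      linarith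
    · rw [Int.mul_ediv_cancel_left _ hp]
      rw [hc] at hdet
      linarith⟩

theorem conjW_mem_Gamma0 (p : ℕ) (γ : SL(2, ℤ)) (h : (p : ℤ) ∣ γ 1 0) :
    conjW p γ h ∈ Gamma0 p := by
  rw [Gamma0_mem, ZMod.intCast_zmod_eq_zero_iff_dvd]
  show (p : ℤ) ∣ (!![γ 1 1, -(γ 1 0 / p); -(p * γ 0 1), γ 0 0] : Matrix (Fin 2) (Fin 2) ℤ) 1 0
  simp

theorem frickeMatrix_mul_mapGL {p : ℕ} (hp : p ≠ 0) (γ : SL(2, ℤ)) (h : (p : ℤ) ∣ γ 1 0) :
    frickeMatrix p * mapGL ℝ γ = mapGL ℝ (conjW p γ h) * frickeMatrix p := by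
  apply Matrix.GeneralLinearGroup.ext
  intro a b
  rw [Matrix.GeneralLinearGroup.coe_mul, Matrix.GeneralLinearGroup.coe_mul, val_frickeMatrix hp,
    mapGL_coe_matrix, mapGL_coe_matrix, Matrix.SpecialLinearGroup.map_apply_coe,
    Matrix.SpecialLinearGroup.map_apply_coe]
  obtain ⟨c, hc⟩ := h
  have hpz : (p : ℤ) ≠ 0 := by exact_mod_cast hp
  have hdiv : γ 1 0 / (p : ℤ) = c := by rw [hc, Int.mul_ediv_cancel_left _ hpz]
  have hc' : ((γ 1 0 : ℤ) : ℝ) = (p : ℝ) * (c : ℝ) := by rw [hc]; push_cast; ring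
  fin_cases a <;> fin_cases b <;>
    simp [conjW, Matrix.mul_apply, Fin.sum_univ_two, hdiv, hc', mul_comm]

/-! ### The Fricke operator -/

/-- the Fricke operator `f ↦ f ∣[k] W` -/
def frickeW (k : ℤ) (p : ℕ) (f : ℍ → ℂ) : ℍ → ℂ := f ∣[k] frickeMatrix p

variable {p : ℕ} {k : ℤ} {f : ℍ → ℂ}

theorem frickeW_slash_of_mem_Gamma0 (hp : p ≠ 0)
    (hinv : ∀ γ ∈ Gamma0 p, f ∣[k] (γ : SL(2, ℤ)) = f) (γ : SL(2, ℤ)) (hγ : γ ∈ Gamma0 p) :
    frickeW k p f ∣[k] γ = frickeW k p f := by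
  have h : (p : ℤ) ∣ γ 1 0 := by
    rw [Gamma0_mem, ZMod.intCast_zmod_eq_zero_iff_dvd] at hγ; exact hγ
  unfold frickeW
  have e1 : ∀ (g : ℍ → ℂ) (δ : SL(2, ℤ)), g ∣[k] δ = g ∣[k] (mapGL ℝ δ) := fun _ _ => rfl
  rw [e1, ← SlashAction.slash_mul, frickeMatrix_mul_mapGL hp γ h,
    SlashAction.slash_mul, ← e1, hinv _ (conjW_mem_Gamma0 p γ h)]

theorem heckeDiagMatrix_smul [NeZero p] (τ : ℍ) : heckeDiagMatrix p • τ = mulN p τ := by
  apply UpperHalfPlane.ext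
  rw [coe_heckeDiagMatrix_smul (NeZero.ne p), coe_mulN]

/-- `f ∣ W = p^(k-1) (f ∣ S)(p z)` -/
theorem frickeW_eq_Vd [NeZero p] (k : ℤ) (f : ℍ → ℂ) :
    frickeW k p f = ((p : ℂ) ^ (k - 1)) • Vd p (f ∣[k] S) := by
  have e1 : ∀ (g : ℍ → ℂ) (δ : SL(2, ℤ)), g ∣[k] δ = g ∣[k] (mapGL ℝ δ) := fun _ _ => rfl
  unfold frickeW
  rw [frickeMatrix_eq (NeZero.ne p), SlashAction.slash_mul, ← e1]
  ext τ
  rw [slash_heckeDiagMatrix_apply k (NeZero.ne p), heckeDiagMatrix_smul]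
  rfl

theorem isMF_frickeW [NeZero p] (hf : IsMF p k f) : IsMF p k (frickeW k p f) := by
  refine ⟨hf.1.slash k _, frickeW_slash_of_mem_Gamma0 (NeZero.ne p) hf.2.1, fun δ => ?_⟩
  rw [frickeW_eq_Vd, ModularForm.SL_smul_slash]
  refine (isBoundedAtImInfty_Vd_slash p (fun δ' => ?_) δ).const_smul_left _
  rw [← SlashAction.slash_mul]
  exact hf.2.2 _

theorem isCF_frickeW [NeZero p] (hf : IsCF p k f) : IsCF p k (frickeW k p f) := by
  refine ⟨hf.1.slash k _, frickeW_slash_of_mem_Gamma0 (NeZero.ne p) hf.2.1, fun δ => ?_⟩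
  rw [frickeW_eq_Vd, ModularForm.SL_smul_slash]
  have h := isZeroAtImInfty_Vd_slash p (f := f ∣[k] S) (k := k) (fun δ' => by
    rw [← SlashAction.slash_mul]
    exact hf.2.2 _) δ
  have h2 := h.const_mul ((p : ℂ) ^ (k - 1))
  rw [mul_zero] at h2
  exact h2

/-- `W² = -p`: raw form -/
theorem frickeW_frickeW (hp : p ≠ 0) (k : ℤ) (f : ℍ → ℂ) :
    frickeW k p (frickeW k p f) =
      ((((|(-(p : ℝ))| : ℝ) : ℂ) ^ (2 * k - 2)) * ((-(p : ℝ) : ℝ) : ℂ) ^ (-k)) • f := by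
  unfold frickeW
  rw [← SlashAction.slash_mul, frickeMatrix_mul_self hp, slash_scalarGL]

theorem frickeW_frickeW_two (hp : p ≠ 0) (f : ℍ → ℂ) :
    frickeW 2 p (frickeW 2 p f) = f := by
  rw [frickeW_frickeW hp]
  have hpC : (p : ℂ) ≠ 0 := by exact_mod_cast hp
  have : ((((|(-(p : ℝ))| : ℝ) : ℂ) ^ (2 * (2 : ℤ) - 2)) * ((-(p : ℝ) : ℝ) : ℂ) ^ (-(2 : ℤ))) = 1 := by
    rw [abs_neg, Nat.abs_cast]
    push_cast
    norm_num
    field_simp
  rw [this, one_smul]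

/-- `f ∣ S T^j` in terms of the Fricke image and the Hecke matrices -/
theorem slash_ST (hp : p ≠ 0) (k : ℤ) (f : ℍ → ℂ) (j : ℕ) :
    (frickeW k p f) ∣[k] heckeMatrix p j =
      ((p : ℂ) ^ (k - 2)) • (f ∣[k] (S * T ^ (j : ℤ))) := by
  have e1 : ∀ (g : ℍ → ℂ) (δ : SL(2, ℤ)), g ∣[k] δ = g ∣[k] (mapGL ℝ δ) := fun _ _ => rfl
  unfold frickeW
  rw [← SlashAction.slash_mul, frickeMatrix_mul_heckeMatrix hp, SlashAction.slash_mul,
    slash_scalarGL, ← e1, ModularForm.SL_smul_slash]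
  congr 1
  have hpC : (p : ℂ) ≠ 0 := by exact_mod_cast hp
  rw [Nat.abs_cast]
  push_cast
  rw [← zpow_add₀ hpC]
  congr 1
  ring

/-- **trace formula**: `Tr f = f + p^(2-k) U_p (f ∣ W)` -/
theorem trFun_eq (hp : p ≠ 0) (k : ℤ) (f : ℍ → ℂ) :
    trFun k p f = f + ((p : ℂ) ^ (2 - k)) • heckeU k p (frickeW k p f) := by
  have hpC : (p : ℂ) ≠ 0 := by exact_mod_cast hp
  rw [trFun_def, heckeU_def, Finset.smul_sum]
  congr 1
  refine Finset.sum_congr rfl fun j _ => ?_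
  rw [slash_ST hp, smul_smul, ← zpow_add₀ hpC, show (2 - k) + (k - 2) = 0 by ring, zpow_zero,
    one_smul]

/-- multiplicativity of the Fricke operator -/
theorem frickeW_mul (hp : p ≠ 0) (k1 k2 : ℤ) (f g : ℍ → ℂ) :
    frickeW (k1 + k2) p (f * g) = (p : ℂ) • (frickeW k1 p f * frickeW k2 p g) := by
  unfold frickeW
  rw [ModularForm.mul_slash, det_frickeMatrix hp, Nat.abs_cast]
  ext τ
  simp only [Pi.smul_apply, Pi.mul_apply, Complex.real_smul, smul_eq_mul]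
  push_cast
  ring

/-- `V_p ξ = p^(1-k) ξ ∣ diag(p,1)` -/
theorem Vd_eq_slash [NeZero p] (k : ℤ) (ξ : ℍ → ℂ) :
    Vd p ξ = ((p : ℂ) ^ (1 - k)) • (ξ ∣[k] heckeDiagMatrix p) := by
  have hpC : (p : ℂ) ≠ 0 := by exact_mod_cast NeZero.ne p
  ext τ
  rw [Pi.smul_apply, slash_heckeDiagMatrix_apply k (NeZero.ne p), heckeDiagMatrix_smul, smul_eq_mul,
    ← mul_assoc, ← zpow_add₀ hpC, show (1 - k) + (k - 1) = 0 by ring, zpow_zero, one_mul]
  rfl

/-- the Fricke image of `ξ(pz)` for a level one form `ξ` is `p⁻¹ ξ` -/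
theorem frickeW_Vd [NeZero p] {ξ : ℍ → ℂ} (hξ : IsMF 1 k ξ) :
    frickeW k p (Vd p ξ) = ((p : ℂ)⁻¹) • ξ := by
  have hp : p ≠ 0 := NeZero.ne p
  have hpC : (p : ℂ) ≠ 0 := by exact_mod_cast hp
  have e1 : ∀ (g : ℍ → ℂ) (δ : SL(2, ℤ)), g ∣[k] δ = g ∣[k] (mapGL ℝ δ) := fun _ _ => rfl
  have hS : ξ ∣[k] S = ξ := hξ.slash_levelOne S
  have hσ : UpperHalfPlane.σ (frickeMatrix p) = .refl ℝ ℂ := by
    rw [UpperHalfPlane.σ, if_pos (by rw [det_frickeMatrix hp]; exact_mod_cast Nat.pos_of_ne_zero hp)]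
  unfold frickeW
  rw [Vd_eq_slash k ξ, ModularForm.smul_slash, hσ, ← SlashAction.slash_mul,
    heckeDiagMatrix_mul_frickeMatrix hp, SlashAction.slash_mul, slash_scalarGL, ← e1,
    ModularForm.SL_smul_slash, hS, smul_smul]
  congr 1
  simp only [ContinuousAlgEquiv.refl_apply]
  rw [Nat.abs_cast]
  push_cast
  rw [← zpow_add₀ hpC, ← zpow_add₀ hpC, ← zpow_neg_one]
  congr 1
  ring

end

end Fermat.Agent.S16.LevelOne.Fricke
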