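import Mathlib
import Fermat.Prelude.Thm_CongruenceSubgroup_one_mem_strictPeriods_Gamma0
import Fermat.Agent.S20.P1Model
import Fermat.Agent.S20.Defs
import Fermat.Agent.S20.LevelOne

/-!
# S16, level-one package: the explicit trace from `Γ₀(p)` to `SL(2, ℤ)`

For a prime `p` the `p + 1` matrices `1`, `S * T ^ i` (`0 ≤ i < p`) are representatives of
`Γ₀(p) \ SL(2, ℤ)`.  Hence Mathlib's `ModularForm.trace 𝒮ℒ F` of a form `F` on `Γ₀(p)` is
`F + ∑ i < p, F ∣[k] (S * T ^ i)`.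
-/

set_option autoImplicit false

open Matrix ModularGroup CongruenceSubgroup UpperHalfPlane ModularForm
open scoped MatrixGroups ModularForm Manifold

namespace Fermat.Agent.S16.TracePrime

open Fermat.Agent.S20

variable (p : ℕ) [Fact p.Prime]

/-- The coset representative `(S * T ^ i)⁻¹` (`i` an integer). -/
def rep (i : ℤ) : SL(2, ℤ) := (S * T ^ i)⁻¹

lemma coe_S_mul_T_zpow (i : ℤ) : ((S * T ^ i : SL(2, ℤ)) : Matrix (Fin 2) (Fin 2) ℤ) =
    !![0, -1; 1, i] := by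
  rw [Matrix.SpecialLinearGroup.coe_mul, coe_S, coe_T_zpow]
  ext a b
  fin_cases a <;> fin_cases b <;> simp [Matrix.mul_apply, Fin.sum_univ_two]

lemma coe_rep (i : ℤ) : ((rep i : SL(2, ℤ)) : Matrix (Fin 2) (Fin 2) ℤ) = !![i, 1; -1, 0] := by
  rw [rep, Matrix.SpecialLinearGroup.coe_inv, coe_S_mul_T_zpow, Matrix.adjugate_fin_two_of]
  simp

@[simp] lemma rep_zero_zero (i : ℤ) : rep i 0 0 = i := by
  have := congrFun (congrFun (coe_rep i) 0) 0
  simpa using this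

@[simp] lemma rep_one_zero (i : ℤ) : rep i 1 0 = -1 := by
  have := congrFun (congrFun (coe_rep i) 1) 0
  simpa using this

/-- `g⁻¹ * rep i ∈ Γ₀(p)` iff the first column `(a, c)` of `g` satisfies `a + i c = 0` mod `p`. -/
lemma inv_mul_rep_mem_iff (g : SL(2, ℤ)) (i : ℤ) :
    g⁻¹ * rep i ∈ Gamma0 p ↔
      ((g 0 0 : ℤ) : ZMod p) + (i : ZMod p) * ((g 1 0 : ℤ) : ZMod p) = 0 := by
  rw [inv_mul_mem_Gamma0_iff, rep_zero_zero, rep_one_zero]
  push_cast
  constructor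
  · intro h
    linear_combination -h
  · intro h
    linear_combination -h

lemma inv_mul_one_mem_iff (g : SL(2, ℤ)) :
    g⁻¹ * 1 ∈ Gamma0 p ↔ ((g 1 0 : ℤ) : ZMod p) = 0 := by
  rw [mul_one, inv_mem_iff, Gamma0_mem]

/-! ### The coset space `𝒮ℒ ⧸ Γ₀(p)` inside `GL(2, ℝ)` -/

/-- `Γ₀(p)` as a subgroup of `GL(2, ℝ)` (the coercion used by Mathlib's `ModularForm`). -/
abbrev G0 : Subgroup (GL (Fin 2) ℝ) := (Gamma0 p : Subgroup (GL (Fin 2) ℝ))

/-- `SL(2, ℤ) → 𝒮ℒ`. -/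
def toSL : SL(2, ℤ) →* ↥(𝒮ℒ) := (Matrix.SpecialLinearGroup.mapGL ℝ).rangeRestrict

@[simp] lemma coe_toSL (g : SL(2, ℤ)) : ((toSL g : ↥(𝒮ℒ)) : GL (Fin 2) ℝ) =
    Matrix.SpecialLinearGroup.mapGL ℝ g := rfl

lemma toSL_surjective : Function.Surjective toSL :=
  MonoidHom.rangeRestrict_surjective _

lemma toSL_mem_iff (g : SL(2, ℤ)) :
    toSL g ∈ (G0 p).subgroupOf 𝒮ℒ ↔ g ∈ Gamma0 p := by
  rw [Subgroup.mem_subgroupOf, coe_toSL, Subgroup.mem_map]
  constructor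
  · rintro ⟨h, hh, hgh⟩
    rwa [← Matrix.SpecialLinearGroup.mapGL_injective hgh]
  · intro h
    exact ⟨g, h, rfl⟩

/-- The quotient map `SL(2, ℤ) → 𝒮ℒ ⧸ Γ₀(p)`. -/
def proj (g : SL(2, ℤ)) : ↥(𝒮ℒ) ⧸ (G0 p).subgroupOf 𝒮ℒ := QuotientGroup.mk (toSL g)

lemma proj_surjective : Function.Surjective (proj p) := fun q => by
  obtain ⟨h, rfl⟩ := QuotientGroup.mk_surjective q
  obtain ⟨g, rfl⟩ := toSL_surjective h
  exact ⟨g, rfl⟩

lemma proj_eq_iff (g h : SL(2, ℤ)) : proj p g = proj p h ↔ g⁻¹ * h ∈ Gamma0 p := by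
  rw [proj, proj, QuotientGroup.eq, ← map_inv, ← map_mul, toSL_mem_iff]

/-- The parametrisation of the cosets by `Option (ZMod p)`. -/
def cosetMap : Option (ZMod p) → ↥(𝒮ℒ) ⧸ (G0 p).subgroupOf 𝒮ℒ
  | none => proj p 1
  | some i => proj p (rep (i.val : ℤ))

lemma cast_val_int (i : ZMod p) : (((i.val : ℕ) : ℤ) : ZMod p) = i := by
  haveI : NeZero p := ⟨(Fact.out : p.Prime).ne_zero⟩
  simp

lemma cosetMap_injective : Function.Injective (cosetMap p) := by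
  haveI : NeZero p := ⟨(Fact.out : p.Prime).ne_zero⟩
  rintro (_ | i) (_ | j) h
  · rfl
  · exfalso
    simp only [cosetMap] at h
    rw [proj_eq_iff, inv_one, one_mul, Gamma0_mem, rep_one_zero] at h
    have h1 : ((-1 : ℤ) : ZMod p) ≠ 0 := by
      push_cast
      exact neg_ne_zero.mpr one_ne_zero
    exact h1 h
  · exfalso
    simp only [cosetMap] at h
    rw [proj_eq_iff, inv_mul_one_mem_iff, rep_one_zero] at h
    have h1 : ((-1 : ℤ) : ZMod p) ≠ 0 := by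
      push_cast
      exact neg_ne_zero.mpr one_ne_zero
    exact h1 h
  · simp only [cosetMap] at h
    rw [proj_eq_iff, inv_mul_rep_mem_iff, rep_zero_zero, rep_one_zero, cast_val_int,
      cast_val_int] at h
    push_cast at h
    congr 1
    linear_combination h

lemma cosetMap_surjective : Function.Surjective (cosetMap p) := by
  haveI : NeZero p := ⟨(Fact.out : p.Prime).ne_zero⟩
  intro q
  obtain ⟨g, rfl⟩ := proj_surjective p q
  by_cases hc : ((g 1 0 : ℤ) : ZMod p) = 0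
  · refine ⟨none, ?_⟩
    simp only [cosetMap]
    rw [eq_comm, proj_eq_iff, inv_mul_one_mem_iff]
    exact hc
  · refine ⟨some (-((g 0 0 : ℤ) : ZMod p) / ((g 1 0 : ℤ) : ZMod p)), ?_⟩
    simp only [cosetMap]
    rw [eq_comm, proj_eq_iff, inv_mul_rep_mem_iff, cast_val_int]
    field_simp
    ring

lemma cosetMap_bijective : Function.Bijective (cosetMap p) :=
  ⟨cosetMap_injective p, cosetMap_surjective p⟩

/-! ### The trace formula -/

variable {p} {k : ℤ}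

lemma quotientFunc_proj (F : ModularForm (Gamma0 p) k) (g : SL(2, ℤ)) :
    SlashInvariantForm.quotientFunc (ℋ := 𝒮ℒ) F (proj p g) = (F : ℍ → ℂ) ∣[k] g⁻¹ := by
  show SlashInvariantForm.quotientFunc (ℋ := 𝒮ℒ) F ⟦toSL g⟧ = _
  rw [SlashInvariantForm.quotientFunc_mk, coe_toSL, ← map_inv]
  rfl

/-- **Explicit trace**: `Tr F = F + ∑ i, F ∣ (S T^i)`. -/
theorem trace_eq (F : ModularForm (Gamma0 p) k) :
    (ModularForm.trace 𝒮ℒ F : ℍ → ℂ) =
      (F : ℍ → ℂ) + ∑ i : ZMod p, (F : ℍ → ℂ) ∣[k] (S * T ^ ((i.val : ℕ) : ℤ)) := by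
  haveI : NeZero p := ⟨(Fact.out : p.Prime).ne_zero⟩
  letI := Fintype.ofFinite (↥(𝒮ℒ) ⧸ (G0 p).subgroupOf 𝒮ℒ)
  rw [ModularForm.coe_trace]
  rw [← Fintype.sum_bijective (cosetMap p) (cosetMap_bijective p)
    (fun o => SlashInvariantForm.quotientFunc (ℋ := 𝒮ℒ) F (cosetMap p o)) _ (fun _ => rfl)]
  rw [Fintype.sum_option]
  congr 1
  · simp only [cosetMap]
    rw [quotientFunc_proj, inv_one, SlashAction.slash_one]
  · refine Finset.sum_congr rfl fun i _ => ?_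
    simp only [cosetMap]
    rw [quotientFunc_proj, rep, inv_inv]

omit [Fact p.Prime] in
lemma sum_zmod_val [NeZero p] {M : Type*} [AddCommMonoid M] (f : ℕ → M) :
    ∑ i : ZMod p, f i.val = ∑ i ∈ Finset.range p, f i := by
  refine Finset.sum_nbij' (fun i => i.val) (fun j => (j : ZMod p)) ?_ ?_ ?_ ?_ ?_
  · intro i _
    exact Finset.mem_range.mpr (ZMod.val_lt i)
  · intro j _
    exact Finset.mem_univ _
  · intro i _
    exact ZMod.natCast_zmod_val i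
  · intro j hj
    exact ZMod.val_cast_of_lt (Finset.mem_range.mp hj)
  · intro i _
    rfl

lemma slash_S_mul_T_zpow_apply (f : ℍ → ℂ) (i : ℤ) (z : ℍ) :
    (f ∣[k] (S * T ^ i)) z = (f ∣[k] S) ((i : ℝ) +ᵥ z) := by
  rw [SlashAction.slash_mul, SL_slash_apply (f ∣[k] S) (T ^ i) z, modular_T_zpow_smul]
  have hden : denom (T ^ i : SL(2, ℤ)) z = 1 := by
    rw [ModularGroup.denom_apply, coe_T_zpow]
    simp
  rw [hden, _root_.one_zpow, mul_one]

/-- **Explicit trace, pointwise**: `Tr F (z) = F z + ∑ i < p, (F ∣ S)(z + i)`. -/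
theorem trace_apply (F : ModularForm (Gamma0 p) k) (z : ℍ) :
    ModularForm.trace 𝒮ℒ F z =
      F z + ∑ i ∈ Finset.range p, ((F : ℍ → ℂ) ∣[k] S) (((i : ℕ) : ℝ) +ᵥ z) := by
  haveI : NeZero p := ⟨(Fact.out : p.Prime).ne_zero⟩
  have h := congrFun (trace_eq F) z
  rw [h, Pi.add_apply, Finset.sum_apply]
  congr 1
  rw [← sum_zmod_val (p := p) (fun i => ((F : ℍ → ℂ) ∣[k] S) (((i : ℕ) : ℝ) +ᵥ z))]
  refine Finset.sum_congr rfl fun i _ => ?_
  rw [slash_S_mul_T_zpow_apply]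
  simp

/-- In weight two the trace to level one vanishes. -/
theorem trace_weight_two (F : ModularForm (Gamma0 p) 2) (z : ℍ) :
    F z + ∑ i ∈ Finset.range p, ((F : ℍ → ℂ) ∣[(2 : ℤ)] S) (((i : ℕ) : ℝ) +ᵥ z) = 0 := by
  rw [← trace_apply]
  have h0 : ModularForm.trace 𝒮ℒ F = 0 := by
    have hr := ModularForm.levelOne_weight_two_rank_zero
    rw [rank_zero_iff_forall_zero] at hr
    exact hr _
  rw [h0]
  rfl

/-! ### Function-level form (consumer shape of section (C)) -/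

/-- The trace `f + ∑ j < p, f ∣[k] (S T^j)` at function level. -/
noncomputable def trFun (k : ℤ) (p : ℕ) (f : ℍ → ℂ) : ℍ → ℂ :=
  f + ∑ j ∈ Finset.range p, f ∣[k] (ModularGroup.S * ModularGroup.T ^ (j : ℤ))

lemma trFun_apply (k : ℤ) (p : ℕ) (f : ℍ → ℂ) (z : ℍ) :
    trFun k p f z = f z + ∑ j ∈ Finset.range p, (f ∣[k] S) (((j : ℕ) : ℝ) +ᵥ z) := by
  rw [trFun, Pi.add_apply, Finset.sum_apply]
  congr 1
  refine Finset.sum_congr rfl fun j _ => ?_
  rw [slash_S_mul_T_zpow_apply]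
  simp

/-- The trace of a function-level modular form on `Γ₀(p)` is a function-level modular form of
level one. -/
theorem isMF_trFun {f : ℍ → ℂ} (hf : IsMF p k f) : IsMF 1 k (trFun k p f) := by
  haveI : NeZero p := ⟨(Fact.out : p.Prime).ne_zero⟩
  have h := trace_eq hf.toMF
  rw [IsMF.coe_toMF] at h
  have h2 : trFun k p f = (ModularForm.trace 𝒮ℒ hf.toMF : ℍ → ℂ) := by
    rw [h, trFun]
    congr 1
    exact (sum_zmod_val (p := p)
      (fun j => f ∣[k] (ModularGroup.S * ModularGroup.T ^ ((j : ℕ) : ℤ)))).symm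
  rw [h2]
  exact isMF_coe_levelOne _

/-- `trFun` agrees with Mathlib's trace. -/
theorem trFun_eq_trace (F : ModularForm (Gamma0 p) k) :
    trFun k p F = (ModularForm.trace 𝒮ℒ F : ℍ → ℂ) := by
  haveI : NeZero p := ⟨(Fact.out : p.Prime).ne_zero⟩
  rw [trace_eq, trFun]
  congr 1
  exact (sum_zmod_val (p := p)
    (fun j => (F : ℍ → ℂ) ∣[k] (ModularGroup.S * ModularGroup.T ^ ((j : ℕ) : ℤ)))).symm

/-- In weight two the function-level trace vanishes. -/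
theorem trFun_weight_two {f : ℍ → ℂ} (hf : IsMF p 2 f) : trFun 2 p f = 0 :=
  IsMF.eq_zero_of_weight_two (isMF_trFun hf)

/-! ### The Fricke involution -/

variable (p)

lemma p_ne_zero_real : (p : ℝ) ≠ 0 := by
  exact_mod_cast (Fact.out : p.Prime).ne_zero

/-- The Fricke matrix `[[0, -1], [p, 0]]`. -/
noncomputable def W : GL (Fin 2) ℝ :=
  Matrix.GeneralLinearGroup.mkOfDetNeZero !![0, -1; (p : ℝ), 0]
    (by rw [Matrix.det_fin_two_of]; simpa using p_ne_zero_real p)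

@[simp] lemma val_W : (W p).val = !![0, -1; (p : ℝ), 0] := rfl

lemma det_W : (W p).det.val = (p : ℝ) := by
  rw [Matrix.GeneralLinearGroup.val_det_apply, val_W, Matrix.det_fin_two_of]
  simp

omit [Fact p.Prime] in
lemma mapGL_val_apply (g : SL(2, ℤ)) (i j : Fin 2) :
    (Matrix.SpecialLinearGroup.mapGL ℝ g).val i j = ((g i j : ℤ) : ℝ) := by
  rw [Matrix.SpecialLinearGroup.mapGL_coe_matrix]
  simp

/-- Conjugation by the Fricke matrix preserves `Γ₀(p)`. -/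
lemma exists_fricke_conj (γ : SL(2, ℤ)) (hγ : γ ∈ Gamma0 p) :
    ∃ γ' : SL(2, ℤ), γ' ∈ Gamma0 p ∧
      W p * (Matrix.SpecialLinearGroup.mapGL ℝ γ) =
        (Matrix.SpecialLinearGroup.mapGL ℝ γ') * W p ∧
      W p * (Matrix.SpecialLinearGroup.mapGL ℝ γ') =
        (Matrix.SpecialLinearGroup.mapGL ℝ γ) * W p := by
  rw [Gamma0_mem, ZMod.intCast_zmod_eq_zero_iff_dvd] at hγ
  obtain ⟨c', hc'⟩ := hγ
  have hdet := det_eq γ
  have hdet' : (!![γ 1 1, -c'; -(p : ℤ) * γ 0 1, γ 0 0] : Matrix (Fin 2) (Fin 2) ℤ).det = 1 := by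
    rw [Matrix.det_fin_two_of]
    rw [hc'] at hdet
    linear_combination hdet
  set γ' : SL(2, ℤ) := ⟨!![γ 1 1, -c'; -(p : ℤ) * γ 0 1, γ 0 0], hdet'⟩ with hγ'
  have e00 : γ' 0 0 = γ 1 1 := rfl
  have e01 : γ' 0 1 = -c' := rfl
  have e10 : γ' 1 0 = -(p : ℤ) * γ 0 1 := rfl
  have e11 : γ' 1 1 = γ 0 0 := rfl
  have hc'R : ((γ 1 0 : ℤ) : ℝ) = (p : ℝ) * (c' : ℝ) := by
    rw [hc']; push_cast; ring
  refine ⟨γ', ?_, ?_, ?_⟩
  · rw [Gamma0_mem, e10]
    simp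
  · apply Units.ext
    rw [Units.val_mul, Units.val_mul, val_W]
    ext a b
    fin_cases a <;> fin_cases b <;>
      simp [Matrix.mul_apply, Fin.sum_univ_two, e00, e01, e10, e11, hc'R] <;>
      (try ring)
  · apply Units.ext
    rw [Units.val_mul, Units.val_mul, val_W]
    ext a b
    fin_cases a <;> fin_cases b <;>
      simp [Matrix.mul_apply, Fin.sum_univ_two, e00, e01, e10, e11, hc'R] <;>
      (try ring)

open ConjAct Pointwise in
/-- The Fricke matrix normalises `Γ₀(p)`. -/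
lemma conj_G0_eq : toConjAct (W p)⁻¹ • G0 p = G0 p := by
  ext x
  rw [map_inv, (G0 p).mem_inv_pointwise_smul_iff, toConjAct_smul]
  constructor
  · rintro ⟨γ, hγ, hx⟩
    obtain ⟨γ', hγ', -, h2⟩ := exists_fricke_conj p γ hγ
    refine ⟨γ', hγ', ?_⟩
    -- `W x W⁻¹ = γ`, so `x = W⁻¹ γ W = γ'`
    have hx' : x = (W p)⁻¹ * (Matrix.SpecialLinearGroup.mapGL ℝ γ) * W p := by
      rw [hx]; group
    rw [hx', mul_assoc, ← h2, ← mul_assoc, inv_mul_cancel, one_mul]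
  · rintro ⟨γ, hγ, rfl⟩
    obtain ⟨γ', hγ', h1, -⟩ := exists_fricke_conj p γ hγ
    refine ⟨γ', hγ', ?_⟩
    rw [h1, mul_assoc, mul_inv_cancel, mul_one]

variable {p}

/-- The Fricke transform `F ∣[k] W` of a modular form on `Γ₀(p)`, again a modular form on
`Γ₀(p)`. -/
noncomputable def fricke (F : ModularForm (Gamma0 p) k) : ModularForm (Gamma0 p) k where
  toFun := (F : ℍ → ℂ) ∣[k] W p
  slash_action_eq' γ hγ :=
    (ModularForm.translate F (W p)).slash_action_eq' γ (by rw [conj_G0_eq]; exact hγ)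
  holo' := (ModularForm.translate F (W p)).holo'
  bdd_at_cusps' hc :=
    (ModularForm.translate F (W p)).bdd_at_cusps' (by rw [conj_G0_eq]; exact hc)

@[simp] lemma coe_fricke (F : ModularForm (Gamma0 p) k) :
    (fricke F : ℍ → ℂ) = (F : ℍ → ℂ) ∣[k] W p := rfl

variable (p)

lemma p_pos_real : (0 : ℝ) < (p : ℝ) := by
  exact_mod_cast (Fact.out : p.Prime).pos

lemma p_ne_zero_complex : (p : ℂ) ≠ 0 := by
  exact_mod_cast (Fact.out : p.Prime).ne_zero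

/-- `z ↦ p z` on the upper half plane. -/
noncomputable def mulP (z : ℍ) : ℍ := ⟨(p : ℂ) * z, by
  rw [show ((p : ℂ)) = ((p : ℝ) : ℂ) by simp, Complex.im_ofReal_mul]
  exact mul_pos (p_pos_real p) z.im_pos⟩

/-- `z ↦ z / p` on the upper half plane. -/
noncomputable def divP (z : ℍ) : ℍ := ⟨(z : ℂ) / p, by
  rw [show ((p : ℂ)) = ((p : ℝ) : ℂ) by simp, Complex.div_ofReal_im]
  exact div_pos z.im_pos (p_pos_real p)⟩

@[simp] lemma coe_mulP (z : ℍ) : ((mulP p z : ℍ) : ℂ) = (p : ℂ) * z := rfl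
@[simp] lemma coe_divP (z : ℍ) : ((divP p z : ℍ) : ℂ) = (z : ℂ) / p := rfl

lemma coe_W_smul (z : ℍ) : ((W p • z : ℍ) : ℂ) = -1 / ((p : ℂ) * z) := by
  rw [coe_smul_of_det_pos (by rw [det_W]; exact p_pos_real p)]
  simp [num, denom]

lemma denom_W (z : ℍ) : denom (W p) z = (p : ℂ) * z := by
  simp [denom]

lemma slash_W_apply (f : ℍ → ℂ) (z : ℍ) :
    (f ∣[k] W p) z = f (W p • z) * (p : ℂ) ^ (k - 1) * ((p : ℂ) * z) ^ (-k) := by
  rw [ModularForm.slash_apply, denom_W, det_W, abs_of_pos (p_pos_real p)]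
  have hσ : σ (W p) = ContinuousAlgEquiv.refl ℝ ℂ := by
    rw [σ, if_pos (by rw [det_W]; exact p_pos_real p)]
  rw [hσ]
  simp

lemma coe_S_smul (z : ℍ) : ((S • z : ℍ) : ℂ) = (-(z : ℂ))⁻¹ := by
  rw [modular_S_smul]

lemma W_smul_S_smul (z : ℍ) : W p • (S • z) = divP p z := by
  apply UpperHalfPlane.ext
  rw [coe_W_smul, coe_S_smul, coe_divP]
  have hz : (z : ℂ) ≠ 0 := z.ne_zero
  have hp := p_ne_zero_complex p
  field_simp

lemma S_smul_mulP (z : ℍ) : S • mulP p z = W p • z := by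
  apply UpperHalfPlane.ext
  rw [coe_W_smul, coe_S_smul, coe_mulP]
  have hz : (z : ℂ) ≠ 0 := z.ne_zero
  have hp := p_ne_zero_complex p
  field_simp

/-- `(f ∣ W) ∣ S (z) = f (z / p) p^(k-1) (-p)^(-k)`. -/
lemma slash_W_slash_S_apply (f : ℍ → ℂ) (z : ℍ) :
    ((f ∣[k] W p) ∣[k] S) z = f (divP p z) * (p : ℂ) ^ (k - 1) * (-(p : ℂ)) ^ (-k) := by
  rw [SL_slash_apply, slash_W_apply, W_smul_S_smul, ModularGroup.denom_S, coe_S_smul]
  have hz : (z : ℂ) ≠ 0 := z.ne_zero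
  rw [mul_assoc, mul_assoc, mul_assoc, ← mul_zpow]
  congr 3
  field_simp

/-- `(f ∣ W)(z) = p^(k-1) (f ∣ S)(p z)`. -/
lemma slash_W_eq_slash_S (f : ℍ → ℂ) (z : ℍ) :
    (f ∣[k] W p) z = (p : ℂ) ^ (k - 1) * (f ∣[k] S) (mulP p z) := by
  rw [SL_slash_apply, slash_W_apply, S_smul_mulP, ModularGroup.denom_S, coe_mulP]
  ring

variable {p}

/-- **Fricke–trace identity** in weight two: for `G ∈ M₂(Γ₀(p))`,
`p (G ∣ S)(p z) = -(1/p) ∑_{i < p} G((z + i)/p)`. -/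
theorem fricke_trace (G : ModularForm (Gamma0 p) 2) (z : ℍ) :
    (p : ℂ) * ((G : ℍ → ℂ) ∣[(2 : ℤ)] S) (mulP p z) +
      (1 / (p : ℂ)) * ∑ i ∈ Finset.range p, G (divP p (((i : ℕ) : ℝ) +ᵥ z)) = 0 := by
  have h := trace_weight_two (fricke G) z
  rw [coe_fricke, slash_W_eq_slash_S] at h
  have h2 : ∀ i : ℕ, (((G : ℍ → ℂ) ∣[(2 : ℤ)] W p) ∣[(2 : ℤ)] S) (((i : ℕ) : ℝ) +ᵥ z) =
      (1 / (p : ℂ)) * G (divP p (((i : ℕ) : ℝ) +ᵥ z)) := by
    intro i
    rw [slash_W_slash_S_apply]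
    have hp := p_ne_zero_complex p
    have : (p : ℂ) ^ ((2 : ℤ) - 1) * (-(p : ℂ)) ^ (-(2 : ℤ)) = 1 / (p : ℂ) := by
      rw [show (2 : ℤ) - 1 = 1 by norm_num, zpow_one, _root_.zpow_neg, zpow_ofNat]
      field_simp
    rw [mul_assoc, this, mul_comm]
  rw [Finset.sum_congr rfl (fun i _ => h2 i), ← Finset.mul_sum] at h
  rw [show (2 : ℤ) - 1 = 1 by norm_num, zpow_one] at h
  exact h

/-! ### `q`-expansion form -/

variable (p)

local notation "𝕢" => Function.Periodic.qParam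

open Complex Function in
omit [Fact p.Prime] in
/-- Sum of the `n`-th powers of the `p`-th roots of unity. -/
lemma sum_rootsOfUnity_pow [NeZero p] (n : ℕ) :
    ∑ i ∈ Finset.range p, (cexp (2 * Real.pi * Complex.I / p) ^ i) ^ n =
      if p ∣ n then (p : ℂ) else 0 := by
  have hp0 : p ≠ 0 := NeZero.ne p
  have hζ := Complex.isPrimitiveRoot_exp p hp0
  set ζ := cexp (2 * Real.pi * Complex.I / p) with hζdef
  have hsw : ∀ i : ℕ, (ζ ^ i) ^ n = (ζ ^ n) ^ i := fun i => by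
    rw [← pow_mul, ← pow_mul, mul_comm]
  rw [Finset.sum_congr rfl (fun i _ => hsw i)]
  split_ifs with hdvd
  · rw [(hζ.pow_eq_one_iff_dvd n).mpr hdvd]
    simp
  · have hne : ζ ^ n ≠ 1 := fun h => hdvd ((hζ.pow_eq_one_iff_dvd n).mp h)
    have hpow : (ζ ^ n) ^ p = 1 := by
      rw [← pow_mul, mul_comm, pow_mul, hζ.pow_eq_one, one_pow]
    have := mul_geom_sum (ζ ^ n) p
    rw [hpow, sub_self] at this
    rcases mul_eq_zero.mp this with h | h
    · exact absurd (sub_eq_zero.mp h) hne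
    · exact h

open Complex Function in
/-- The `q`-parameter at `(z + i)/p`. -/
lemma qParam_divP (z : ℍ) (i : ℕ) :
    𝕢 1 (divP p (((i : ℕ) : ℝ) +ᵥ z) : ℂ) =
      𝕢 (p : ℝ) (z : ℂ) * cexp (2 * Real.pi * Complex.I / p) ^ i := by
  rw [Function.Periodic.qParam, Function.Periodic.qParam, ← Complex.exp_nat_mul, ← Complex.exp_add, coe_divP,
    UpperHalfPlane.coe_vadd]
  congr 1
  have hp := p_ne_zero_complex p
  push_cast
  field_simp
  ring

open Complex Function in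
lemma qParam_p_pow (z : ℍ) : 𝕢 (p : ℝ) (z : ℂ) ^ p = 𝕢 1 (z : ℂ) := by
  rw [Function.Periodic.qParam, Function.Periodic.qParam, ← Complex.exp_nat_mul]
  congr 1
  have hp := p_ne_zero_complex p
  push_cast
  field_simp

open Complex Function in
/-- **`U_p` as an average**: if `G = ∑ a_n q^n` on `ℍ` then
`(1/p) ∑_{i<p} G((z+i)/p) = ∑ a_{pm} q^m`. -/
theorem hasSum_average (G : ℍ → ℂ) (a : ℕ → ℂ)
    (ha : ∀ w : ℍ, HasSum (fun n : ℕ => a n * 𝕢 1 (w : ℂ) ^ n) (G w)) (z : ℍ) :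
    HasSum (fun m : ℕ => a (p * m) * 𝕢 1 (z : ℂ) ^ m)
      ((1 / (p : ℂ)) * ∑ i ∈ Finset.range p, G (divP p (((i : ℕ) : ℝ) +ᵥ z))) := by
  haveI : NeZero p := ⟨(Fact.out : p.Prime).ne_zero⟩
  have hp := p_ne_zero_complex p
  have h1 : HasSum (fun n : ℕ => ∑ i ∈ Finset.range p,
      a n * 𝕢 1 (divP p (((i : ℕ) : ℝ) +ᵥ z) : ℂ) ^ n)
      (∑ i ∈ Finset.range p, G (divP p (((i : ℕ) : ℝ) +ᵥ z))) :=
    hasSum_sum fun i _ => ha _
  have h2 : ∀ n : ℕ, ∑ i ∈ Finset.range p, a n * 𝕢 1 (divP p (((i : ℕ) : ℝ) +ᵥ z) : ℂ) ^ n =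
      if p ∣ n then (p : ℂ) * (a n * 𝕢 (p : ℝ) (z : ℂ) ^ n) else 0 := by
    intro n
    have : ∀ i ∈ Finset.range p, a n * 𝕢 1 (divP p (((i : ℕ) : ℝ) +ᵥ z) : ℂ) ^ n =
        (a n * 𝕢 (p : ℝ) (z : ℂ) ^ n) * (cexp (2 * Real.pi * Complex.I / p) ^ i) ^ n := by
      intro i _
      rw [qParam_divP, mul_pow]
      ring
    rw [Finset.sum_congr rfl this, ← Finset.mul_sum, sum_rootsOfUnity_pow]
    split_ifs <;> ring
  simp_rw [h2] at h1
  have h3 := h1.mul_left (1 / (p : ℂ))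
  -- reindex along `m ↦ p * m`
  have hinj : Function.Injective (fun m : ℕ => p * m) :=
    fun m m' h => Nat.eq_of_mul_eq_mul_left (Fact.out : p.Prime).pos h
  rw [← hinj.hasSum_iff] at h3
  · refine h3.congr_fun fun m => ?_
    simp only [Function.comp_apply]
    rw [if_pos (Dvd.intro m rfl), pow_mul, qParam_p_pow]
    field_simp
  · intro n hn
    rw [if_neg, mul_zero]
    rintro ⟨m, rfl⟩
    exact hn ⟨m, rfl⟩

lemma mulP_divP (w : ℍ) : mulP p (divP p w) = w := by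
  apply UpperHalfPlane.ext
  rw [coe_mulP, coe_divP]
  have hp := p_ne_zero_complex p
  field_simp

open Complex Function in
lemma qParam_one_divP (w : ℍ) : 𝕢 1 (divP p w : ℂ) = 𝕢 (p : ℝ) (w : ℂ) := by
  rw [Function.Periodic.qParam, Function.Periodic.qParam, coe_divP]
  congr 1
  push_cast
  ring

variable {p}

/-- **Expansion of `G ∣ S` at `∞`** (weight two, level `Γ₀(p)`): if `G = ∑ a_n q^n` then
`(G ∣ S)(w) = -(1/p) ∑ a_{pm} q_p^m` with `q_p = exp(2πi w / p)`. -/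
theorem hasSum_slash_S (G : ModularForm (Gamma0 p) 2) (a : ℕ → ℂ)
    (ha : ∀ w : ℍ, HasSum (fun n : ℕ => a n * 𝕢 1 (w : ℂ) ^ n) (G w)) (w : ℍ) :
    HasSum (fun m : ℕ => (-(1 / (p : ℂ)) * a (p * m)) * 𝕢 (p : ℝ) (w : ℂ) ^ m)
      (((G : ℍ → ℂ) ∣[(2 : ℤ)] S) w) := by
  have hp := p_ne_zero_complex p
  have h1 := fricke_trace G (divP p w)
  rw [mulP_divP] at h1
  have h2 := (hasSum_average p G a ha (divP p w)).mul_left (-(1 / (p : ℂ)))
  rw [qParam_one_divP] at h2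
  have h3 : ((G : ℍ → ℂ) ∣[(2 : ℤ)] S) w =
      -(1 / (p : ℂ)) * ((1 / (p : ℂ)) *
        ∑ i ∈ Finset.range p, G (divP p (((i : ℕ) : ℝ) +ᵥ divP p w))) := by
    have := eq_neg_of_add_eq_zero_left h1
    field_simp at this ⊢
    linear_combination this
  rw [h3]
  refine h2.congr_fun fun m => ?_
  ring

/-- Version of `hasSum_slash_S` with the Mathlib `q`-expansion coefficients of `G`. -/
theorem hasSum_slash_S_qExpansion (G : ModularForm (Gamma0 p) 2) (w : ℍ) :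
    HasSum (fun m : ℕ => (-(1 / (p : ℂ)) * (UpperHalfPlane.qExpansion 1 G).coeff (p * m)) *
        𝕢 (p : ℝ) (w : ℂ) ^ m)
      (((G : ℍ → ℂ) ∣[(2 : ℤ)] S) w) := by
  have h1 := CongruenceSubgroup.one_mem_strictPeriods_Gamma0 p
  haveI : Fact (IsCusp OnePoint.infty (Gamma0 p : Subgroup (GL (Fin 2) ℝ))) :=
    ⟨Subgroup.isCusp_of_mem_strictPeriods one_pos h1⟩
  exact hasSum_slash_S G _ (fun w => ModularForm.hasSum_qExpansion G one_pos h1 w) w

end Fermat.Agent.S16.TracePrime
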