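import Mathlib
import Fermat.Agent.S16.LevelOne.Fricke
import Fermat.Agent.S16.LevelOne.TracePrime

/-!
# S16 (C2), part 2: `W = -U_p` on `M_2(Γ₀(p))` and the trace of `G · ξ(pz)`
-/

set_option autoImplicit false

namespace Fermat.Agent.S16.LevelOne.Fricke

open UpperHalfPlane ModularForm CongruenceSubgroup Matrix.SpecialLinearGroup ModularGroup
open Fermat.Agent.S20 Fermat.Agent.S20.Rank Fermat.Agent.S24.JConj Fermat.Agent.S16.LevelRaise
open Fermat.Agent.S16.LevelOne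
open scoped MatrixGroups ModularForm Manifold

noncomputable section

variable {p : ℕ} [Fact p.Prime] {k : ℤ}

/-- the explicit trace of a level `p` form is a level one form -/
theorem isMF_trFun {f : ℍ → ℂ} (hf : IsMF p k f) : IsMF 1 k (trFun k p f) :=
  Fermat.Agent.S16.TracePrime.isMF_trFun hf

/-- the explicit trace vanishes in weight two -/
theorem trFun_two {G : ℍ → ℂ} (hG : IsMF p 2 G) : trFun 2 p G = 0 :=
  IsMF.eq_zero_of_weight_two (isMF_trFun hG)

/-- **`W = -U_p` on `M_2(Γ₀(p))`** -/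
theorem frickeW_two {G : ℍ → ℂ} (hG : IsMF p 2 G) : frickeW 2 p G = - heckeU 2 p G := by
  have hp : p ≠ 0 := (Fact.out : p.Prime).ne_zero
  have h := trFun_two (isMF_frickeW hG)
  rw [trFun_eq hp, frickeW_frickeW_two hp, sub_self, zpow_zero, one_smul] at h
  exact eq_neg_of_add_eq_zero_left h

/-- `U_p G = - G ∣ W` -/
theorem heckeU_two {G : ℍ → ℂ} (hG : IsMF p 2 G) : heckeU 2 p G = - frickeW 2 p G := by
  rw [frickeW_two hG, neg_neg]

theorem isMF_heckeU_two {G : ℍ → ℂ} (hG : IsMF p 2 G) : IsMF p 2 (heckeU 2 p G) := by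
  rw [heckeU_two hG]
  have := (isMF_frickeW hG).smul (-1)
  simpa using this

/-- the trace of `G · ξ(pz)`, `G` of weight two and level `p`, `ξ` of level one -/
theorem tr_mul_V {G ξ : ℍ → ℂ} (hG : IsMF p 2 G) (hξ : IsMF 1 k ξ) :
    trFun (2 + k) p (G * Vd p ξ) =
      G * Vd p ξ - ((p : ℂ) ^ (-k)) • heckeU (2 + k) p (heckeU 2 p G * ξ) := by
  have hp : p ≠ 0 := (Fact.out : p.Prime).ne_zero
  have hpC : (p : ℂ) ≠ 0 := by exact_mod_cast hp
  rw [trFun_eq hp, frickeW_mul hp, frickeW_two hG, frickeW_Vd hξ]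
  have h1 : (p : ℂ) • (-heckeU 2 p G * ((p : ℂ)⁻¹ • ξ)) = (-1 : ℂ) • (heckeU 2 p G * ξ) := by
    ext τ
    simp only [Pi.smul_apply, Pi.mul_apply, Pi.neg_apply, smul_eq_mul]
    field_simp
  rw [h1, heckeU_smul, smul_smul, show (2 : ℤ) - (2 + k) = -k by ring, sub_eq_add_neg]
  congr 1
  rw [mul_neg_one]
  exact neg_smul _ _

end

end Fermat.Agent.S16.LevelOne.Fricke
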