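import Mathlib
import Fermat.Agent.S20.Defs
import Fermat.Agent.S16.Estar
import Fermat.Agent.S16.LevelRaise
import Fermat.Agent.S16.Estar24
import Fermat.Agent.S24.JExp
import Fermat.Agent.S20.LevelOne
import Fermat.Prelude.Def_ModularForm_HeckeOperator
import Fermat.Prelude.Def_FLTPrelim_Modularity
import Fermat.Prelude.Thm_UpperHalfPlane_qCoeff_heckeU
import Fermat.Prelude.Thm_UpperHalfPlane_qCoeff_heckeT
import Fermat.Prelude.Thm_ModularForm_mdifferentiable_heckeU
import Fermat.Prelude.Thm_ModularForm_isBoundedAtImInfty_heckeU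
import Fermat.Prelude.Thm_ModularForm_periodic_heckeU_comp_ofComplex
import Fermat.Prelude.Thm_ModularForm_mdifferentiable_heckeT
import Fermat.Prelude.Thm_ModularForm_isBoundedAtImInfty_heckeT
import Fermat.Prelude.Thm_ModularForm_periodic_heckeT_comp_ofComplex
import Fermat.Prelude.Thm_UpperHalfPlane_eq_of_forall_qCoeff_eq

set_option autoImplicit false

/-!
# S16 (C3): the formal `q`-series layer

* `Uop p`, `Vop p`: the formal operators `U_p`, `V_p` on `PowerSeries R`, projection formula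
  `Uop_Vop_mul : U_p (V_p a * b) = a * U_p b`, compatibility with `PowerSeries.map`.
* `Nice f`: `f : ℍ → ℂ` is `1`-periodic, holomorphic and bounded at `i∞`
  (`Fermat.Agent.S20.IsMF.nice`), closed under `+ - * • ^`, `heckeU`, `heckeT`, `Vd`.
* `HasQZ f a`: `qExpansion 1 f = a.map (Int.castRingHom ℂ)` for `a : PowerSeries ℤ`, with
  uniqueness and closure under all the operations above.
* the standard series `e4Z`, `e6Z`, `deltaZ`, `estarZ p`.
-/

namespace Fermat.Agent.S16.LevelOne.QSeries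

open PowerSeries UpperHalfPlane CongruenceSubgroup Matrix.SpecialLinearGroup Filter Topology
open Fermat.Agent.S20 Fermat.Agent.S24.JConj Fermat.Agent.S16
open scoped MatrixGroups ModularForm Manifold Real

noncomputable section

section Formal

variable {R : Type*} [CommRing R] {S : Type*} [CommRing S]

/-- the formal `U_p` operator: `∑ aₙ qⁿ ↦ ∑ a_{np} qⁿ` -/
def Uop (p : ℕ) : PowerSeries R →ₗ[R] PowerSeries R where
  toFun a := PowerSeries.mk fun n => a.coeff (n * p)
  map_add' a b := by ext n; simp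
  map_smul' c a := by ext n; simp

@[simp] theorem coeff_Uop (p : ℕ) (a : PowerSeries R) (n : ℕ) :
    (Uop p a).coeff n = a.coeff (n * p) := by
  simp [Uop]

/-- the formal `V_p` operator: `∑ aₙ qⁿ ↦ ∑ aₙ q^{np}` (junk value `id` for `p = 0`) -/
def Vop (p : ℕ) : PowerSeries R →+* PowerSeries R :=
  if hp : p = 0 then RingHom.id _ else (PowerSeries.expand p hp : PowerSeries R →ₐ[R] PowerSeries R)

theorem Vop_eq_expand {p : ℕ} (hp : p ≠ 0) (a : PowerSeries R) :
    Vop p a = PowerSeries.expand p hp a := by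
  simp [Vop, hp]

theorem coeff_Vop {p : ℕ} (hp : p ≠ 0) (a : PowerSeries R) (n : ℕ) :
    (Vop p a).coeff n = if p ∣ n then a.coeff (n / p) else 0 := by
  rw [Vop_eq_expand hp, PowerSeries.coeff_expand]

theorem coeff_Vop_mul {p : ℕ} (hp : p ≠ 0) (a : PowerSeries R) (n : ℕ) :
    (Vop p a).coeff (n * p) = a.coeff n := by
  rw [coeff_Vop hp, if_pos (dvd_mul_left p n), Nat.mul_div_cancel _ (Nat.pos_of_ne_zero hp)]

theorem coeff_Vop_of_not_dvd {p : ℕ} (hp : p ≠ 0) (a : PowerSeries R) {n : ℕ} (h : ¬ p ∣ n) :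
    (Vop p a).coeff n = 0 := by
  rw [coeff_Vop hp, if_neg h]

@[simp] theorem Vop_X {p : ℕ} (hp : p ≠ 0) : Vop p (X : PowerSeries R) = X ^ p := by
  rw [Vop_eq_expand hp, PowerSeries.expand_X]

@[simp] theorem Vop_C (p : ℕ) (r : R) : Vop p (C r : PowerSeries R) = C r := by
  rcases eq_or_ne p 0 with rfl | hp
  · simp [Vop]
  · rw [Vop_eq_expand hp, PowerSeries.expand_C]

theorem Uop_Vop {p : ℕ} (hp : p ≠ 0) (a : PowerSeries R) : Uop p (Vop p a) = a := by
  ext n
  rw [coeff_Uop, coeff_Vop_mul hp]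

theorem map_Uop (φ : R →+* S) (p : ℕ) (a : PowerSeries R) :
    (Uop p a).map φ = Uop p (a.map φ) := by
  ext n
  simp

theorem map_Vop (φ : R →+* S) (p : ℕ) (a : PowerSeries R) :
    (Vop p a).map φ = Vop p (a.map φ) := by
  rcases eq_or_ne p 0 with rfl | hp
  · simp [Vop]
  · rw [Vop_eq_expand hp, Vop_eq_expand hp, PowerSeries.map_expand]

/-- the projection formula `U_p (V_p a · b) = a · U_p b` -/
theorem Uop_Vop_mul {p : ℕ} (hp : p ≠ 0) (a b : PowerSeries R) :
    Uop p (Vop p a * b) = a * Uop p b := by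
  ext n
  rw [coeff_Uop, PowerSeries.coeff_mul, PowerSeries.coeff_mul]
  symm
  refine Finset.sum_bij_ne_zero (fun x _ _ => (x.1 * p, x.2 * p)) ?_ ?_ ?_ ?_
  · intro x hx _
    rw [Finset.HasAntidiagonal.mem_antidiagonal] at hx ⊢
    rw [← hx]; ring
  · intro x _ _ y _ _ hxy
    simp only [Prod.mk.injEq] at hxy
    exact Prod.ext (Nat.eq_of_mul_eq_mul_right (Nat.pos_of_ne_zero hp) hxy.1)
      (Nat.eq_of_mul_eq_mul_right (Nat.pos_of_ne_zero hp) hxy.2)
  · intro y hy hne
    rw [Finset.HasAntidiagonal.mem_antidiagonal] at hy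
    have hdvd : p ∣ y.1 := by
      by_contra h
      exact hne (by rw [coeff_Vop_of_not_dvd hp a h, zero_mul])
    obtain ⟨i, hi⟩ := hdvd
    have hdvd2 : p ∣ y.2 := by
      have : p ∣ y.1 + y.2 := hy ▸ dvd_mul_left p n
      exact (Nat.dvd_add_right ⟨i, hi⟩).mp this
    obtain ⟨j, hj⟩ := hdvd2
    have hij : i + j = n := by
      have : p * (i + j) = p * n := by rw [mul_add, ← hi, ← hj, hy, mul_comm]
      exact Nat.eq_of_mul_eq_mul_left (Nat.pos_of_ne_zero hp) this
    refine ⟨(i, j), Finset.HasAntidiagonal.mem_antidiagonal.mpr hij, ?_, ?_⟩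
    · rw [hi, hj, mul_comm p i, mul_comm p j, coeff_Vop_mul hp] at hne
      simpa using hne
    · ext <;> simp [hi, hj, mul_comm]
  · intro x _ _
    simp only [coeff_Uop, coeff_Vop_mul hp]

end Formal

/-- `f` is `1`-periodic, holomorphic on `ℍ` and bounded at `i∞`: exactly what is needed for the
`q`-expansion of `f` to behave well. -/
structure Nice (f : ℍ → ℂ) : Prop where
  per : Function.Periodic (f ∘ ofComplex) (1 : ℂ)
  hol : MDiff f
  bdd : IsBoundedAtImInfty f

namespace Nice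

variable {f g : ℍ → ℂ}

theorem per' (hf : Nice f) : Function.Periodic (f ∘ ofComplex) ((1 : ℝ) : ℂ) := by
  simpa using hf.per

theorem analytic (hf : Nice f) : AnalyticAt ℂ (cuspFunction 1 f) 0 :=
  analyticAt_cuspFunction_zero one_pos hf.per' hf.hol hf.bdd

theorem hasSum (hf : Nice f) (τ : ℍ) :
    HasSum (fun m : ℕ => (qExpansion 1 f).coeff m • Function.Periodic.qParam 1 (τ : ℂ) ^ m)
      (f τ) :=
  hasSum_qExpansion one_pos hf.per' hf.hol hf.bdd τ

theorem coeff_unique (hf : Nice f) {c : ℕ → ℂ}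
    (h : ∀ τ : ℍ, HasSum (fun m : ℕ => c m • Function.Periodic.qParam 1 (τ : ℂ) ^ m) (f τ))
    (m : ℕ) : c m = (qExpansion 1 f).coeff m := by
  have h1 := (hasFPowerSeriesOnBall_cuspFunction one_pos hf.analytic h).hasFPowerSeriesAt
  have h2 := hf.analytic.hasFPowerSeriesAt
  have h3 := congr_arg (FormalMultilinearSeries.coeff · m) (h1.eq_formalMultilinearSeries h2)
  simp only [FormalMultilinearSeries.coeff_ofScalars] at h3
  rw [h3, qExpansion_coeff, div_eq_inv_mul]

theorem const (c : ℂ) : Nice (fun _ : ℍ => c) :=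
  ⟨fun _ => rfl, mdifferentiable_const, Filter.const_boundedAtFilter _ c⟩

theorem zero : Nice (0 : ℍ → ℂ) := const 0

theorem one : Nice (1 : ℍ → ℂ) := const 1

theorem add (hf : Nice f) (hg : Nice g) : Nice (f + g) :=
  ⟨fun w => by
    have h1 := hf.per w; have h2 := hg.per w
    simp only [Function.comp_apply, Pi.add_apply] at h1 h2 ⊢
    rw [h1, h2], hf.hol.add hg.hol, hf.bdd.add hg.bdd⟩

theorem neg (hf : Nice f) : Nice (-f) :=
  ⟨fun w => by
    have h1 := hf.per w
    simp only [Function.comp_apply, Pi.neg_apply] at h1 ⊢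
    rw [h1], hf.hol.neg, hf.bdd.neg⟩

theorem sub (hf : Nice f) (hg : Nice g) : Nice (f - g) := by
  rw [sub_eq_add_neg]; exact hf.add hg.neg

theorem mul (hf : Nice f) (hg : Nice g) : Nice (f * g) :=
  ⟨fun w => by
    have h1 := hf.per w; have h2 := hg.per w
    simp only [Function.comp_apply, Pi.mul_apply] at h1 h2 ⊢
    rw [h1, h2], hf.hol.mul hg.hol, hf.bdd.mul hg.bdd⟩

theorem smul (c : ℂ) (hf : Nice f) : Nice (c • f) := by
  have : c • f = (fun _ : ℍ => c) * f := by ext z; simp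
  rw [this]; exact (const c).mul hf

theorem pow (hf : Nice f) (n : ℕ) : Nice (f ^ n) := by
  induction n with
  | zero => simpa using one
  | succ n ih => rw [pow_succ]; exact ih.mul hf

theorem heckeU (hf : Nice f) (k : ℤ) (p : ℕ) : Nice (ModularForm.heckeU k p f) :=
  ⟨ModularForm.periodic_heckeU_comp_ofComplex hf.per k p,
    ModularForm.mdifferentiable_heckeU hf.hol k p,
    ModularForm.isBoundedAtImInfty_heckeU hf.bdd k p⟩

theorem heckeT (hf : Nice f) (k : ℤ) (p : ℕ) : Nice (ModularForm.heckeT k p f) :=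
  ⟨ModularForm.periodic_heckeT_comp_ofComplex hf.per k p,
    ModularForm.mdifferentiable_heckeT hf.hol k p,
    ModularForm.isBoundedAtImInfty_heckeT hf.bdd k p⟩

theorem Vd (hf : Nice f) (d : ℕ) [NeZero d] : Nice (LevelRaise.Vd d f) := by
  refine ⟨?_, LevelRaise.mdiff_Vd d hf.hol, ?_⟩
  · intro w
    simp only [Function.comp_apply]
    by_cases hw : 0 < w.im
    · have hw' : 0 < (w + 1).im := by simpa using hw
      rw [ofComplex_apply_of_im_pos hw', ofComplex_apply_of_im_pos hw]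
      unfold LevelRaise.Vd
      have hdw : 0 < ((d : ℂ) * w).im := by
        rw [Complex.mul_im]; simp only [Complex.natCast_re, Complex.natCast_im, zero_mul, add_zero]
        exact mul_pos (Nat.cast_pos.mpr (Nat.pos_of_ne_zero (NeZero.ne d))) hw
      have hper := (hf.per.nat_mul d) ((d : ℂ) * w)
      simp only [Function.comp_apply, mul_one] at hper
      have hdw' : 0 < ((d : ℂ) * w + d).im := by simpa using hdw
      rw [ofComplex_apply_of_im_pos hdw', ofComplex_apply_of_im_pos hdw] at hper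
      convert hper using 2
      · ext; rw [coe_mulN]; simp [mul_add]
      · ext; rw [coe_mulN]
    · have hw0 : w.im ≤ 0 := not_lt.mp hw
      have hw' : (w + 1).im ≤ 0 := by simpa using hw0
      rw [ofComplex_apply_of_im_nonpos hw', ofComplex_apply_of_im_nonpos hw0]
  · have := hf.bdd
    unfold IsBoundedAtImInfty at this ⊢
    exact this.comp_tendsto
      (Fermat.Agent.S20.Rank.tendsto_affH d 0 1 (Fermat.Agent.S20.Rank.natCast_pos' d) one_pos)

end Nice

/-- function-level modular forms are nice at `i∞` -/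
theorem _root_.Fermat.Agent.S20.IsMF.nice {N : ℕ} {k : ℤ} {f : ℍ → ℂ} (hf : IsMF N k f) :
    Nice f := by
  refine ⟨?_, hf.1, ?_⟩
  · have hT : ModularGroup.T ∈ Gamma0 N := by
      rw [Gamma0_mem]; simp [ModularGroup.T]
    have h1 := hf.2.1 _ hT
    intro w
    simp only [Function.comp_apply]
    by_cases hw : 0 < w.im
    · have hw' : 0 < (w + 1).im := by simpa using hw
      rw [ofComplex_apply_of_im_pos hw', ofComplex_apply_of_im_pos hw]
      have h2 := congrFun h1 ⟨w, hw⟩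
      rw [ModularForm.SL_slash_apply] at h2
      rw [ModularGroup.denom_apply] at h2
      have h10 : (ModularGroup.T : SL(2, ℤ)) 1 0 = 0 := by simp [ModularGroup.T]
      have h11 : (ModularGroup.T : SL(2, ℤ)) 1 1 = 1 := by simp [ModularGroup.T]
      rw [h10, h11] at h2
      simp only [Int.cast_zero, zero_mul, zero_add, Int.cast_one, one_zpow, mul_one] at h2
      rw [← h2, modular_T_smul]
      congr 1
      ext
      simp [add_comm]
    · have hw0 : w.im ≤ 0 := not_lt.mp hw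
      have hw' : (w + 1).im ≤ 0 := by simpa using hw0
      rw [ofComplex_apply_of_im_nonpos hw', ofComplex_apply_of_im_nonpos hw0]
  · have := hf.2.2 1
    rwa [SlashAction.slash_one] at this

/-! ### integral `q`-expansions -/

/-- `f` has the integral `q`-expansion `a` (at the cusp `∞`, in the parameter `q = e^{2πiz}`) -/
def HasQZ (f : ℍ → ℂ) (a : PowerSeries ℤ) : Prop :=
  qExpansion 1 f = a.map (Int.castRingHom ℂ)

variable {f g : ℍ → ℂ} {a b : PowerSeries ℤ}

theorem HasQZ.coeff (h : HasQZ f a) (n : ℕ) : (qExpansion 1 f).coeff n = (a.coeff n : ℂ) := by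
  rw [h]; simp

theorem HasQZ.qCoeff (h : HasQZ f a) (n : ℕ) :
    ModularFormClass.qCoeff f n = (a.coeff n : ℂ) := h.coeff n

theorem hasQZ_iff_qCoeff :
    HasQZ f a ↔ ∀ n : ℕ, ModularFormClass.qCoeff f n = (a.coeff n : ℂ) := by
  refine ⟨fun h n => h.qCoeff n, fun h => ?_⟩
  ext n
  rw [PowerSeries.coeff_map]
  exact h n

theorem coeff_int_smul (n : ℤ) (a : PowerSeries ℤ) (m : ℕ) :
    (n • a).coeff m = n * a.coeff m := by
  rw [map_zsmul, smul_eq_mul]

theorem map_intCast_injective :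
    Function.Injective (PowerSeries.map (Int.castRingHom ℂ)) := by
  intro a b hab
  ext n
  have := congrArg (PowerSeries.coeff n) hab
  simpa using this

/-- uniqueness of the integral `q`-expansion -/
theorem HasQZ.unique (ha : HasQZ f a) (hb : HasQZ f b) : a = b :=
  map_intCast_injective (ha.symm.trans hb)

theorem HasQZ.congr (ha : HasQZ f a) (hab : a = b) : HasQZ f b := hab ▸ ha

theorem HasQZ.hasSum (hf : Nice f) (ha : HasQZ f a) (τ : ℍ) :
    HasSum (fun m : ℕ => (a.coeff m : ℂ) • Function.Periodic.qParam 1 (τ : ℂ) ^ m) (f τ) := by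
  have := hf.hasSum τ
  simpa only [ha.coeff] using this

theorem HasQZ.of_hasSum (hf : Nice f) (a : PowerSeries ℤ)
    (h : ∀ τ : ℍ,
      HasSum (fun m : ℕ => (a.coeff m : ℂ) • Function.Periodic.qParam 1 (τ : ℂ) ^ m) (f τ)) :
    HasQZ f a := by
  ext n
  rw [PowerSeries.coeff_map]
  exact (hf.coeff_unique h n).symm

/-- two nice functions with the same `q`-expansion are equal -/
theorem HasQZ.eq_of (hf : Nice f) (hg : Nice g) (ha : HasQZ f a) (hb : HasQZ g a) : f = g :=
  UpperHalfPlane.eq_of_forall_qCoeff_eq hf.per hf.hol hf.bdd hg.per hg.hol hg.bdd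
    fun n => (ha.qCoeff n).trans (hb.qCoeff n).symm

theorem HasQZ.zero : HasQZ (0 : ℍ → ℂ) 0 := by
  unfold HasQZ; rw [qExpansion_zero, map_zero]

theorem HasQZ.one : HasQZ (1 : ℍ → ℂ) 1 := by
  unfold HasQZ; rw [qExpansion_one, map_one]

theorem HasQZ.add (hf : Nice f) (hg : Nice g) (ha : HasQZ f a) (hb : HasQZ g b) :
    HasQZ (f + g) (a + b) := by
  unfold HasQZ at *
  rw [qExpansion_add hf.analytic hg.analytic, ha, hb, map_add]

theorem HasQZ.neg (hf : Nice f) (ha : HasQZ f a) : HasQZ (-f) (-a) := by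
  unfold HasQZ at *
  rw [qExpansion_neg hf.analytic, ha, map_neg]

theorem HasQZ.sub (hf : Nice f) (hg : Nice g) (ha : HasQZ f a) (hb : HasQZ g b) :
    HasQZ (f - g) (a - b) := by
  unfold HasQZ at *
  rw [qExpansion_sub hf.analytic hg.analytic, ha, hb, map_sub]

theorem HasQZ.mul (hf : Nice f) (hg : Nice g) (ha : HasQZ f a) (hb : HasQZ g b) :
    HasQZ (f * g) (a * b) := by
  unfold HasQZ at *
  rw [qExpansion_mul hf.analytic hg.analytic, ha, hb, map_mul]

theorem HasQZ.pow (hf : Nice f) (ha : HasQZ f a) (n : ℕ) : HasQZ (f ^ n) (a ^ n) := by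
  induction n with
  | zero => simpa using HasQZ.one
  | succ n ih => rw [pow_succ, pow_succ]; exact ih.mul (hf.pow n) hf ha

/-- multiplication by an integer constant -/
theorem HasQZ.int_smul (hf : Nice f) (ha : HasQZ f a) (n : ℤ) :
    HasQZ ((n : ℂ) • f) (n • a) := by
  unfold HasQZ at *
  rw [qExpansion_smul hf.analytic, ha]
  ext m
  rw [PowerSeries.coeff_smul, PowerSeries.coeff_map, PowerSeries.coeff_map, coeff_int_smul]
  simp

theorem HasQZ.const (c : ℤ) : HasQZ (fun _ : ℍ => (c : ℂ)) (PowerSeries.C c) := by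
  have h := HasQZ.int_smul Nice.one HasQZ.one c
  have h1 : ((c : ℂ) • (1 : ℍ → ℂ)) = fun _ : ℍ => (c : ℂ) := by ext z; simp
  have h2 : c • (1 : PowerSeries ℤ) = PowerSeries.C c := by
    ext m
    rw [coeff_int_smul, PowerSeries.coeff_one, PowerSeries.coeff_C]
    split_ifs <;> simp
  rwa [h1, h2] at h

/-- `U_p` on `q`-expansions -/
theorem HasQZ.heckeU (hf : Nice f) (ha : HasQZ f a) (k : ℤ) {p : ℕ} (hp : p ≠ 0) :
    HasQZ (ModularForm.heckeU k p f) (Uop p a) := by
  rw [hasQZ_iff_qCoeff]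
  intro n
  rw [UpperHalfPlane.qCoeff_heckeU hf.per hf.hol hf.bdd k hp n, ModularForm.coeffHeckeU_apply,
    ha.qCoeff, coeff_Uop]

/-- `V_p` on `q`-expansions -/
theorem HasQZ.Vd (hf : Nice f) (ha : HasQZ f a) (p : ℕ) [NeZero p] :
    HasQZ (LevelRaise.Vd p f) (Vop p a) := by
  refine HasQZ.of_hasSum (hf.Vd p) _ fun τ => ?_
  have h := LevelRaise.hasSum_Vd p (ha.hasSum hf) τ
  convert h using 2 with m
  rw [coeff_Vop (NeZero.ne p)]
  split_ifs <;> simp

/-- `T_p` (weight `k ≥ 1`) on `q`-expansions -/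
theorem HasQZ.heckeT (hf : Nice f) (ha : HasQZ f a) (k : ℕ) {p : ℕ} (hp : p ≠ 0) :
    HasQZ (ModularForm.heckeT ((k : ℤ) + 1) p f) (Uop p a + ((p : ℤ) ^ k) • Vop p a) := by
  rw [hasQZ_iff_qCoeff]
  intro n
  rw [UpperHalfPlane.qCoeff_heckeT hf.per hf.hol hf.bdd _ hp n, ModularForm.coeffHeckeT_apply,
    ha.qCoeff, ha.qCoeff]
  simp only [map_add, coeff_Uop, add_sub_cancel_right, zpow_natCast]
  rw [coeff_int_smul, coeff_Vop hp]
  split_ifs <;> simp

end

end Fermat.Agent.S16.LevelOne.QSeries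

/-! ## Part (ii): standard series, reduction mod `l`, division by `Δ` -/

namespace Fermat.Agent.S16.LevelOne.QSeries

open PowerSeries UpperHalfPlane CongruenceSubgroup Matrix.SpecialLinearGroup Filter Topology
open Fermat.Agent.S20 Fermat.Agent.S24.JConj Fermat.Agent.S16
open scoped MatrixGroups ModularForm Manifold Real

noncomputable section

/-! ### the standard series -/

open ModularForm EisensteinSeries ArithmeticFunction

/-- `E₄ = 1 + 240 ∑ σ₃(n) qⁿ` (this is the Prelude series `ModularCurve.eisenstein4`) -/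
def e4Z : PowerSeries ℤ := ModularCurve.eisenstein4

theorem e4Z_eq : e4Z = ModularCurve.eisenstein4 := rfl

theorem coeff_e4Z (n : ℕ) :
    e4Z.coeff n = if n = 0 then 1 else 240 * (ArithmeticFunction.sigma 3 n : ℤ) := by
  rw [e4Z, ModularCurve.eisenstein4, PowerSeries.coeff_mk, ArithmeticFunction.sigma_apply]
  push_cast
  rfl

@[simp] theorem coeff_zero_e4Z : e4Z.coeff 0 = 1 := by simp [coeff_e4Z]

@[simp] theorem constantCoeff_e4Z : PowerSeries.constantCoeff e4Z = 1 := by
  rw [← PowerSeries.coeff_zero_eq_constantCoeff_apply, coeff_zero_e4Z]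

theorem hasQZ_E4 : HasQZ (⇑E₄ : ℍ → ℂ) e4Z := Fermat.Agent.S24.JExp.qExpansion_E4

/-- `E₆ = 1 - 504 ∑ σ₅(n) qⁿ` -/
def e6Z : PowerSeries ℤ := PowerSeries.mk fun n => if n = 0 then 1 else -504 * (ArithmeticFunction.sigma 5 n : ℤ)

theorem coeff_e6Z (n : ℕ) :
    e6Z.coeff n = if n = 0 then 1 else -504 * (ArithmeticFunction.sigma 5 n : ℤ) := by
  rw [e6Z, PowerSeries.coeff_mk]

@[simp] theorem coeff_zero_e6Z : e6Z.coeff 0 = 1 := by simp [coeff_e6Z]

@[simp] theorem constantCoeff_e6Z : PowerSeries.constantCoeff e6Z = 1 := by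
  rw [← PowerSeries.coeff_zero_eq_constantCoeff_apply, coeff_zero_e6Z]

theorem hasQZ_E6 : HasQZ (⇑E₆ : ℍ → ℂ) e6Z := by
  ext m
  rw [E_qExpansion_coeff _ ⟨3, rfl⟩, PowerSeries.coeff_map, coeff_e6Z]
  by_cases hm : m = 0
  · simp [hm]
  · simp only [hm, if_false, eq_intCast]
    rw [show bernoulli 6 = 1 / 42 by decide +kernel]
    push_cast
    ring

/-- `Δ = q ∏ (1 - qⁿ)²⁴` -/
def deltaZ : PowerSeries ℤ := PowerSeries.X * ModularCurve.dedekindEtaUnit

theorem deltaZ_eq : deltaZ = PowerSeries.X * ModularCurve.etaProd ^ 24 := rfl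

theorem hasQZ_discriminant : HasQZ (ModularForm.discriminant : ℍ → ℂ) deltaZ := by
  have h : (ModularForm.discriminant : ℍ → ℂ) =
      Fermat.Agent.S24.JExp.qP * Fermat.Agent.S24.JExp.etaH ^ 24 :=
    funext Fermat.Agent.S24.JExp.discriminant_eq
  unfold HasQZ
  rw [h, Fermat.Agent.S24.JExp.nice_qP.qExpansion_mul (Fermat.Agent.S24.JExp.nice_etaH.pow 24),
    Fermat.Agent.S24.JExp.qExpansion_qP, Fermat.Agent.S24.JExp.nice_etaH.qExpansion_pow,
    Fermat.Agent.S24.JExp.qExpansion_etaH, deltaZ_eq, map_mul, map_pow, PowerSeries.map_X]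
  rfl

theorem hasQZ_delta : HasQZ (⇑CuspForm.discriminant : ℍ → ℂ) deltaZ := hasQZ_discriminant

theorem nice_E4 : Nice (⇑E₄ : ℍ → ℂ) := isMF_E4.nice

theorem nice_E6 : Nice (⇑E₆ : ℍ → ℂ) := isMF_E6.nice

theorem nice_delta : Nice (⇑CuspForm.discriminant : ℍ → ℂ) := isCF_delta.isMF.nice

theorem nice_discriminant : Nice (ModularForm.discriminant : ℍ → ℂ) := nice_delta

/-- `1728 Δ = E₄³ - E₆²` on `q`-expansions -/
theorem deltaZ_rel : (1728 : ℤ) • deltaZ = e4Z ^ 3 - e6Z ^ 2 := by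
  have h1 : HasQZ (((1728 : ℤ) : ℂ) • (ModularForm.discriminant : ℍ → ℂ)) ((1728 : ℤ) • deltaZ) :=
    hasQZ_discriminant.int_smul nice_discriminant 1728
  have h2 : HasQZ ((⇑E₄ : ℍ → ℂ) ^ 3 - (⇑E₆ : ℍ → ℂ) ^ 2) (e4Z ^ 3 - e6Z ^ 2) :=
    (hasQZ_E4.pow nice_E4 3).sub (nice_E4.pow 3) (nice_E6.pow 2) (hasQZ_E6.pow nice_E6 2)
  have h3 : (((1728 : ℤ) : ℂ) • (ModularForm.discriminant : ℍ → ℂ)) =
      (⇑E₄ : ℍ → ℂ) ^ 3 - (⇑E₆ : ℍ → ℂ) ^ 2 := by
    ext z
    simp only [Pi.smul_apply, Pi.sub_apply, Pi.pow_apply, smul_eq_mul]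
    rw [ModularForm.discriminant_eq_E₄_cube_sub_E₆_sq z]
    push_cast
    ring
  rw [h3] at h1
  exact h1.unique h2

theorem deltaZ_rel' : 1728 * deltaZ = e4Z ^ 3 - e6Z ^ 2 := by
  rw [← deltaZ_rel]; simp

@[simp] theorem coeff_zero_deltaZ : deltaZ.coeff 0 = 0 := by
  rw [deltaZ, PowerSeries.coeff_zero_X_mul]

@[simp] theorem coeff_one_deltaZ : deltaZ.coeff 1 = 1 := by
  rw [deltaZ, show (1 : ℕ) = 0 + 1 from rfl, PowerSeries.coeff_succ_X_mul,
    PowerSeries.coeff_zero_eq_constantCoeff_apply, ModularCurve.constantCoeff_dedekindEtaUnit]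

theorem deltaZ_pow (n : ℕ) : deltaZ ^ n = PowerSeries.X ^ n * ModularCurve.dedekindEtaUnit ^ n := by
  rw [deltaZ, mul_pow]

/-- the leading coefficient of `Δⁿ` is `1` -/
theorem coeff_deltaZ_pow (n : ℕ) : (deltaZ ^ n).coeff n = 1 := by
  rw [deltaZ_pow, PowerSeries.coeff_X_pow_mul', if_pos le_rfl, Nat.sub_self,
    PowerSeries.coeff_zero_eq_constantCoeff_apply, map_pow,
    ModularCurve.constantCoeff_dedekindEtaUnit, one_pow]

/-- the coefficients of `Δⁿ` below `qⁿ` vanish -/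
theorem coeff_deltaZ_pow_of_lt {n m : ℕ} (h : m < n) : (deltaZ ^ n).coeff m = 0 := by
  rw [deltaZ_pow, PowerSeries.coeff_X_pow_mul', if_neg (not_le.mpr h)]

/-- `p E₂(pz) - E₂(z) = (p - 1) + 24 ∑ σ*(n) qⁿ` -/
def estarZ (p : ℕ) : PowerSeries ℤ :=
  PowerSeries.mk fun n => if n = 0 then (p : ℤ) - 1 else 24 * (Estar.sigmaStar p n : ℤ)

theorem coeff_estarZ (p n : ℕ) :
    (estarZ p).coeff n = if n = 0 then (p : ℤ) - 1 else 24 * (Estar.sigmaStar p n : ℤ) := by
  rw [estarZ, PowerSeries.coeff_mk]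

theorem hasQZ_estar24 (p : ℕ) [NeZero p] : HasQZ (Estar.estar24 p) (estarZ p) := by
  rw [hasQZ_iff_qCoeff]
  intro n
  rw [Estar.qCoeff_estar24, coeff_estarZ]
  split_ifs <;> push_cast <;> rfl

theorem hasQZ_fE (p : ℕ) [NeZero p] : HasQZ (Estar.fE p) (estarZ p) := by
  rw [← Estar.estar24_eq_fE]; exact hasQZ_estar24 p

/-! ### reduction mod `l` -/

/-- reduction of an integral `q`-series mod `l` -/
def redL (l : ℕ) : PowerSeries ℤ →+* PowerSeries (ZMod l) :=
  PowerSeries.map (Int.castRingHom (ZMod l))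

theorem coeff_redL (l : ℕ) (a : PowerSeries ℤ) (n : ℕ) :
    (redL l a).coeff n = ((a.coeff n : ℤ) : ZMod l) := by
  rw [redL, PowerSeries.coeff_map]; rfl

theorem redL_Uop (l p : ℕ) (a : PowerSeries ℤ) : redL l (Uop p a) = Uop p (redL l a) :=
  map_Uop _ p a

theorem redL_Vop (l p : ℕ) (a : PowerSeries ℤ) : redL l (Vop p a) = Vop p (redL l a) :=
  map_Vop _ p a

theorem redL_eq_zero_iff (l : ℕ) (a : PowerSeries ℤ) :
    redL l a = 0 ↔ ∀ n : ℕ, (l : ℤ) ∣ a.coeff n := by
  constructor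
  · intro h n
    have := congrArg (PowerSeries.coeff n) h
    rw [coeff_redL, _root_.map_zero] at this
    exact (ZMod.intCast_zmod_eq_zero_iff_dvd _ _).mp this
  · intro h
    ext n
    rw [coeff_redL, _root_.map_zero]
    exact (ZMod.intCast_zmod_eq_zero_iff_dvd _ _).mpr (h n)

theorem redL_eq_iff (l : ℕ) (a b : PowerSeries ℤ) :
    redL l a = redL l b ↔ ∀ n : ℕ, (l : ℤ) ∣ a.coeff n - b.coeff n := by
  rw [← sub_eq_zero, ← map_sub, redL_eq_zero_iff]
  simp

/-- Frobenius on `𝔽_l[[q]]`: `a(q)^l = a(q^l)` -/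
theorem pow_eq_Vop (l : ℕ) [hl : Fact l.Prime] (a : PowerSeries (ZMod l)) : a ^ l = Vop l a := by
  have h := MvPowerSeries.map_frobenius_expand (σ := Unit) (R := ZMod l) l hl.out.ne_zero (f := a)
  rw [ZMod.frobenius_zmod, MvPowerSeries.map_id] at h
  rw [Vop_eq_expand hl.out.ne_zero, ← h]
  rfl

/-! ### more closure properties -/

section More

variable {f g : ℍ → ℂ} {a b : PowerSeries ℤ}

theorem HasQZ.finset_sum {ι : Type*} (s : Finset ι) (F : ι → ℍ → ℂ) (A : ι → PowerSeries ℤ)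
    (hF : ∀ i ∈ s, Nice (F i)) (hA : ∀ i ∈ s, HasQZ (F i) (A i)) :
    Nice (∑ i ∈ s, F i) ∧ HasQZ (∑ i ∈ s, F i) (∑ i ∈ s, A i) := by
  classical
  induction s using Finset.induction_on with
  | empty => simpa using ⟨Nice.zero, HasQZ.zero⟩
  | insert i s hi ih =>
    have h1 := ih (fun j hj => hF j (Finset.mem_insert_of_mem hj))
      (fun j hj => hA j (Finset.mem_insert_of_mem hj))
    rw [Finset.sum_insert hi, Finset.sum_insert hi]
    exact ⟨(hF i (Finset.mem_insert_self i s)).add h1.1,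
      (hA i (Finset.mem_insert_self i s)).add (hF i (Finset.mem_insert_self i s)) h1.1 h1.2⟩

/-- the slash by `diag(p, 1)` in weight `k + 1` is `p^k V_p` -/
theorem HasQZ.slash_heckeDiagMatrix (hf : Nice f) (ha : HasQZ f a) (k : ℕ) (p : ℕ) [NeZero p] :
    HasQZ (f ∣[(k : ℤ) + 1] ModularForm.heckeDiagMatrix p) (((p : ℤ) ^ k) • Vop p a) := by
  rw [Estar.slash_heckeDiagMatrix_eq]
  have h := (ha.Vd hf p).int_smul (hf.Vd p) ((p : ℤ) ^ k)
  convert h using 2
  simp

theorem Nice.slash_heckeDiagMatrix (hf : Nice f) (k : ℤ) (p : ℕ) [NeZero p] :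
    Nice (f ∣[k] ModularForm.heckeDiagMatrix p) := by
  rw [Estar.slash_heckeDiagMatrix_eq]
  exact (hf.Vd p).smul _

/-- the constant term of a cusp form vanishes -/
theorem HasQZ.coeff_zero_of_isCF {N : ℕ} {k : ℤ} (hf : IsCF N k f) (ha : HasQZ f a) :
    a.coeff 0 = 0 := by
  have hn := hf.isMF.nice
  have h0 : IsZeroAtImInfty f := by
    have := hf.2.2 1
    rwa [SlashAction.slash_one] at this
  have h1 := qExpansion_coeff_zero (h := 1) one_pos hn.analytic hn.per'
  rw [h0.valueAtInfty_eq_zero, ha.coeff] at h1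
  exact_mod_cast h1

/-- a level one form whose `q`-expansion has no constant term is a cusp form -/
theorem HasQZ.isCF_of_coeff_zero {k : ℤ} (hf : IsMF 1 k f) (ha : HasQZ f a)
    (h0 : a.coeff 0 = 0) : IsCF 1 k f := by
  refine hf.isCF_of_valueAtInfty_eq_zero ?_
  rw [hf.valueAtInfty_eq_coeff_zero, ha.coeff, h0, Int.cast_zero]

/-- integral division by `Δ` -/
theorem HasQZ.of_delta_mul (hf : Nice f)
    (ha : HasQZ ((⇑CuspForm.discriminant : ℍ → ℂ) * f) a) :
    ∃ b : PowerSeries ℤ, HasQZ f b ∧ a = deltaZ * b := by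
  set A := qExpansion 1 f with hA
  set φ := PowerSeries.map (Int.castRingHom ℂ) with hφ
  have hmul : φ a = φ deltaZ * A := by
    have h1 : qExpansion 1 ((⇑CuspForm.discriminant : ℍ → ℂ) * f) = φ a := ha
    rw [← h1, qExpansion_mul nice_delta.analytic hf.analytic, hasQZ_delta]
  set c := ModularCurve.dedekindEtaUnitInv * a with hc
  have huv : φ ModularCurve.dedekindEtaUnitInv * φ ModularCurve.dedekindEtaUnit = 1 := by
    rw [← map_mul, mul_comm, ModularCurve.dedekindEtaUnit_mul_inv, map_one]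
  have hcA : φ c = PowerSeries.X * A := by
    rw [hc, map_mul, hmul, deltaZ, map_mul, hφ, PowerSeries.map_X]
    rw [← hφ]
    calc φ ModularCurve.dedekindEtaUnitInv * (PowerSeries.X * φ ModularCurve.dedekindEtaUnit * A)
        = (φ ModularCurve.dedekindEtaUnitInv * φ ModularCurve.dedekindEtaUnit) *
            (PowerSeries.X * A) := by ring
      _ = PowerSeries.X * A := by rw [huv, one_mul]
  have hc0 : PowerSeries.constantCoeff c = 0 := by
    have h1 := congrArg (PowerSeries.coeff 0) hcA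
    rw [hφ, PowerSeries.coeff_map, PowerSeries.coeff_zero_X_mul] at h1
    rw [← PowerSeries.coeff_zero_eq_constantCoeff_apply]
    rw [eq_intCast] at h1
    exact_mod_cast h1
  set b := PowerSeries.mk fun n => c.coeff (n + 1) with hb
  have hcb : c = PowerSeries.X * b := by
    have := PowerSeries.eq_X_mul_shift_add_const c
    rw [hc0, _root_.map_zero, add_zero] at this
    exact this
  refine ⟨b, ?_, ?_⟩
  · ext n
    have h1 := congrArg (PowerSeries.coeff (n + 1)) hcA
    rw [PowerSeries.coeff_succ_X_mul, hφ, PowerSeries.coeff_map] at h1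
    rw [PowerSeries.coeff_map, hb, PowerSeries.coeff_mk]
    exact h1.symm
  · calc a = (ModularCurve.dedekindEtaUnit * ModularCurve.dedekindEtaUnitInv) * a := by
          rw [ModularCurve.dedekindEtaUnit_mul_inv, one_mul]
      _ = ModularCurve.dedekindEtaUnit * c := by rw [hc, mul_assoc]
      _ = deltaZ * b := by rw [hcb, deltaZ]; ring

/-- a level one form with integral `q`-expansion and vanishing constant term is `Δ` times a level
one form of weight `k - 12` with integral `q`-expansion -/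
theorem HasQZ.exists_delta_mul {k : ℤ} (hf : IsMF 1 k f) (ha : HasQZ f a) (h0 : a.coeff 0 = 0) :
    ∃ (g : ℍ → ℂ) (b : PowerSeries ℤ), IsMF 1 (k - 12) g ∧
      f = (⇑CuspForm.discriminant : ℍ → ℂ) * g ∧ HasQZ g b ∧ a = deltaZ * b := by
  obtain ⟨g, hg, hfg⟩ := (ha.isCF_of_coeff_zero hf h0).exists_eq_delta_mul
  obtain ⟨b, hb, hab⟩ := HasQZ.of_delta_mul hg.nice (hfg ▸ ha)
  exact ⟨g, b, hg, hfg, hb, hab⟩

end More

end

end Fermat.Agent.S16.LevelOne.QSeries
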