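import Mathlib
import Fermat.Prelude.Def_GaloisRep_Flat

set_option autoImplicit false

/-!
# S16 / (C) level one: `E_{ℓ-1} ≡ 1 (mod ℓ)` (von Staudt–Clausen)

For a prime `ℓ ≥ 3`, `ℓ · B_{ℓ-1} ≡ -1 (mod ℓ)`; hence `2(ℓ-1)/B_{ℓ-1}` is `ℓ` times an
`ℓ`-integral rational number, and for `ℓ ≥ 5` the normalised Eisenstein series of weight `ℓ - 1`
has constant term `1` and all higher `q`-expansion coefficients in `ℓ · ℤ_(ℓ)`.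
-/

namespace Fermat.Agent.S16.LevelOne.EisOneModL

open Finset

/-- the localisation `ℤ_(ℓ)` inside `ℚ` (Prelude). -/
local notation "Zloc" => GaloisRep.ratLocalizedAt

variable (ℓ : ℕ) [hℓ : Fact ℓ.Prime]

omit hℓ in
theorem mem_Zloc_iff {x : ℚ} : x ∈ Zloc ℓ ↔ x.den.Coprime ℓ := Iff.rfl

omit hℓ in
theorem divInt_mem {a b : ℤ} (hb : b.natAbs.Coprime ℓ) : Rat.divInt a b ∈ Zloc ℓ := by
  rw [mem_Zloc_iff]
  have h : (Rat.divInt a b).den ∣ b.natAbs := Int.natCast_dvd.mp (Rat.den_dvd a b)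
  exact Nat.Coprime.coprime_dvd_left h hb

omit hℓ in
theorem div_mem {a b : ℤ} (hb : b.natAbs.Coprime ℓ) : (a : ℚ) / (b : ℚ) ∈ Zloc ℓ := by
  rw [← Rat.divInt_eq_div]
  exact divInt_mem ℓ hb

omit hℓ in
theorem intCast_mem (n : ℤ) : (n : ℚ) ∈ Zloc ℓ := by
  rw [mem_Zloc_iff, Rat.den_intCast]
  exact Nat.coprime_one_left ℓ

omit hℓ in
theorem natCast_mem (n : ℕ) : (n : ℚ) ∈ Zloc ℓ := by
  have := intCast_mem ℓ (n : ℤ)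
  rwa [Int.cast_natCast] at this

/-- `1/q ∈ ℤ_(ℓ)` for a prime `q ≠ ℓ`. -/
theorem one_div_prime_mem {q : ℕ} (hq : q.Prime) (hne : q ≠ ℓ) : (1 : ℚ) / q ∈ Zloc ℓ := by
  have h := div_mem ℓ (a := 1) (b := (q : ℤ))
    (by rw [Int.natAbs_natCast]; exact (Nat.coprime_primes hq hℓ.out).mpr hne)
  simpa using h

omit hℓ in
/-- an element of `ℚ` whose numerator is prime to `ℓ` has its inverse in `ℤ_(ℓ)`. -/
theorem inv_mem_of_num_coprime {x : ℚ} (hx : (x.num.natAbs).Coprime ℓ) : x⁻¹ ∈ Zloc ℓ := by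
  rw [Rat.inv_def]
  exact divInt_mem ℓ hx

/-- `-1 + ℓ t` is a unit of `ℤ_(ℓ)` for `t ∈ ℤ_(ℓ)`. -/
theorem inv_neg_one_add_mem {t : ℚ} (ht : t ∈ Zloc ℓ) :
    (-1 + (ℓ : ℚ) * t) ≠ 0 ∧ (-1 + (ℓ : ℚ) * t)⁻¹ ∈ Zloc ℓ := by
  have hℓ0 : (ℓ : ℚ) ≠ 0 := Nat.cast_ne_zero.mpr hℓ.out.ne_zero
  set x : ℚ := -1 + (ℓ : ℚ) * t with hx
  -- the numerator of `x` is prime to `ℓ`
  have hnum : (x.num.natAbs).Coprime ℓ := by
    rw [Nat.coprime_comm, Nat.Prime.coprime_iff_not_dvd hℓ.out]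
    intro hdvd
    have hdvd' : (ℓ : ℤ) ∣ x.num := Int.natCast_dvd.mpr hdvd
    obtain ⟨c, hc⟩ := hdvd'
    -- then `x = ℓ * y` with `y ∈ ℤ_(ℓ)`
    have hxy : x = (ℓ : ℚ) * ((c : ℚ) / ((x.den : ℤ) : ℚ)) := by
      calc x = (x.num : ℚ) / (x.den : ℚ) := (Rat.num_div_den x).symm
        _ = (((ℓ : ℤ) * c : ℤ) : ℚ) / (x.den : ℚ) := by rw [hc]
        _ = (ℓ : ℚ) * ((c : ℚ) / ((x.den : ℤ) : ℚ)) := by push_cast; ring
    have hxmem : x ∈ Zloc ℓ :=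
      Subring.add_mem _ (Subring.neg_mem _ (Subring.one_mem _))
        (Subring.mul_mem _ (natCast_mem ℓ ℓ) ht)
    have hymem : (c : ℚ) / ((x.den : ℤ) : ℚ) ∈ Zloc ℓ :=
      div_mem ℓ (by rw [Int.natAbs_natCast]; exact hxmem)
    -- so `ℓ * (t - y) = 1`, i.e. `1/ℓ ∈ ℤ_(ℓ)`: impossible
    have h1 : (ℓ : ℚ) * (t - (c : ℚ) / ((x.den : ℤ) : ℚ)) = 1 := by
      have h2 : -1 + (ℓ : ℚ) * t = (ℓ : ℚ) * ((c : ℚ) / ((x.den : ℤ) : ℚ)) := by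
        rw [← hx]; exact hxy
      linear_combination h2
    have h3 : ((ℓ : ℚ))⁻¹ = t - (c : ℚ) / ((x.den : ℤ) : ℚ) :=
      inv_eq_of_mul_eq_one_right h1
    have hmem : ((ℓ : ℚ))⁻¹ ∈ Zloc ℓ := by
      rw [h3]
      exact Subring.sub_mem _ ht hymem
    rw [mem_Zloc_iff, Rat.inv_natCast_den_of_pos hℓ.out.pos] at hmem
    exact hℓ.out.one_lt.ne' ((Nat.coprime_self ℓ).mp hmem)
  have hx0 : x ≠ 0 := by
    intro h0
    rw [h0] at hnum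
    simp at hnum
    exact hℓ.out.one_lt.ne' hnum
  exact ⟨hx0, inv_mem_of_num_coprime ℓ hnum⟩

/-- **von Staudt**: `ℓ · B_k = -1 + ℓ t` with `t ∈ ℤ_(ℓ)`, for every even `k > 0` divisible by
`ℓ - 1`. -/
theorem l_mul_bernoulli_of_dvd {k : ℕ} (hk0 : 0 < k) (hk2 : Even k) (hdvd : (ℓ - 1) ∣ k) :
    ∃ t ∈ Zloc ℓ, (ℓ : ℚ) * bernoulli k = -1 + (ℓ : ℚ) * t := by
  classical
  obtain ⟨j, hj⟩ := hk2
  have h2j : k = 2 * j := by omega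
  obtain ⟨n, hn⟩ := Bernoulli.vonStaudt_clausen j
  set S : Finset ℕ := (range (2 * j + 2)).filter (fun p => p.Prime ∧ (p - 1) ∣ 2 * j) with hS
  have hle : ℓ - 1 ≤ k := Nat.le_of_dvd hk0 hdvd
  have hℓS : ℓ ∈ S := by
    rw [hS, mem_filter, mem_range]
    refine ⟨by omega, hℓ.out, ?_⟩
    rw [← h2j]
    exact hdvd
  have hsplit : ∑ p ∈ S, (1 : ℚ) / p = (1 : ℚ) / ℓ + ∑ p ∈ S.erase ℓ, (1 : ℚ) / p :=
    (Finset.add_sum_erase S (fun p => (1 : ℚ) / p) hℓS).symm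
  refine ⟨(n : ℚ) - ∑ p ∈ S.erase ℓ, (1 : ℚ) / p, ?_, ?_⟩
  · refine Subring.sub_mem _ (intCast_mem ℓ n) (Subring.sum_mem _ fun p hp => ?_)
    rw [mem_erase, hS, mem_filter] at hp
    exact one_div_prime_mem ℓ hp.2.2.1 hp.1
  · have hℓ0 : (ℓ : ℚ) ≠ 0 := Nat.cast_ne_zero.mpr hℓ.out.ne_zero
    have hB : bernoulli k = (n : ℚ) - ∑ p ∈ S, (1 : ℚ) / p := by
      rw [h2j, hn]
      ring
    rw [hB, hsplit]
    field_simp
    ring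

/-- `2k/B_k ∈ ℓ · ℤ_(ℓ)` for even `k > 0` divisible by `ℓ - 1`. -/
theorem two_mul_div_bernoulli_of_dvd {k : ℕ} (hk0 : 0 < k) (hk2 : Even k)
    (hdvd : (ℓ - 1) ∣ k) :
    bernoulli k ≠ 0 ∧ ∃ r ∈ Zloc ℓ, (2 * (k : ℚ)) / bernoulli k = (ℓ : ℚ) * r := by
  obtain ⟨t, ht, hB⟩ := l_mul_bernoulli_of_dvd ℓ hk0 hk2 hdvd
  obtain ⟨hu0, huinv⟩ := inv_neg_one_add_mem ℓ ht
  have hℓ0 : (ℓ : ℚ) ≠ 0 := Nat.cast_ne_zero.mpr hℓ.out.ne_zero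
  have hB0 : bernoulli k ≠ 0 := by
    intro h0
    rw [h0, mul_zero] at hB
    exact hu0 hB.symm
  refine ⟨hB0, (2 * (k : ℚ)) * (-1 + (ℓ : ℚ) * t)⁻¹, ?_, ?_⟩
  · refine Subring.mul_mem _ (Subring.mul_mem _ ?_ (natCast_mem ℓ _)) huinv
    exact_mod_cast natCast_mem ℓ 2
  · rw [← hB]
    field_simp

/-- the weight `ℓ - 1` is even for an odd prime `ℓ`. -/
theorem even_pred (h3 : 3 ≤ ℓ) : Even (ℓ - 1) := by
  obtain ⟨j, hj⟩ := hℓ.out.odd_of_ne_two (by omega)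
  exact ⟨j, by omega⟩

/-- **von Staudt**: `ℓ · B_{ℓ-1} = -1 + ℓ t` with `t ∈ ℤ_(ℓ)`, for every odd prime `ℓ`. -/
theorem l_mul_bernoulli_pred (h3 : 3 ≤ ℓ) :
    ∃ t ∈ Zloc ℓ, (ℓ : ℚ) * bernoulli (ℓ - 1) = -1 + (ℓ : ℚ) * t :=
  l_mul_bernoulli_of_dvd ℓ (by omega) (even_pred ℓ h3) dvd_rfl

/-- `2(ℓ-1)/B_{ℓ-1} ∈ ℓ · ℤ_(ℓ)`. -/
theorem two_mul_div_bernoulli_pred (h3 : 3 ≤ ℓ) :
    bernoulli (ℓ - 1) ≠ 0 ∧
    ∃ r ∈ Zloc ℓ, (2 * ((ℓ - 1 : ℕ) : ℚ)) / bernoulli (ℓ - 1) = (ℓ : ℚ) * r :=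
  two_mul_div_bernoulli_of_dvd ℓ (by omega) (even_pred ℓ h3) dvd_rfl

section QExpansion

open ArithmeticFunction

/-- **`E_k ≡ 1 (mod ℓ)`** for even `k ≥ 4` divisible by `ℓ - 1`: the constant term of the
`q`-expansion is `1` and every higher coefficient lies in `ℓ · ℤ_(ℓ)`. -/
theorem E_coeff_of_dvd {k : ℕ} (hk : 3 ≤ k) (hk2 : Even k) (hdvd : (ℓ - 1) ∣ k) (m : ℕ) :
    (m = 0 → (UpperHalfPlane.qExpansion 1 (ModularForm.E hk)).coeff m = 1) ∧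
    (m ≠ 0 → ∃ c ∈ Zloc ℓ, (UpperHalfPlane.qExpansion 1 (ModularForm.E hk)).coeff m = (((ℓ : ℚ) * c : ℚ) : ℂ)) := by
  have hcoeff := EisensteinSeries.E_qExpansion_coeff hk hk2 m
  refine ⟨fun hm => by rw [hcoeff, if_pos hm], fun hm => ?_⟩
  obtain ⟨hB0, r, hr, hrB⟩ := two_mul_div_bernoulli_of_dvd ℓ (by omega) hk2 hdvd
  refine ⟨-(r * ((sigma (k - 1) m : ℕ) : ℚ)), ?_, ?_⟩
  · exact Subring.neg_mem _ (Subring.mul_mem _ hr (natCast_mem ℓ _))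
  · rw [hcoeff, if_neg hm]
    have h1 : (2 * (k : ℂ) / ((bernoulli k : ℚ) : ℂ)) = (((ℓ : ℚ) * r : ℚ) : ℂ) := by
      rw [← hrB]
      push_cast
      ring
    rw [h1]
    push_cast
    ring

/-- **`E_{ℓ-1} ≡ 1 (mod ℓ)`** (`ℓ ≥ 5`). -/
theorem E_pred_coeff (hk : 3 ≤ ℓ - 1) (m : ℕ) :
    (m = 0 → (UpperHalfPlane.qExpansion 1 (ModularForm.E hk)).coeff m = 1) ∧
    (m ≠ 0 → ∃ c ∈ Zloc ℓ, (UpperHalfPlane.qExpansion 1 (ModularForm.E hk)).coeff m = (((ℓ : ℚ) * c : ℚ) : ℂ)) :=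
  E_coeff_of_dvd ℓ hk (even_pred ℓ (by omega)) dvd_rfl m

/-- all `q`-expansion coefficients of `E_k` (`k` even, `(ℓ-1) ∣ k`) are `ℓ`-integral rationals. -/
theorem E_coeff_mem_of_dvd {k : ℕ} (hk : 3 ≤ k) (hk2 : Even k) (hdvd : (ℓ - 1) ∣ k) (m : ℕ) :
    ∃ c ∈ Zloc ℓ, (UpperHalfPlane.qExpansion 1 (ModularForm.E hk)).coeff m = ((c : ℚ) : ℂ) := by
  by_cases hm : m = 0
  · exact ⟨1, Subring.one_mem _, by rw [(E_coeff_of_dvd ℓ hk hk2 hdvd m).1 hm]; simp⟩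
  · obtain ⟨c, hc, h⟩ := (E_coeff_of_dvd ℓ hk hk2 hdvd m).2 hm
    exact ⟨(ℓ : ℚ) * c, Subring.mul_mem _ (natCast_mem ℓ ℓ) hc, h⟩


/-- **Integral model (consumer shape).** For even `k ≥ 4` with `(ℓ-1) ∣ k` there are an integer `c`
prime to `ℓ` and an integer power series `A` such that `c • E_k` has `q`-expansion `A`, and
`A ≡ c (mod ℓ)` (a nonzero constant). Here `c` is the (prime to `ℓ`) denominator of
`2k/(ℓ B_k)`. -/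
theorem exists_int_model_of_dvd {k : ℕ} (hk : 3 ≤ k) (hk2 : Even k) (hdvd : (ℓ - 1) ∣ k) :
    ∃ (c : ℤ) (A : PowerSeries ℤ), ¬ (ℓ : ℤ) ∣ c ∧
      UpperHalfPlane.qExpansion 1 ((c : ℂ) • ⇑(ModularForm.E hk)) =
        A.map (Int.castRingHom ℂ) ∧
      A.map (Int.castRingHom (ZMod ℓ)) = PowerSeries.C ((c : ℤ) : ZMod ℓ) ∧
      PowerSeries.constantCoeff A = c := by
  obtain ⟨hB0, r, hr, hrB⟩ := two_mul_div_bernoulli_of_dvd ℓ (by omega) hk2 hdvd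
  refine ⟨(r.den : ℤ), PowerSeries.mk fun m =>
    if m = 0 then (r.den : ℤ) else -((ℓ : ℤ) * r.num * ((sigma (k - 1) m : ℕ) : ℤ)), ?_, ?_, ?_, ?_⟩
  · intro hdvd'
    have h1 : ℓ ∣ r.den := Int.natCast_dvd_natCast.mp hdvd'
    have h2 : r.den.Coprime ℓ := hr
    have h3 : ℓ ∣ 1 := by
      have := Nat.dvd_gcd h1 (dvd_refl ℓ)
      rwa [h2] at this
    exact hℓ.out.one_lt.ne' (Nat.dvd_one.mp h3)
  · rw [ModularForm.qExpansion_smul one_pos one_mem_strictPeriods_SL]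
    ext m
    rw [PowerSeries.coeff_smul, PowerSeries.coeff_map, PowerSeries.coeff_mk,
      EisensteinSeries.E_qExpansion_coeff hk hk2 m]
    by_cases hm : m = 0
    · simp [hm]
    · rw [if_neg hm, if_neg hm]
      have h1 : (2 * (k : ℂ) / ((bernoulli k : ℚ) : ℂ)) = (((ℓ : ℚ) * r : ℚ) : ℂ) := by
        rw [← hrB]
        push_cast
        ring
      have h2 : ((r.den : ℚ) : ℂ) * ((r : ℚ) : ℂ) = ((r.num : ℚ) : ℂ) := by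
        rw [← Rat.cast_mul]
        congr 1
        rw [mul_comm]
        exact Rat.mul_den_eq_num r
      rw [h1, eq_intCast]
      push_cast at h2 ⊢
      linear_combination (-(ℓ : ℂ) * ((sigma (k - 1) m : ℕ) : ℂ)) * h2
  · ext m
    rw [PowerSeries.coeff_map, PowerSeries.coeff_mk, PowerSeries.coeff_C]
    by_cases hm : m = 0
    · simp [hm]
    · rw [if_neg hm, if_neg hm]
      simp
  · simp

/-- **Integral model of `E_{ℓ-1}`** (`ℓ ≥ 5`): `c • E_{ℓ-1}` has integral `q`-expansion `A` with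
`A ≡ c (mod ℓ)`, `ℓ ∤ c`. -/
theorem exists_int_model_pred (hk : 3 ≤ ℓ - 1) :
    ∃ (c : ℤ) (A : PowerSeries ℤ), ¬ (ℓ : ℤ) ∣ c ∧
      UpperHalfPlane.qExpansion 1 ((c : ℂ) • ⇑(ModularForm.E hk)) =
        A.map (Int.castRingHom ℂ) ∧
      A.map (Int.castRingHom (ZMod ℓ)) = PowerSeries.C ((c : ℤ) : ZMod ℓ) ∧
      PowerSeries.constantCoeff A = c :=
  exists_int_model_of_dvd ℓ hk (even_pred ℓ (by omega)) dvd_rfl

/-- the same with the integer scalar action `c • f` on functions `ℍ → ℂ`. -/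
theorem exists_int_model_of_dvd_zsmul {k : ℕ} (hk : 3 ≤ k) (hk2 : Even k) (hdvd : (ℓ - 1) ∣ k) :
    ∃ (c : ℤ) (A : PowerSeries ℤ), ¬ (ℓ : ℤ) ∣ c ∧
      UpperHalfPlane.qExpansion 1 (c • (⇑(ModularForm.E hk) : UpperHalfPlane → ℂ)) =
        A.map (Int.castRingHom ℂ) ∧
      A.map (Int.castRingHom (ZMod ℓ)) = PowerSeries.C ((c : ℤ) : ZMod ℓ) ∧
      PowerSeries.constantCoeff A = c := by
  obtain ⟨c, A, h1, h2, h3, h4⟩ := exists_int_model_of_dvd ℓ hk hk2 hdvd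
  refine ⟨c, A, h1, ?_, h3, h4⟩
  rw [← h2, Int.cast_smul_eq_zsmul]

end QExpansion

end Fermat.Agent.S16.LevelOne.EisOneModL
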