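import Fermat.Agent.S16.LevelOne.LevelOneRepr
import Fermat.Agent.S16.LevelOne.EisOneModL
import Fermat.Agent.S28.SeriesRed

/-!
# S16 / LevelOne / SwDLite: Swinnerton-Dyer lite

For a prime `l ≥ 5`: two level one forms of weights `k` and `k + 2` with integral `q`-expansions
which are congruent mod `l` are both `≡ 0 mod l`.

Inputs: `LevelOneRepr.mem_isoSpan_of_isMF` (level one `q`-expansion principle mod `l`),
`EisOneModL.exists_int_model_pred` (`E_{l-1} ≡ 1 mod l`), and the pure algebra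
`KappaAlg.eq_zero_of_mem_isoSpan_succ` applied in `𝔽_l((q))` with `J = j mod l`.
-/

set_option autoImplicit false

namespace Fermat.Agent.S16.LevelOne.SwDLite

open UpperHalfPlane ModularForm ModularFormClass EisensteinSeries ModularCurve
open Fermat.Agent.S20 Fermat.Agent.S16.Three.Series Fermat.Agent.S16.KappaAlg
open Fermat.Agent.S16.LevelOne.LevelOneRepr
open scoped MatrixGroups ModularForm Manifold

noncomputable section

variable (l : ℕ) [Fact l.Prime]

/-- `𝔽_l[[q]] → 𝔽_l((q))`. -/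
abbrev toL : PowerSeries (ZMod l) →+* LaurentSeries (ZMod l) :=
  HahnSeries.ofPowerSeries ℤ (ZMod l)

theorem algebraMap_eq_C (r : ZMod l) :
    algebraMap (ZMod l) (LaurentSeries (ZMod l)) r = HahnSeries.C r := by
  rw [ModularCurve.algebraMap_laurentSeries_eq_single]
  rfl

theorem toL_algebraMap (r : ZMod l) :
    toL l (algebraMap (ZMod l) (PowerSeries (ZMod l)) r) =
      algebraMap (ZMod l) (LaurentSeries (ZMod l)) r := by
  rw [algebraMap_eq_C]
  exact HahnSeries.ofPowerSeries_C r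

theorem transcendental_jqModC : Transcendental (ZMod l) (jqModC (ZMod l)) := by
  rw [transcendental_iff]
  intro P hP
  apply Fermat.Agent.S28.SeriesRed.eval₂_jqModC_eq_zero P
  rw [Polynomial.aeval_def] at hP
  have : (algebraMap (ZMod l) (LaurentSeries (ZMod l))) = HahnSeries.C :=
    RingHom.ext (algebraMap_eq_C l)
  rwa [this] at hP

/-- `Ē₄`, `Ē₆`, `Δ̄` in `𝔽_l((q))`. -/
abbrev e4L : LaurentSeries (ZMod l) := toL l (e4b l)

abbrev e6L : LaurentSeries (ZMod l) := toL l (e6b l)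

abbrev dL : LaurentSeries (ZMod l) := toL l (redl l deltaZ)

theorem redl_unit_mul_inv :
    redl l dedekindEtaUnit * redl l dedekindEtaUnitInv = 1 := by
  rw [← map_mul, dedekindEtaUnit_mul_inv, map_one]

theorem dL_eq : dL l = HahnSeries.single (1 : ℤ) 1 * toL l (redl l dedekindEtaUnit) := by
  rw [dL, deltaZ, map_mul, map_mul, PowerSeries.map_X, HahnSeries.ofPowerSeries_X]

theorem jqModC_eq :
    jqModC (ZMod l) =
      HahnSeries.single (-1 : ℤ) 1 * (toL l (e4b l) ^ 3 * toL l (redl l dedekindEtaUnitInv)) := by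
  rw [jqModC, jNum, map_mul, map_pow, map_mul, map_pow]

theorem dL_mul_jqModC : dL l * jqModC (ZMod l) = e4L l ^ 3 := by
  rw [dL_eq, jqModC_eq]
  have h1 : (HahnSeries.single (1 : ℤ) (1 : ZMod l)) * HahnSeries.single (-1 : ℤ) 1 = 1 := by
    rw [HahnSeries.single_mul_single]
    simp
  have h2 : toL l (redl l dedekindEtaUnit) * toL l (redl l dedekindEtaUnitInv) = 1 := by
    rw [← map_mul, redl_unit_mul_inv, map_one]
  calc HahnSeries.single (1 : ℤ) 1 * toL l (redl l dedekindEtaUnit) *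
        (HahnSeries.single (-1 : ℤ) 1 * (toL l (e4b l) ^ 3 * toL l (redl l dedekindEtaUnitInv)))
      = (HahnSeries.single (1 : ℤ) (1 : ZMod l) * HahnSeries.single (-1 : ℤ) 1) *
          (toL l (redl l dedekindEtaUnit) * toL l (redl l dedekindEtaUnitInv)) *
          toL l (e4b l) ^ 3 := by ring
    _ = e4L l ^ 3 := by rw [h1, h2, one_mul, one_mul]

theorem dL_ne_zero : dL l ≠ 0 := by
  intro h
  have h1 : redl l deltaZ = 0 :=
    HahnSeries.ofPowerSeries_injective (Γ := ℤ) (R := ZMod l) (h.trans (map_zero (toL l)).symm)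
  have h2 := congrArg (PowerSeries.coeff 1) h1
  rw [PowerSeries.coeff_map, deltaZ, PowerSeries.coeff_succ_X_mul,
    PowerSeries.coeff_zero_eq_constantCoeff, constantCoeff_dedekindEtaUnit, map_zero] at h2
  simp at h2

/-- The `KappaAlg` setup in `𝔽_l((q))`: `J = j̄`, `c = 1728`. -/
theorem setup (h5 : 5 ≤ l) :
    Setup ((1728 : ℕ) : ZMod l) (jqModC (ZMod l)) (e4L l) (e6L l) (dL l) where
  hc := natCast_1728_ne_zero l h5
  hJ := transcendental_jqModC l
  hd := dL_ne_zero l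
  h4 := (dL_mul_jqModC l).symm
  h6 := by
    rw [mul_sub, dL_mul_jqModC]
    have h := congrArg (fun x => toL l (redl l x)) deltaZ_identity
    simp only [map_add, map_mul, map_pow] at h
    have h1728 : toL l (redl l (1728 : PowerSeries ℤ)) =
        algebraMap (ZMod l) (LaurentSeries (ZMod l)) ((1728 : ℕ) : ZMod l) := by
      rw [map_ofNat, map_ofNat, map_natCast, Nat.cast_ofNat]
    rw [h1728] at h
    rw [← h]
    ring

/-- Transport of the level one principle to `𝔽_l((q))`. -/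
theorem toL_mem_isoSpan (h5 : 5 ≤ l) {H : ℕ} {f : ℍ → ℂ} (hf : IsMF 1 (2 * (H : ℤ)) f)
    {a : PowerSeries ℤ} (ha : qExpansion 1 f = toC a) :
    toL l (redl l a) ∈ isoSpan (k := ZMod l) (e4L l) (e6L l) H :=
  map_mem_isoSpan' (toL l) (toL_algebraMap l) (mem_isoSpan_of_isMF l h5 H hf ha)

/-- The Hasse relation: a nonzero constant is isobaric of weight `l - 1` (`E_{l-1} ≡ 1`). -/
theorem hasse_mem (h5 : 5 ≤ l) :
    ∃ u : ZMod l, u ≠ 0 ∧
      algebraMap (ZMod l) (LaurentSeries (ZMod l)) u ∈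
        isoSpan (k := ZMod l) (e4L l) (e6L l) ((l - 1) / 2) := by
  have hk : 3 ≤ l - 1 := by omega
  obtain ⟨c, A, hc, hq, hA, -⟩ := EisOneModL.exists_int_model_pred l hk
  refine ⟨(c : ZMod l), ?_, ?_⟩
  · rwa [Ne, ZMod.intCast_zmod_eq_zero_iff_dvd]
  · have hev : Even (l - 1) := EisOneModL.even_pred l (by omega)
    have hw : ((l - 1 : ℕ) : ℤ) = 2 * (((l - 1) / 2 : ℕ) : ℤ) := by
      have := Nat.two_mul_div_two_of_even hev
      exact_mod_cast this.symm
    have hMF : IsMF 1 (2 * (((l - 1) / 2 : ℕ) : ℤ)) ((c : ℂ) • (⇑(E hk) : ℍ → ℂ)) :=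
      ((isMF_coe_levelOne (E hk)).smul (c : ℂ)).cast hw
    have hmem := toL_mem_isoSpan l h5 hMF hq
    rw [show redl l A = PowerSeries.C ((c : ℤ) : ZMod l) from hA] at hmem
    have hC : toL l (PowerSeries.C ((c : ℤ) : ZMod l)) =
        algebraMap (ZMod l) (LaurentSeries (ZMod l)) ((c : ℤ) : ZMod l) := by
      rw [algebraMap_eq_C]
      exact HahnSeries.ofPowerSeries_C _
    rwa [hC] at hmem

/-- **Swinnerton-Dyer lite.** `l ≥ 5` prime; `ξ₁`, `ξ₂` level one forms of weights `k`, `k + 2`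
with integral `q`-expansions `s₁`, `s₂`. If `s₁ ≡ s₂ mod l` then `s₁ ≡ 0 mod l`. -/
theorem swd_lite (h5 : 5 ≤ l) {k : ℕ} {ξ1 ξ2 : ℍ → ℂ} (h1 : IsMF 1 (k : ℤ) ξ1)
    (h2 : IsMF 1 ((k : ℤ) + 2) ξ2) {s1 s2 : PowerSeries ℤ} (a1 : qExpansion 1 ξ1 = toC s1)
    (a2 : qExpansion 1 ξ2 = toC s2)
    (hc : s1.map (Int.castRingHom (ZMod l)) = s2.map (Int.castRingHom (ZMod l))) :
    s1.map (Int.castRingHom (ZMod l)) = 0 := by
  rcases Nat.even_or_odd' k with ⟨H, rfl | rfl⟩
  · have h1' : IsMF 1 (2 * (H : ℤ)) ξ1 := h1.cast (by push_cast; ring)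
    have h2' : IsMF 1 (2 * ((H + 1 : ℕ) : ℤ)) ξ2 := h2.cast (by push_cast; ring)
    have m1 := toL_mem_isoSpan l h5 h1' a1
    have m2 := toL_mem_isoSpan l h5 h2' a2
    rw [show redl l s2 = redl l s1 from hc.symm] at m2
    obtain ⟨u, hu, hA⟩ := hasse_mem l h5
    have hh : 0 < (l - 1) / 2 := by omega
    have h0 := eq_zero_of_mem_isoSpan_succ (setup l h5) hh hu hA m1 m2
    exact HahnSeries.ofPowerSeries_injective (Γ := ℤ) (R := ZMod l)
      (h0.trans (map_zero (toL l)).symm)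
  · have hodd : Odd ((2 * H + 1 : ℕ) : ℤ) := by
      exact_mod_cast (⟨H, rfl⟩ : Odd (2 * H + 1))
    have h0 : ξ1 = 0 := h1.eq_zero_of_odd hodd
    rw [h0, qExpansion_zero] at a1
    have hs : s1 = 0 := toC_injective (by rw [← a1, map_zero])
    rw [hs, map_zero]

end

end Fermat.Agent.S16.LevelOne.SwDLite
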