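import Mathlib
import Fermat.Agent.S20.Defs
import Fermat.Agent.S20.LevelOne
import Fermat.Agent.S16.Estar24
import Fermat.Agent.S16.LevelRaise
import Fermat.Agent.S16.LevelOne.Defs
import Fermat.Agent.S16.LevelOne.TraceDef
import Fermat.Agent.S16.LevelOne.Fricke2
import Fermat.Agent.S16.LevelOne.QSeries
import Fermat.Agent.S16.LevelOne.SwDLite
import Fermat.Prelude.Def_ModularForm_HeckeOperatorForms

/-!
# S16 (C6): the test `T2` and the case `l ≥ 5`, `l ∣ p + 1` of the upper bound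

* `T2_pair`: from an Eisenstein congruence mod `M ∣ p + 1` at level `p` and a level-one form `ξ`
  of weight `k + 1` with integral `q`-series `x`, a level-one form `ζ` of weight `k + 3` with
  integral `q`-series `≡ (p - 1) (U_p x + p^k V_p x)` mod `M`, i.e. `(p - 1) T_p ξ` mod `M`.
  `ζ = -p^(k+1) Tr (F · ξ(pz))` with `F = p E₂(pz) - E₂(z) - 24 g ≡ p - 1` mod `M`.
* `not_eisCong_of_dvd_succ`: no Eisenstein congruence modulo a prime `l ≥ 5` dividing `p + 1`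
  (`ξ = Δ^p` in `T2_pair`, then the weights `12 p` and `12 p + 2` are not congruent mod `l - 1`
  in the sense of `swd_lite`, so `(p - 1) T_p Δ^p ≡ 0` mod `l`; its `q`-coefficient is `p - 1`).
-/

set_option autoImplicit false

namespace Fermat.Agent.S16.LevelOne.T2

open UpperHalfPlane CongruenceSubgroup Matrix.SpecialLinearGroup ModularForm
open Fermat.Agent.S20 Fermat.Agent.S16.Estar Fermat.Agent.S16.LevelRaise
open Fermat.Agent.S16.LevelOne Fermat.Agent.S16.LevelOne.Fricke Fermat.Agent.S16.LevelOne.QSeries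
open Fermat.Agent.S16.LevelOne.SwDLite
open scoped MatrixGroups ModularForm Manifold

noncomputable section

/-! ### Hecke operators preserve the level (Prelude bundled operators) -/

theorem isMF_heckeU {N : ℕ} [NeZero N] {k : ℤ} {p : ℕ} (hpN : p ∣ N) {F : ℍ → ℂ}
    (hF : IsMF N k F) : IsMF N k (heckeU k p F) := by
  have h := isMF_coe (ModularForm.heckeULin k hpN hF.toMF)
  simpa using h

theorem isMF_heckeT_one {k : ℤ} {p : ℕ} (hp : p.Prime) {ξ : ℍ → ℂ} (hξ : IsMF 1 k ξ) :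
    IsMF 1 k (heckeT k p ξ) := by
  have h := isMF_coe (ModularForm.heckeTLin k hp hp.not_dvd_one hξ.toMF)
  simpa using h

/-! ### the `q`-series of `F = estar24 p - 24 g` -/

theorem qCoeff_zero_of_isCF {N : ℕ} [NeZero N] {k : ℤ} {g : ℍ → ℂ} (hg : IsCF N k g) :
    ModularFormClass.qCoeff g 0 = 0 := by
  have h := CuspFormClass.qExpansion_coeff_zero (f := hg.toCF) one_pos
    (CongruenceSubgroup.one_mem_strictPeriods_Gamma0 N)
  simpa [ModularFormClass.qCoeff] using h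

/-- the integral `q`-series of the cusp form in an Eisenstein congruence -/
theorem exists_series_of_eisCong {p M : ℕ} [NeZero p] {g : ℍ → ℂ} (h : EisCong p M g) :
    ∃ X : PowerSeries ℤ, HasQZ g
      (PowerSeries.mk (fun n => if n = 0 then (0 : ℤ) else (sigmaStar p n : ℤ)) + (M : ℤ) • X) := by
  have hc : ∀ n : ℕ, ∃ m : ℤ, 1 ≤ n →
      ModularFormClass.qCoeff g n = (((sigmaStar p n : ℤ) + (M : ℤ) * m : ℤ) : ℂ) := by
    intro n
    by_cases hn : 1 ≤ n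
    · obtain ⟨m, hm⟩ := h.cong n hn
      exact ⟨m, fun _ => hm⟩
    · exact ⟨0, fun h' => absurd h' hn⟩
  choose m hm using hc
  refine ⟨PowerSeries.mk fun n => if n = 0 then 0 else m n, hasQZ_iff_qCoeff.mpr fun n => ?_⟩
  rcases Nat.eq_zero_or_pos n with rfl | hn
  · rw [qCoeff_zero_of_isCF h.isCF]; simp
  · rw [hm n hn]
    have : n ≠ 0 := hn.ne'
    simp only [map_add, map_zsmul, PowerSeries.coeff_mk, this, if_false, smul_eq_mul]

/-- `F = estar24 p - 24 g` has an integral `q`-series congruent to the constant `p - 1` mod `M` -/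
theorem exists_F_series_of_eisCong {p M : ℕ} [NeZero p] {g : ℍ → ℂ} (h : EisCong p M g) :
    ∃ fZ : PowerSeries ℤ, HasQZ (estar24 p - ((24 : ℤ) : ℂ) • g) fZ ∧
      fZ.map (Int.castRingHom (ZMod M)) = PowerSeries.C (((p : ℤ) - 1 : ℤ) : ZMod M) := by
  obtain ⟨X, hX⟩ := exists_series_of_eisCong h
  refine ⟨_, HasQZ.sub (isMF_estar24 p).nice (h.isCF.isMF.smul _).nice (hasQZ_estar24 p)
    (HasQZ.int_smul h.isCF.isMF.nice hX 24), ?_⟩
  ext n
  rcases Nat.eq_zero_or_pos n with rfl | hn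
  · simp only [PowerSeries.coeff_map, map_sub, map_add, map_zsmul, coeff_estarZ,
      PowerSeries.coeff_mk, if_true, PowerSeries.coeff_C, eq_intCast]
    push_cast
    simp
  · have : n ≠ 0 := hn.ne'
    simp only [PowerSeries.coeff_map, map_sub, map_add, map_zsmul, coeff_estarZ,
      PowerSeries.coeff_mk, this, if_false, PowerSeries.coeff_C, eq_intCast]
    push_cast
    simp

/-! ### formal lemmas on `Uop` -/

theorem Uop_C {R : Type*} [CommRing R] {p : ℕ} (hp : p ≠ 0) (c : R) :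
    Uop p (PowerSeries.C c) = PowerSeries.C c := by
  ext n
  rw [coeff_Uop, PowerSeries.coeff_C, PowerSeries.coeff_C]
  simp [hp]

theorem Uop_C_mul {R : Type*} [CommRing R] (p : ℕ) (c : R) (a : PowerSeries R) :
    Uop p (PowerSeries.C c * a) = PowerSeries.C c * Uop p a := by
  ext n
  simp [coeff_Uop, PowerSeries.coeff_C_mul]

/-! ### the test `T2` -/

/-- **(C6) `T2_pair`.** From an Eisenstein congruence mod `M ∣ p + 1` and a level-one form `ξ` of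
weight `k + 1` with integral `q`-series `x`, a level-one form `ζ` of weight `k + 3` with integral
`q`-series congruent mod `M` to `(p - 1)` times the series of `T_p ξ`. -/
theorem T2_pair {p : ℕ} [hp : Fact p.Prime] {M : ℕ} (hM : M ∣ p + 1) {g : ℍ → ℂ}
    (h : EisCong p M g) (k : ℕ) {ξ : ℍ → ℂ} {x : PowerSeries ℤ}
    (hξ : IsMF 1 ((k : ℤ) + 1) ξ) (hx : HasQZ ξ x) :
    ∃ (ζ : ℍ → ℂ) (z : PowerSeries ℤ), IsMF 1 ((k : ℤ) + 1 + 2) ζ ∧ HasQZ ζ z ∧
      z.map (Int.castRingHom (ZMod M)) =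
        ((((p : ℤ) - 1) • (Uop p x + ((p : ℤ) ^ k) • Vop p x) : PowerSeries ℤ)).map
          (Int.castRingHom (ZMod M)) := by
  have : NeZero p := ⟨hp.out.ne_zero⟩
  have hp0 : p ≠ 0 := hp.out.ne_zero
  obtain ⟨fZ, hfZ, hfM⟩ := exists_F_series_of_eisCong h
  set F : ℍ → ℂ := estar24 p - ((24 : ℤ) : ℂ) • g with hFdef
  have hF : IsMF p 2 F := (isMF_estar24 p).sub (h.isCF.isMF.smul _)
  set H : ℍ → ℂ := heckeU 2 p F with hHdef
  have hH : IsMF p 2 H := isMF_heckeU_two hF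
  have hHz : HasQZ H (Uop p fZ) := HasQZ.heckeU hF.nice hfZ 2 hp0
  -- `V ξ`
  have hV : IsMF p ((k : ℤ) + 1) (Vd p ξ) := by
    have := IsMF.Vd p hξ
    rwa [mul_one] at this
  have hVz : HasQZ (Vd p ξ) (Vop p x) := HasQZ.Vd hξ.nice hx p
  have hFV : IsMF p (2 + ((k : ℤ) + 1)) (F * Vd p ξ) := hF.mul hV
  have hFVz : HasQZ (F * Vd p ξ) (fZ * Vop p x) := HasQZ.mul hF.nice hV.nice hfZ hVz
  have hHξ : IsMF p (2 + ((k : ℤ) + 1)) (H * ξ) := hH.mul hξ.of_levelOne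
  have hHξz : HasQZ (H * ξ) (Uop p fZ * x) := HasQZ.mul hH.nice hξ.nice hHz hx
  have hU : IsMF p (2 + ((k : ℤ) + 1)) (heckeU (2 + ((k : ℤ) + 1)) p (H * ξ)) :=
    isMF_heckeU dvd_rfl hHξ
  have hUz : HasQZ (heckeU (2 + ((k : ℤ) + 1)) p (H * ξ)) (Uop p (Uop p fZ * x)) :=
    HasQZ.heckeU hHξ.nice hHξz _ hp0
  -- the trace
  have htr : IsMF 1 (2 + ((k : ℤ) + 1)) (trFun (2 + ((k : ℤ) + 1)) p (F * Vd p ξ)) :=
    isMF_trFun hFV
  have hform : trFun (2 + ((k : ℤ) + 1)) p (F * Vd p ξ) =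
      F * Vd p ξ - ((p : ℂ) ^ (-((k : ℤ) + 1))) • heckeU (2 + ((k : ℤ) + 1)) p (H * ξ) :=
    tr_mul_V hF hξ
  set A : ℍ → ℂ := F * Vd p ξ with hAdef
  set B : ℍ → ℂ := heckeU (2 + ((k : ℤ) + 1)) p (H * ξ) with hBdef
  have hpC : (p : ℂ) ≠ 0 := Nat.cast_ne_zero.mpr hp0
  have hζ : B - (((p : ℤ) ^ (k + 1) : ℤ) : ℂ) • A =
      (-(p : ℂ) ^ (k + 1)) • trFun (2 + ((k : ℤ) + 1)) p A := by
    rw [hform, smul_sub, smul_smul]
    have h1 : -(p : ℂ) ^ (k + 1) * (p : ℂ) ^ (-((k : ℤ) + 1)) = -1 := by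
      have : ((k : ℤ) + 1) = ((k + 1 : ℕ) : ℤ) := by push_cast; ring
      rw [this, zpow_neg, zpow_natCast, neg_mul, mul_inv_cancel₀ (pow_ne_zero _ hpC)]
    have h2 : (((p : ℤ) ^ (k + 1) : ℤ) : ℂ) = (p : ℂ) ^ (k + 1) := by push_cast; rfl
    rw [h1, h2]
    module
  refine ⟨B - (((p : ℤ) ^ (k + 1) : ℤ) : ℂ) • A,
    Uop p (Uop p fZ * x) - ((p : ℤ) ^ (k + 1)) • (fZ * Vop p x), ?_, ?_, ?_⟩
  · rw [hζ]; exact (htr.smul _).cast (by ring)
  · exact HasQZ.sub hU.nice (hFV.smul _).nice hUz (HasQZ.int_smul hFV.nice hFVz _)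
  · -- the congruence
    set φ := Int.castRingHom (ZMod M) with hφ
    have hUf : (Uop p fZ).map φ = PowerSeries.C (((p : ℤ) - 1 : ℤ) : ZMod M) := by
      rw [map_Uop, hfM, Uop_C hp0]
    simp only [map_sub, map_add, map_zsmul, map_mul, map_Uop, map_Vop, hfM, hUf, Uop_C_mul]
    have key : ((p : PowerSeries (ZMod M)) + 1) = 0 := by
      have : ((p + 1 : ℕ) : PowerSeries (ZMod M)) = 0 := by
        rw [← map_natCast (PowerSeries.C (R := ZMod M)), (ZMod.natCast_eq_zero_iff _ _).mpr hM,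
          map_zero]
      push_cast at this
      exact this
    simp only [zsmul_eq_mul, map_intCast]
    push_cast
    linear_combination (-((p : PowerSeries (ZMod M)) - 1) * (p : PowerSeries (ZMod M)) ^ k *
      Vop p (PowerSeries.map φ x)) * key


/-- the version of `T2_pair` for a weight `k ≥ 1` (shape of the blueprint) -/
theorem T2_pair' {p : ℕ} [hp : Fact p.Prime] {M : ℕ} (hM : M ∣ p + 1) {g : ℍ → ℂ}
    (h : EisCong p M g) {k : ℕ} (hk : 1 ≤ k) {ξ : ℍ → ℂ} {x : PowerSeries ℤ}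
    (hξ : IsMF 1 (k : ℤ) ξ) (hx : HasQZ ξ x) :
    ∃ (ζ : ℍ → ℂ) (z : PowerSeries ℤ), IsMF 1 ((k : ℤ) + 2) ζ ∧ HasQZ ζ z ∧
      z.map (Int.castRingHom (ZMod M)) =
        ((((p : ℤ) - 1) • (Uop p x + ((p : ℤ) ^ (k - 1)) • Vop p x) : PowerSeries ℤ)).map
          (Int.castRingHom (ZMod M)) := by
  obtain ⟨k', rfl⟩ : ∃ k', k = k' + 1 := ⟨k - 1, by omega⟩
  have hξ' : IsMF 1 ((k' : ℤ) + 1) ξ := hξ.cast (by push_cast; ring)
  obtain ⟨ζ, z, hζ, hz, hc⟩ := T2_pair hM h k' hξ' hx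
  exact ⟨ζ, z, hζ.cast (by push_cast; ring), hz, by simpa using hc⟩

/-! ### `l ≥ 5`, `l ∣ p + 1` -/

/-- **(C6) final.** There is no Eisenstein congruence modulo a prime `l ≥ 5` dividing `p + 1`. -/
theorem not_eisCong_of_dvd_succ {p : ℕ} [hp : Fact p.Prime] {l : ℕ} (hl : l.Prime) (h5 : 5 ≤ l)
    (hlp : l ∣ p + 1) {g : ℍ → ℂ} : ¬ EisCong p l g := by
  intro h
  have hp0 : p ≠ 0 := hp.out.ne_zero
  have hp1 : 1 ≤ p := hp.out.one_lt.le
  -- `ξ = Δ^p`, of weight `12 p = K + 1`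
  obtain ⟨K, hK⟩ : ∃ K : ℕ, 12 * p = K + 1 := ⟨12 * p - 1, by omega⟩
  have hKZ : ((K : ℤ) + 1) = (p : ℤ) * 12 := by
    have : ((12 * p : ℕ) : ℤ) = ((K + 1 : ℕ) : ℤ) := by rw [hK]
    push_cast at this
    linarith
  set ξ : ℍ → ℂ := (⇑CuspForm.discriminant) ^ p with hξdef
  have hξ : IsMF 1 ((K : ℤ) + 1) ξ := (isCF_delta.isMF.pow p).cast hKZ.symm
  have hx : HasQZ ξ (deltaZ ^ p) := HasQZ.pow isCF_delta.isMF.nice hasQZ_delta p
  obtain ⟨ζ, z, hζ, hz, hcong⟩ := T2_pair hlp h K hξ hx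
  -- `ξ₁ = (p - 1) T_p ξ`
  have hT : IsMF 1 ((K : ℤ) + 1) (heckeT ((K : ℤ) + 1) p ξ) := isMF_heckeT_one hp.out hξ
  have h1 : IsMF 1 ((K : ℤ) + 1) ((((p : ℤ) - 1 : ℤ) : ℂ) • heckeT ((K : ℤ) + 1) p ξ) := hT.smul _
  have a1 : HasQZ ((((p : ℤ) - 1 : ℤ) : ℂ) • heckeT ((K : ℤ) + 1) p ξ)
      (((p : ℤ) - 1) • (Uop p (deltaZ ^ p) + ((p : ℤ) ^ K) • Vop p (deltaZ ^ p))) :=
    HasQZ.int_smul hT.nice (HasQZ.heckeT hξ.nice hx K hp0) _
  have : Fact l.Prime := ⟨hl⟩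
  have h0 := swd_lite l h5 (k := K + 1) (h1.cast (by push_cast; ring))
    (hζ.cast (by push_cast; ring)) a1 hz hcong.symm
  -- the coefficient of `q`
  have hco := congrArg (PowerSeries.coeff 1) h0
  have hnd : ¬ p ∣ 1 := hp.out.not_dvd_one
  have hcoeff : PowerSeries.coeff 1
      (((p : ℤ) - 1) • (Uop p (deltaZ ^ p) + ((p : ℤ) ^ K) • Vop p (deltaZ ^ p))) = (p : ℤ) - 1 := by
    rw [coeff_int_smul, map_add, coeff_Uop, coeff_int_smul, coeff_Vop hp0, if_neg hnd, one_mul,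
      coeff_deltaZ_pow, mul_zero, add_zero, mul_one]
  rw [PowerSeries.coeff_map, hcoeff, map_zero, eq_intCast,
    ZMod.intCast_zmod_eq_zero_iff_dvd] at hco
  -- `l ∣ p - 1` and `l ∣ p + 1`
  have h2 : (l : ℤ) ∣ 2 := by
    have h3 : (l : ℤ) ∣ (p : ℤ) + 1 := by exact_mod_cast Int.natCast_dvd_natCast.mpr hlp
    have := dvd_sub h3 hco
    simpa using this
  have : l ≤ 2 := by
    have := Int.le_of_dvd (by norm_num) h2
    exact_mod_cast this
  omega

end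

end Fermat.Agent.S16.LevelOne.T2
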