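import Mathlib
import Fermat.Agent.S16.LevelOne.Fricke2
import Fermat.Agent.S16.LevelOne.QSeries

/-!
# S16 (C5), core: the case `l = p` of the upper bound

For a prime `p ≥ 7` there is no weight two cusp form `g` on `Γ₀(p)` whose `q`-expansion is
congruent to the Eisenstein series `E*` modulo `p` (away from the constant term).

With `F := estar24 p - 24 g = (p-1) + p·(…)` and `H := U_p F`, the trace formula gives
`p • Tr(F²) = p F² + U_p(H²)`, a level one form of weight four, hence a multiple of `E₄`.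
Comparing the coefficients of `q⁰` and `q¹` modulo `p` gives `p ∣ 240 (p-1)² (p+1)`.
-/

set_option autoImplicit false

namespace Fermat.Agent.S16.LevelOne.EllEqPCore

open PowerSeries UpperHalfPlane ModularForm EisensteinSeries Filter Topology
open Fermat.Agent.S20 Fermat.Agent.S16 Fermat.Agent.S16.LevelOne
open Fermat.Agent.S16.LevelOne.QSeries Fermat.Agent.S16.LevelOne.Fricke Fermat.Agent.S16.Estar
open scoped MatrixGroups ModularForm Manifold

noncomputable section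

/-- level one, weight four: everything is a multiple of `E₄` -/
theorem eq_smul_E4 {r : ℍ → ℂ} (hr : IsMF 1 4 r) : ∃ c : ℂ, r = c • (⇑E₄ : ℍ → ℂ) := by
  obtain ⟨s, t, hs, ht, rfl⟩ := levelOne_decomp (by norm_num) hr
  have ht0 : t = 0 := IsMF.eq_zero_of_neg (by norm_num) ht
  obtain ⟨c, rfl⟩ := IsMF.eq_const_of_weight_zero (hs.cast (by norm_num))
  refine ⟨c, ?_⟩
  subst ht0
  ext z
  simp [mul_comm]

/-- the `q¹` coefficient of a level one form of weight four is `240` times its constant term -/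
theorem coeff_one_eq {r : ℍ → ℂ} (hr : IsMF 1 4 r) :
    (qExpansion 1 r).coeff 1 = 240 * (qExpansion 1 r).coeff 0 := by
  obtain ⟨c, rfl⟩ := eq_smul_E4 hr
  rw [qExpansion_smul isMF_E4.nice.analytic]
  rw [PowerSeries.coeff_smul, PowerSeries.coeff_smul, E₄_qExpansion_coeff_one]
  have h0 : (qExpansion 1 (⇑E₄ : ℍ → ℂ)).coeff 0 = 1 := E_qExpansion_coeff_zero _ ⟨2, rfl⟩
  rw [h0]
  simp only [smul_eq_mul]
  ring

/-- the constant term of a cusp form vanishes -/
theorem coeff_zero_of_isCF {N : ℕ} {k : ℤ} {g : ℍ → ℂ} (hg : IsCF N k g) :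
    (qExpansion 1 g).coeff 0 = 0 := by
  have hn := hg.isMF.nice
  rw [qExpansion_coeff_zero (h := 1) one_pos hn.analytic hn.per']
  apply valueAtInfty_eq_of_tendsto
  have := hg.2.2 1
  rwa [SlashAction.slash_one] at this

/-- the integral `q`-expansion of `F = estar24 p - 24 g` when `g ≡ E*` modulo `p` -/
def aF (p : ℕ) (m : ℕ → ℤ) : PowerSeries ℤ :=
  PowerSeries.mk fun n => if n = 0 then (p : ℤ) - 1 else -(24 * ((p : ℤ) * m n))

theorem coeff_aF_zero (p : ℕ) (m : ℕ → ℤ) : (aF p m).coeff 0 = (p : ℤ) - 1 := by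
  simp [aF]

theorem coeff_aF_of_ne_zero (p : ℕ) (m : ℕ → ℤ) {n : ℕ} (hn : n ≠ 0) :
    (aF p m).coeff n = -(24 * ((p : ℤ) * m n)) := by
  simp [aF, hn]

/-- modulo `p`, the series `U_p (aF)` is the constant `p - 1` -/
theorem map_Uop_aF {p : ℕ} (hp : p ≠ 0) (m : ℕ → ℤ) :
    (Uop p (aF p m)).map (Int.castRingHom (ZMod p)) =
      PowerSeries.C (((p : ℤ) - 1 : ℤ) : ZMod p) := by
  ext n
  rw [PowerSeries.coeff_map, coeff_Uop, PowerSeries.coeff_C]
  by_cases hn : n = 0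
  · subst hn
    rw [zero_mul, coeff_aF_zero, if_pos rfl]
    rfl
  · rw [if_neg hn, coeff_aF_of_ne_zero p m (Nat.mul_ne_zero hn hp)]
    simp

/-- the formal series of `p F² + U_p (H²)` -/
def aZ (p : ℕ) (m : ℕ → ℤ) : PowerSeries ℤ :=
  (p : ℤ) • (aF p m * aF p m) + Uop p (Uop p (aF p m) * Uop p (aF p m))

theorem coeff_aZ_zero (p : ℕ) (m : ℕ → ℤ) :
    (aZ p m).coeff 0 = (p : ℤ) * ((p : ℤ) - 1) ^ 2 + ((p : ℤ) - 1) ^ 2 := by
  unfold aZ
  rw [map_add, coeff_int_smul, coeff_Uop, zero_mul, PowerSeries.coeff_zero_eq_constantCoeff_apply,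
    PowerSeries.coeff_zero_eq_constantCoeff_apply, map_mul, map_mul,
    ← PowerSeries.coeff_zero_eq_constantCoeff_apply, ← PowerSeries.coeff_zero_eq_constantCoeff_apply,
    coeff_Uop, zero_mul, coeff_aF_zero]
  ring

theorem dvd_coeff_aZ_one {p : ℕ} (hp : p ≠ 0) (m : ℕ → ℤ) : (p : ℤ) ∣ (aZ p m).coeff 1 := by
  unfold aZ
  rw [map_add, coeff_int_smul, coeff_Uop, one_mul]
  refine dvd_add (dvd_mul_right _ _) ?_
  rw [← ZMod.intCast_zmod_eq_zero_iff_dvd]
  have h1 : (Uop p (aF p m) * Uop p (aF p m)).map (Int.castRingHom (ZMod p)) =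
      PowerSeries.C ((((p : ℤ) - 1 : ℤ) : ZMod p) * (((p : ℤ) - 1 : ℤ) : ZMod p)) := by
    rw [map_mul (PowerSeries.map (Int.castRingHom (ZMod p))), map_Uop_aF hp,
      map_mul (PowerSeries.C (R := ZMod p))]
  have h := congrArg (PowerSeries.coeff p) h1
  rw [PowerSeries.coeff_map, PowerSeries.coeff_C, if_neg hp] at h
  exact h

variable {p : ℕ} [Fact p.Prime] {g : ℍ → ℂ}

omit [Fact p.Prime] in
/-- the `q`-expansion of `F = estar24 p - 24 g` -/
theorem hasQZ_F [NeZero p] (hg : IsCF p 2 g) (m : ℕ → ℤ)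
    (hm : ∀ n : ℕ, 1 ≤ n → ModularFormClass.qCoeff g n =
      (((sigmaStar p n : ℤ) + (p : ℤ) * m n : ℤ) : ℂ)) :
    HasQZ (estar24 p - (24 : ℂ) • g) (aF p m) := by
  rw [hasQZ_iff_qCoeff]
  intro n
  have h1 : ModularFormClass.qCoeff (estar24 p - (24 : ℂ) • g) n =
      ModularFormClass.qCoeff (estar24 p) n - 24 * ModularFormClass.qCoeff g n := by
    unfold ModularFormClass.qCoeff
    rw [qExpansion_sub (isMF_estar24 p).nice.analytic (hg.isMF.nice.smul 24).analytic,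
      qExpansion_smul hg.isMF.nice.analytic, map_sub, PowerSeries.coeff_smul, smul_eq_mul]
  rw [h1, qCoeff_estar24]
  by_cases hn : n = 0
  · subst hn
    rw [if_pos rfl, coeff_aF_zero]
    have : ModularFormClass.qCoeff g 0 = 0 := coeff_zero_of_isCF hg
    rw [this]
    push_cast
    ring
  · rw [if_neg hn, coeff_aF_of_ne_zero p m hn, hm n (Nat.one_le_iff_ne_zero.mpr hn)]
    push_cast
    ring

/-- the trace identity `p • Tr(F²) = p F² + U_p ((U_p F)²)` -/
theorem smul_trFun_sq {F : ℍ → ℂ} (hF : IsMF p 2 F) :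
    (p : ℂ) • trFun 4 p (F * F) =
      (p : ℂ) • (F * F) + heckeU 4 p (heckeU 2 p F * heckeU 2 p F) := by
  have hp : p ≠ 0 := (Fact.out : p.Prime).ne_zero
  have hpC : (p : ℂ) ≠ 0 := by exact_mod_cast hp
  have hW : frickeW 4 p (F * F) = (p : ℂ) • (heckeU 2 p F * heckeU 2 p F) := by
    have h := frickeW_mul hp 2 2 F F
    rw [frickeW_two hF, neg_mul_neg] at h
    exact h
  have hc : (p : ℂ) * ((p : ℂ) ^ ((2 : ℤ) - 4) * (p : ℂ)) = 1 := by
    rw [show (2 : ℤ) - 4 = -2 by norm_num, zpow_neg, zpow_ofNat]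
    field_simp
  rw [trFun_eq hp, hW, heckeU_smul, smul_smul, smul_add, smul_smul, hc, one_smul]

/-- **case `l = p`** (stated on the two fields of `EisCong p p g`): no cusp form of level
`p ≥ 7` is congruent to `E*` modulo `p` -/
theorem false_of_cong_self (hp : 7 ≤ p) (hg : IsCF p 2 g)
    (hc : ∀ n : ℕ, 1 ≤ n → ∃ m : ℤ, ModularFormClass.qCoeff g n =
      (((sigmaStar p n : ℤ) + (p : ℤ) * m : ℤ) : ℂ)) : False := by
  have hpp : p.Prime := Fact.out
  have hp0 : p ≠ 0 := hpp.ne_zero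
  have : NeZero p := ⟨hp0⟩
  choose! m hm using hc
  have hFmf : IsMF p 2 (estar24 p - (24 : ℂ) • g) := (isMF_estar24 p).sub (hg.isMF.smul 24)
  have hFq := hasQZ_F hg m hm
  set F : ℍ → ℂ := estar24 p - (24 : ℂ) • g with hFdef
  have hHmf : IsMF p 2 (heckeU 2 p F) := isMF_heckeU_two hFmf
  have hHq : HasQZ (heckeU 2 p F) (Uop p (aF p m)) := hFq.heckeU hFmf.nice 2 hp0
  have hZmf : IsMF 1 4 ((p : ℂ) • (F * F) + heckeU 4 p (heckeU 2 p F * heckeU 2 p F)) := by
    rw [← smul_trFun_sq hFmf]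
    exact (isMF_trFun ((hFmf.mul hFmf).cast (by norm_num))).smul _
  have hZq : HasQZ ((p : ℂ) • (F * F) + heckeU 4 p (heckeU 2 p F * heckeU 2 p F)) (aZ p m) := by
    have h1 := (HasQZ.mul hFmf.nice hFmf.nice hFq hFq).int_smul (hFmf.nice.mul hFmf.nice) (p : ℤ)
    have h2 := (HasQZ.mul hHmf.nice hHmf.nice hHq hHq).heckeU (hHmf.nice.mul hHmf.nice) 4 hp0
    have h3 := HasQZ.add ((hFmf.nice.mul hFmf.nice).smul _) ((hHmf.nice.mul hHmf.nice).heckeU 4 p)
      h1 h2
    rw [Int.cast_natCast] at h3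
    exact h3
  have hkey := coeff_one_eq hZmf
  rw [hZq.coeff, hZq.coeff] at hkey
  have hkeyZ : (aZ p m).coeff 1 = 240 * (aZ p m).coeff 0 := by exact_mod_cast hkey
  have hdvd := dvd_coeff_aZ_one hp0 m
  rw [hkeyZ, coeff_aZ_zero] at hdvd
  -- `p ∣ 240 (p (p-1)² + (p-1)²)` is impossible for a prime `p ≥ 7`
  have hpZ : Prime (p : ℤ) := Nat.prime_iff_prime_int.mp hpp
  have e : (240 : ℤ) * ((p : ℤ) * ((p : ℤ) - 1) ^ 2 + ((p : ℤ) - 1) ^ 2) =
      240 * (((p : ℤ) + 1) * ((p : ℤ) - 1) ^ 2) := by ring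
  rw [e] at hdvd
  rcases hpZ.dvd_or_dvd hdvd with h240 | h2
  · have h240' : p ∣ 240 := by exact_mod_cast h240
    have hle : p ≤ 240 := Nat.le_of_dvd (by norm_num) h240'
    have h240f : (240 : ℕ) = 2 ^ 4 * 3 * 5 := by norm_num
    rw [h240f] at h240'
    rcases (Nat.Prime.dvd_mul hpp).mp h240' with h' | h'
    · rcases (Nat.Prime.dvd_mul hpp).mp h' with h'' | h''
      · have := (Nat.prime_dvd_prime_iff_eq hpp Nat.prime_two).mp (hpp.dvd_of_dvd_pow h'')
        omega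
      · have := (Nat.prime_dvd_prime_iff_eq hpp Nat.prime_three).mp h''
        omega
    · have := (Nat.prime_dvd_prime_iff_eq hpp Nat.prime_five).mp h'
      omega
  · rcases hpZ.dvd_or_dvd h2 with h3 | h3
    · have : (p : ℤ) ∣ 1 := (dvd_add_right (dvd_refl _)).mp h3
      have := Int.le_of_dvd one_pos this
      omega
    · have h4 := hpZ.dvd_of_dvd_pow h3
      have : (p : ℤ) ∣ 1 := by
        have h5 : (p : ℤ) ∣ (p : ℤ) - ((p : ℤ) - 1) := dvd_sub (dvd_refl _) h4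
        simpa using h5
      have := Int.le_of_dvd one_pos this
      omega

end

end Fermat.Agent.S16.LevelOne.EllEqPCore
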