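import Mathlib
import Fermat.Agent.S16.LevelOne.Defs
import Fermat.Agent.S16.LevelOne.EllEqPCore

/-!
# S16 (C5): the case `l = p` of the upper bound, in terms of `EisCong`

See `Fermat.Agent.S16.LevelOne.EllEqPCore` for the proof.
-/

set_option autoImplicit false

namespace Fermat.Agent.S16.LevelOne.EllEqP

open UpperHalfPlane
open Fermat.Agent.S16.LevelOne

/-- **case `l = p`**: no cusp form of level `p ≥ 7` is congruent to `E*` modulo `p` -/
theorem not_eisCong_self {p : ℕ} [Fact p.Prime] {g : ℍ → ℂ} (hp : 7 ≤ p) : ¬ EisCong p p g :=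
  fun h => EllEqPCore.false_of_cong_self hp h.isCF h.cong

end Fermat.Agent.S16.LevelOne.EllEqP
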