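import Mathlib
import Fermat.Agent.S16.Estar24
import Fermat.Agent.S16.LevelOne.QSeries
import Fermat.Agent.S20.LevelOne

/-!
# S16 (C): the form `F = 24 (E* - g)` attached to an Eisenstein congruence

If `g` is a cusp form of level `p`, weight two, with `a_n(g) = σ*(n) + M m_n` (`n ≥ 1`), then
`F := estar24 p - 24 g ∈ M_2(Γ₀(p))` has an integral `q`-expansion `aF` with constant term `p - 1`
and all higher coefficients divisible by `24 M`.
-/

set_option autoImplicit false

namespace Fermat.Agent.S16.LevelOne.EisSetup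

open UpperHalfPlane ModularFormClass PowerSeries
open Fermat.Agent.S20 Fermat.Agent.S16.Estar Fermat.Agent.S16.LevelOne.QSeries
open scoped MatrixGroups ModularForm Manifold

/-- the constant term of a nice function vanishing at `i∞` is `0` -/
theorem qCoeff_zero_of_isZeroAtImInfty {f : ℍ → ℂ} (hf : Nice f) (h0 : IsZeroAtImInfty f) :
    qCoeff f 0 = 0 := by
  unfold qCoeff
  rw [qExpansion_coeff_zero (h := 1) one_pos hf.analytic hf.per]
  exact h0.valueAtInfty_eq_zero

theorem IsCF.isZeroAtImInfty {N : ℕ} {k : ℤ} {f : ℍ → ℂ} (hf : IsCF N k f) :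
    IsZeroAtImInfty f := by
  have := hf.2.2 1
  rwa [SlashAction.slash_one] at this

/-- a cusp form with integral coefficients has an integral `q`-expansion without constant term -/
theorem exists_hasQZ_of_cusp {N : ℕ} {k : ℤ} {g : ℍ → ℂ} (hg : IsCF N k g) (c : ℕ → ℤ)
    (hc : ∀ n, 1 ≤ n → qCoeff g n = (c n : ℂ)) :
    HasQZ g (PowerSeries.mk fun n => if 1 ≤ n then c n else 0) := by
  rw [hasQZ_iff_qCoeff]
  intro n
  rw [PowerSeries.coeff_mk]
  by_cases hn : 1 ≤ n
  · rw [if_pos hn, hc n hn]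
  · have h0 : n = 0 := by omega
    rw [if_neg hn, h0, qCoeff_zero_of_isZeroAtImInfty hg.isMF.nice (IsCF.isZeroAtImInfty hg)]
    simp

/-- the integral `q`-expansion of `estar24 p` -/
theorem hasQZ_estar24 (p : ℕ) [NeZero p] :
    HasQZ (estar24 p)
      (PowerSeries.mk fun n => if n = 0 then (p : ℤ) - 1 else 24 * (sigmaStar p n : ℤ)) := by
  rw [hasQZ_iff_qCoeff]
  intro n
  rw [qCoeff_estar24, PowerSeries.coeff_mk]
  split_ifs <;> push_cast <;> rfl

/-- **the form `F = estar24 p - 24 g`** -/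
theorem exists_F {p M : ℕ} [NeZero p] {g : ℍ → ℂ} (hg : IsCF p 2 g)
    (hc : ∀ n : ℕ, 1 ≤ n → ∃ m : ℤ,
      qCoeff g n = (((sigmaStar p n : ℤ) + (M : ℤ) * m : ℤ) : ℂ)) :
    ∃ (F : ℍ → ℂ) (aF : PowerSeries ℤ), F = estar24 p - (24 : ℂ) • g ∧ IsMF p 2 F ∧ HasQZ F aF ∧
      coeff 0 aF = (p : ℤ) - 1 ∧ ∀ n, 1 ≤ n → (24 * (M : ℤ)) ∣ coeff n aF := by
  classical
  let mfun : ℕ → ℤ := fun n => if h : 1 ≤ n then Classical.choose (hc n h) else 0
  have hm : ∀ n, 1 ≤ n → qCoeff g n = (((sigmaStar p n : ℤ) + (M : ℤ) * mfun n : ℤ) : ℂ) := by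
    intro n hn
    have := Classical.choose_spec (hc n hn)
    simp only [mfun, dif_pos hn]
    exact this
  have hG := exists_hasQZ_of_cusp hg (fun n => (sigmaStar p n : ℤ) + (M : ℤ) * mfun n) hm
  have hE := hasQZ_estar24 p
  have hE' : IsMF p 2 (estar24 p) := isMF_estar24 p
  have h24 : ((24 : ℤ) : ℂ) = 24 := by norm_num
  have hG24 := HasQZ.int_smul hg.isMF.nice hG 24
  rw [h24] at hG24
  have hF := HasQZ.sub hE'.nice (hg.isMF.nice.smul 24) hE hG24
  refine ⟨_, _, rfl, hE'.sub (hg.isMF.smul 24), hF, ?_, ?_⟩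
  · rw [map_sub, coeff_int_smul, PowerSeries.coeff_mk, PowerSeries.coeff_mk]
    simp
  · intro n hn
    have hn0 : n ≠ 0 := by omega
    rw [map_sub, coeff_int_smul, PowerSeries.coeff_mk, PowerSeries.coeff_mk, if_neg hn0, if_pos hn]
    exact ⟨-mfun n, by ring⟩

end Fermat.Agent.S16.LevelOne.EisSetup
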