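import Mathlib
import Fermat.Agent.S16.LevelOne.Fricke2
import Fermat.Agent.S16.LevelOne.EisSetup
import Fermat.Agent.S16.Alg.SigmaStar

/-!
# S16 (C5b): the case `ℓ = p` of the upper bound for `p ∈ {2, 3, 5}`

For a cusp form `g ∈ S₂(Γ₀(p))` the trace of `g²` to level one is a cusp form of weight `4`, hence
zero: `p g² + U_p((U_p g)²) = 0`.  If `g` has integer coefficients congruent to `σ*(n)` mod `p`
this forces `p ∣ ∑_{i+j=mp} σ*(i) σ*(j)` for every `m`, which fails for `(p, m) = (2, 1), (3, 2),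
(5, 2)`.  (For `p ≥ 7` see `EllEqP.lean`.)
-/

set_option autoImplicit false

namespace Fermat.Agent.S16.LevelOne.SmallSelf

open UpperHalfPlane ModularFormClass PowerSeries ModularForm
open Fermat.Agent.S20 Fermat.Agent.S16.Estar Fermat.Agent.S16.LevelOne.QSeries
  Fermat.Agent.S16.LevelOne.Fricke Fermat.Agent.S16.LevelOne
open scoped MatrixGroups ModularForm Manifold

variable {p : ℕ} [Fact p.Prime]

/-- a level one form of weight `4` whose `q`-expansion has no constant term is zero. -/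
theorem eq_zero_of_weight_four {P : ℍ → ℂ} (hP : IsMF 1 4 P)
    (h0 : (qExpansion 1 P).coeff 0 = 0) : P = 0 := by
  have hc : IsCF 1 4 P := hP.isCF_of_valueAtInfty_eq_zero (by rw [hP.valueAtInfty_eq_coeff_zero, h0])
  obtain ⟨r, hr, hPr⟩ := hc.exists_eq_delta_mul
  have hr0 : r = 0 := IsMF.eq_zero_of_neg (by norm_num) hr
  rw [hPr, hr0, mul_zero]

/-- **`Tr(g²) = 0`**: for a cusp form `g` of weight two and level `p`,
`p g² + U_p((U_p g)²) = 0`. -/
theorem smul_sq_add_heckeU_sq {g : ℍ → ℂ} (hg : IsCF p 2 g) {a : PowerSeries ℤ} (ha : HasQZ g a)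
    (h0 : a.coeff 0 = 0) :
    (p : ℤ) • (a * a) + Uop p (Uop p a * Uop p a) = 0 := by
  have hp : p ≠ 0 := (Fact.out : p.Prime).ne_zero
  have hpC : (p : ℂ) ≠ 0 := by exact_mod_cast hp
  have hG : IsMF p 2 g := hg.isMF
  have hh : IsMF p 2 (heckeU 2 p g) := isMF_heckeU_two hG
  have hgg : IsMF p 4 (g * g) := (hG.mul hG).cast (by norm_num)
  have hhh : IsMF p 4 (heckeU 2 p g * heckeU 2 p g) := (hh.mul hh).cast (by norm_num)
  have hZ : IsMF 1 4 (trFun 4 p (g * g)) := isMF_trFun hgg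
  have e2 : frickeW 4 p (g * g) = (p : ℂ) • (heckeU 2 p g * heckeU 2 p g) := by
    have h := frickeW_mul hp 2 2 g g
    rw [frickeW_two hG, neg_mul_neg] at h
    exact h
  have e1 : (p : ℂ) • trFun 4 p (g * g) =
      ((p : ℤ) : ℂ) • (g * g) + heckeU 4 p (heckeU 2 p g * heckeU 2 p g) := by
    rw [trFun_eq hp 4, e2, heckeU_smul, smul_add, smul_smul, smul_smul]
    congr 1
    have : (p : ℂ) * (p : ℂ) ^ ((2 : ℤ) - 4) * (p : ℂ) = 1 := by
      rw [show ((2 : ℤ) - 4) = -2 by norm_num, zpow_neg, zpow_two]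
      field_simp
    rw [this, one_smul]
  -- the integral q-expansion of `p • Tr(g²)`
  have q1 : HasQZ (((p : ℤ) : ℂ) • (g * g)) ((p : ℤ) • (a * a)) :=
    HasQZ.int_smul (hG.nice.mul hG.nice) (ha.mul hG.nice hG.nice ha) p
  have q2 : HasQZ (heckeU 2 p g) (Uop p a) := HasQZ.heckeU hG.nice ha 2 hp
  have q3 : HasQZ (heckeU 4 p (heckeU 2 p g * heckeU 2 p g)) (Uop p (Uop p a * Uop p a)) :=
    HasQZ.heckeU (hh.nice.mul hh.nice) (q2.mul hh.nice hh.nice q2) 4 hp
  have q4 := HasQZ.add ((hG.nice.mul hG.nice).smul _) ((hh.nice.mul hh.nice).heckeU 4 p) q1 q3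
  rw [← e1] at q4
  have hP : IsMF 1 4 ((p : ℂ) • trFun 4 p (g * g)) := hZ.smul _
  have hzero : (p : ℂ) • trFun 4 p (g * g) = 0 := by
    refine eq_zero_of_weight_four hP ?_
    rw [q4.coeff 0]
    rw [map_add, coeff_int_smul, coeff_Uop, zero_mul, PowerSeries.coeff_mul,
      PowerSeries.coeff_mul]
    simp [h0, coeff_Uop]
  rw [hzero] at q4
  exact q4.unique HasQZ.zero

theorem sigmaStar_eq_alg (p n : ℕ) : sigmaStar p n = Fermat.Agent.S16.Alg.sigmaStar p n := rfl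

/-- the formal contradiction: if `a ≡ σ*` mod `p` then `p ∣ ∑_{i+j = m p} σ*(i) σ*(j)`. -/
theorem false_of_index {g : ℍ → ℂ} (hg : IsCF p 2 g)
    (hc : ∀ n : ℕ, 1 ≤ n → ∃ m : ℤ,
      qCoeff g n = (((sigmaStar p n : ℤ) + (p : ℤ) * m : ℤ) : ℂ))
    (m : ℕ)
    (hm : ¬ (p : ℤ) ∣ ((∑ x ∈ Finset.HasAntidiagonal.antidiagonal (m * p),
      sigmaStar p x.1 * sigmaStar p x.2 : ℕ) : ℤ)) : False := by
  classical
  have hpp : p.Prime := Fact.out
  let mfun : ℕ → ℤ := fun n => if h : 1 ≤ n then Classical.choose (hc n h) else 0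
  have hmf : ∀ n, 1 ≤ n → qCoeff g n = (((sigmaStar p n : ℤ) + (p : ℤ) * mfun n : ℤ) : ℂ) := by
    intro n hn
    have := Classical.choose_spec (hc n hn)
    simp only [mfun, dif_pos hn]
    exact this
  have ha := EisSetup.exists_hasQZ_of_cusp hg (fun n => (sigmaStar p n : ℤ) + (p : ℤ) * mfun n) hmf
  set a : PowerSeries ℤ := PowerSeries.mk fun n =>
    if 1 ≤ n then (sigmaStar p n : ℤ) + (p : ℤ) * mfun n else 0 with hadef
  have h0 : a.coeff 0 = 0 := by simp [hadef]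
  -- coefficients mod p
  have hmod : ∀ n, ((a.coeff n : ℤ) : ZMod p) = ((sigmaStar p n : ℕ) : ZMod p) := by
    intro n
    rw [hadef, PowerSeries.coeff_mk]
    by_cases hn : 1 ≤ n
    · rw [if_pos hn]
      push_cast
      simp
    · have : n = 0 := by omega
      subst this
      simp [sigmaStar]
  have hmodU : ∀ n, (((Uop p a).coeff n : ℤ) : ZMod p) = ((sigmaStar p n : ℕ) : ZMod p) := by
    intro n
    rw [coeff_Uop, hmod]
    rcases Nat.eq_zero_or_pos n with rfl | hn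
    · simp
    · rw [sigmaStar_eq_alg, Fermat.Agent.S16.Alg.sigmaStar_mul_self hpp n hn]
      rfl
  have hid := smul_sq_add_heckeU_sq hg ha h0
  have hcoef := congrArg (PowerSeries.coeff m) hid
  rw [map_add, coeff_int_smul, coeff_Uop, map_zero] at hcoef
  have hdvd : ((((Uop p a * Uop p a).coeff (m * p) : ℤ)) : ZMod p) = 0 := by
    have h1 : (Uop p a * Uop p a).coeff (m * p) = -((p : ℤ) * (a * a).coeff m) := by linarith
    rw [h1]
    push_cast
    simp
  rw [PowerSeries.coeff_mul] at hdvd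
  push_cast at hdvd
  simp only [hmodU] at hdvd
  apply hm
  rw [← ZMod.intCast_zmod_eq_zero_iff_dvd]
  push_cast
  exact hdvd

theorem sum_two : (∑ x ∈ Finset.HasAntidiagonal.antidiagonal (1 * 2),
    sigmaStar 2 x.1 * sigmaStar 2 x.2 : ℕ) = 1 := by decide

theorem sum_three : (∑ x ∈ Finset.HasAntidiagonal.antidiagonal (2 * 3),
    sigmaStar 3 x.1 * sigmaStar 3 x.2 : ℕ) = 55 := by decide

theorem sum_five : (∑ x ∈ Finset.HasAntidiagonal.antidiagonal (2 * 5),
    sigmaStar 5 x.1 * sigmaStar 5 x.2 : ℕ) = 349 := by decide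

/-- **the case `ℓ = p` of the upper bound for `p ∈ {2, 3, 5}`.** -/
theorem not_eisCong_self_small (p : ℕ) [Fact p.Prime] (hp : p < 7) {g : ℍ → ℂ}
    (hg : IsCF p 2 g)
    (hc : ∀ n : ℕ, 1 ≤ n → ∃ m : ℤ,
      qCoeff g n = (((sigmaStar p n : ℤ) + (p : ℤ) * m : ℤ) : ℂ)) : False := by
  have hpp : p.Prime := Fact.out
  have h2 := hpp.two_le
  interval_cases p
  · exact false_of_index hg hc 1 (by rw [sum_two]; norm_num)
  · exact false_of_index hg hc 2 (by rw [sum_three]; norm_num)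
  · exact absurd hpp (by norm_num)
  · exact false_of_index hg hc 2 (by rw [sum_five]; norm_num)
  · exact absurd hpp (by norm_num)

/-- the same for a modulus `p ^ a`, `a ≥ 1`. -/
theorem not_eisCong_pow_self_small (p : ℕ) [Fact p.Prime] (hp : p < 7) {a : ℕ} (ha : 1 ≤ a)
    {g : ℍ → ℂ} (hg : IsCF p 2 g)
    (hc : ∀ n : ℕ, 1 ≤ n → ∃ m : ℤ,
      qCoeff g n = (((sigmaStar p n : ℤ) + ((p ^ a : ℕ) : ℤ) * m : ℤ) : ℂ)) : False := by
  refine not_eisCong_self_small p hp hg fun n hn => ?_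
  obtain ⟨m, hm⟩ := hc n hn
  refine ⟨(p : ℤ) ^ (a - 1) * m, ?_⟩
  rw [hm]
  congr 2
  obtain ⟨b, rfl⟩ : ∃ b, a = b + 1 := ⟨a - 1, by omega⟩
  push_cast
  ring

end Fermat.Agent.S16.LevelOne.SmallSelf
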