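import Mathlib

/-!
# S16 (C4): the formal core of the `Δ`-test

Pure `PowerSeries ℤ` algebra: from the identity `p^12 F·VΔ = U_p (U_p F · Δ)` with
`F ≡ p - 1 mod 24 M` one reads off `24 M ∣ (p-1) τ(p)` and
`24 M ∣ (p-1) ((p+1) p^11 - τ(p)^2)`.
-/

set_option autoImplicit false

namespace Fermat.Agent.S16.LevelOne.T1Formal

open PowerSeries

/-- if `A ≡ c mod N` (constant) and `B` has no constant term then `(A B)_n ≡ c B_n mod N` -/
theorem coeff_mul_modEq {N c : ℤ} {A B : PowerSeries ℤ} (hA0 : coeff 0 A = c)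
    (hA : ∀ n, 1 ≤ n → N ∣ coeff n A) (n : ℕ) :
    coeff n (A * B) ≡ c * coeff n B [ZMOD N] := by
  rw [PowerSeries.coeff_mul, Finset.Nat.sum_antidiagonal_eq_sum_range_succ_mk,
    Finset.sum_range_succ']
  simp only [Nat.sub_zero, hA0]
  have h : N ∣ ∑ i ∈ Finset.range n, coeff (i + 1) A * coeff (n - (i + 1)) B :=
    Finset.dvd_sum fun i _ => Dvd.dvd.mul_right (hA (i + 1) (Nat.le_add_left 1 i)) _
  have := (Int.modEq_zero_iff_dvd.mpr h).add_right (c * coeff n B)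
  simpa using this

theorem T1_formal {p : ℕ} (hp : p.Prime) {M t : ℤ} {aF aH δ Vδ : PowerSeries ℤ}
    (hF0 : coeff 0 aF = (p : ℤ) - 1) (hF : ∀ n, 1 ≤ n → (24 * M) ∣ coeff n aF)
    (hH : ∀ n, coeff n aH = coeff (n * p) aF)
    (hδ1 : coeff 1 δ = 1)
    (hV : ∀ n, coeff n Vδ = if p ∣ n then coeff (n / p) δ else 0)
    (hT : ∀ n, coeff (n * p) δ = t * coeff n δ - (p : ℤ) ^ 11 * coeff n Vδ)
    (hZ : ∀ n, (p : ℤ) ^ 12 * coeff n (aF * Vδ) = coeff (n * p) (aH * δ)) :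
    (24 * M) ∣ ((p : ℤ) - 1) * t ∧
      (24 * M) ∣ ((p : ℤ) - 1) * (((p : ℤ) + 1) * (p : ℤ) ^ 11 - t ^ 2) := by
  have hp1 : ¬ p ∣ 1 := hp.one_lt.ne' ∘ Nat.dvd_one.mp
  have hp0 : 0 < p := hp.pos
  have hH0 : coeff 0 aH = (p : ℤ) - 1 := by rw [hH, zero_mul, hF0]
  have hHn : ∀ n, 1 ≤ n → (24 * M) ∣ coeff n aH := fun n hn => by
    rw [hH]; exact hF _ (Nat.one_le_iff_ne_zero.mpr (Nat.mul_ne_zero (by omega) hp0.ne'))
  have hV1 : coeff 1 Vδ = 0 := by rw [hV, if_neg hp1]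
  have hVp : coeff p Vδ = 1 := by rw [hV, if_pos dvd_rfl, Nat.div_self hp0, hδ1]
  have hδp : coeff p δ = t := by
    have := hT 1
    rw [one_mul, hδ1, hV1] at this
    rw [this]; ring
  have hδpp : coeff (p * p) δ = t ^ 2 - (p : ℤ) ^ 11 := by
    rw [hT p, hδp, hVp]; ring
  have e1 := coeff_mul_modEq (B := Vδ) hF0 hF 1
  have e2 := coeff_mul_modEq (B := δ) hH0 hHn p
  have e3 := coeff_mul_modEq (B := Vδ) hF0 hF p
  have e4 := coeff_mul_modEq (B := δ) hH0 hHn (p * p)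
  rw [hV1, mul_zero] at e1
  rw [hδp] at e2
  rw [hVp, mul_one] at e3
  rw [hδpp] at e4
  have z1 := hZ 1
  rw [one_mul] at z1
  have z2 := hZ p
  constructor
  · have : (0 : ℤ) ≡ ((p : ℤ) - 1) * t [ZMOD 24 * M] := by
      calc (0 : ℤ) = (p : ℤ) ^ 12 * 0 := by ring
        _ ≡ (p : ℤ) ^ 12 * coeff 1 (aF * Vδ) [ZMOD 24 * M] := (e1.symm.mul_left _)
        _ = coeff p (aH * δ) := z1
        _ ≡ ((p : ℤ) - 1) * t [ZMOD 24 * M] := e2
    exact Int.modEq_zero_iff_dvd.mp this.symm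
  · have : (p : ℤ) ^ 12 * ((p : ℤ) - 1) ≡ ((p : ℤ) - 1) * (t ^ 2 - (p : ℤ) ^ 11) [ZMOD 24 * M] := by
      calc (p : ℤ) ^ 12 * ((p : ℤ) - 1) ≡ (p : ℤ) ^ 12 * coeff p (aF * Vδ) [ZMOD 24 * M] :=
            (e3.symm.mul_left _)
        _ = coeff (p * p) (aH * δ) := z2
        _ ≡ ((p : ℤ) - 1) * (t ^ 2 - (p : ℤ) ^ 11) [ZMOD 24 * M] := e4
    have h := this.symm.dvd
    have : ((p : ℤ) - 1) * (((p : ℤ) + 1) * (p : ℤ) ^ 11 - t ^ 2) =
        (p : ℤ) ^ 12 * ((p : ℤ) - 1) - ((p : ℤ) - 1) * (t ^ 2 - (p : ℤ) ^ 11) := by ring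
    rw [this]
    exact h

/-- extracting the exact power of a prime from a nonzero integer -/
theorem exists_pow_mul_not_dvd {L n : ℤ} (hL : Prime L) (hn : n ≠ 0) :
    ∃ (x : ℕ) (u : ℤ), n = L ^ x * u ∧ ¬ L ∣ u := by
  have hfin : FiniteMultiplicity L n :=
    Int.finiteMultiplicity_iff.mpr ⟨fun h => hL.not_isUnit (Int.isUnit_iff_natAbs_eq.mpr h), hn⟩
  obtain ⟨u, hu1, hu2⟩ := hfin.exists_eq_pow_mul_and_not_dvd
  exact ⟨_, u, hu1, hu2⟩

/-- **arithmetic corollary of the `Δ`-test**: `v_l(24 l^a) ≤ v_l(p² - 1)` for `l ≠ p`. -/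
theorem T1_val {p l a : ℕ} (hp : p.Prime) (hl : l.Prime) (hlp : l ≠ p) {t : ℤ}
    (h1 : (24 * (l : ℤ) ^ a) ∣ ((p : ℤ) - 1) * t)
    (h2 : (24 * (l : ℤ) ^ a) ∣ ((p : ℤ) - 1) * (((p : ℤ) + 1) * (p : ℤ) ^ 11 - t ^ 2)) :
    l ^ (a + padicValNat l 24) ∣ p ^ 2 - 1 := by
  have hL : Prime (l : ℤ) := Nat.prime_iff_prime_int.mp hl
  set e := a + padicValNat l 24 with he
  -- `l^e ∣ 24 l^a`
  have h24 : (l : ℤ) ^ e ∣ 24 * (l : ℤ) ^ a := by
    have : l ^ padicValNat l 24 ∣ 24 := pow_padicValNat_dvd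
    have h' : ((l : ℤ) ^ padicValNat l 24) ∣ 24 := by exact_mod_cast this
    rw [he, pow_add, mul_comm]
    exact mul_dvd_mul h' dvd_rfl
  have g1 := h24.trans h1
  have g2 := h24.trans h2
  have hp2 : 2 ≤ p := hp.two_le
  have hpm : ((p : ℤ) - 1) ≠ 0 := by
    have : (2 : ℤ) ≤ p := by exact_mod_cast hp2
    omega
  have hpp : ((p : ℤ) + 1) ≠ 0 := by
    have : (2 : ℤ) ≤ p := by exact_mod_cast hp2
    omega
  obtain ⟨x, u, hxu, hu⟩ := exists_pow_mul_not_dvd hL hpm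
  obtain ⟨y, w, hyw, hw⟩ := exists_pow_mul_not_dvd hL hpp
  -- target in ℤ
  have hgoal : (l : ℤ) ^ e ∣ ((p : ℤ) - 1) * ((p : ℤ) + 1) := by
    by_cases hexy : e ≤ x + y
    · rw [hxu, hyw]
      have : (l : ℤ) ^ e ∣ (l : ℤ) ^ (x + y) := pow_dvd_pow _ hexy
      refine this.trans ?_
      rw [pow_add]
      exact ⟨u * w, by ring⟩
    · exfalso
      rw [not_le] at hexy
      have hcop_u : ∀ n : ℕ, IsCoprime ((l : ℤ) ^ n) u := fun n =>
        IsCoprime.pow_left ((Prime.coprime_iff_not_dvd hL).mpr hu)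
      have hle : x + (y + 1) ≤ e := by omega
      -- `l^(y+1) ∣ t`
      have k1 : (l : ℤ) ^ (y + 1) ∣ t := by
        have : (l : ℤ) ^ (x + (y + 1)) ∣ ((p : ℤ) - 1) * t := (pow_dvd_pow _ hle).trans g1
        rw [hxu, pow_add, mul_assoc] at this
        have h3 : (l : ℤ) ^ (y + 1) ∣ u * t :=
          (mul_dvd_mul_iff_left (pow_ne_zero x hL.ne_zero)).mp this
        exact (hcop_u _).dvd_of_dvd_mul_left h3
      have k2 : (l : ℤ) ^ (y + 1) ∣ ((p : ℤ) + 1) * (p : ℤ) ^ 11 - t ^ 2 := by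
        have : (l : ℤ) ^ (x + (y + 1)) ∣
            ((p : ℤ) - 1) * (((p : ℤ) + 1) * (p : ℤ) ^ 11 - t ^ 2) :=
          (pow_dvd_pow _ hle).trans g2
        rw [hxu, pow_add, mul_assoc] at this
        have h3 := (mul_dvd_mul_iff_left (pow_ne_zero x hL.ne_zero)).mp this
        exact (hcop_u _).dvd_of_dvd_mul_left h3
      have k3 : (l : ℤ) ^ (y + 1) ∣ ((p : ℤ) + 1) * (p : ℤ) ^ 11 := by
        have : (l : ℤ) ^ (y + 1) ∣ t ^ 2 := k1.trans (Dvd.intro_left (t ^ 1) (by ring))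
        have := dvd_add k2 this
        simpa using this
      have hlp' : ¬ (l : ℤ) ∣ (p : ℤ) := by
        intro h
        have : l ∣ p := by exact_mod_cast h
        exact hlp ((Nat.prime_dvd_prime_iff_eq hl hp).mp this)
      have hcop_p : IsCoprime ((l : ℤ) ^ (y + 1)) ((p : ℤ) ^ 11) :=
        IsCoprime.pow ((Prime.coprime_iff_not_dvd hL).mpr hlp')
      have k4 : (l : ℤ) ^ (y + 1) ∣ (p : ℤ) + 1 := hcop_p.dvd_of_dvd_mul_right k3
      rw [hyw, pow_succ] at k4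
      have := (mul_dvd_mul_iff_left (pow_ne_zero y hL.ne_zero)).mp k4
      exact hw this
  have hcast : ((p : ℤ) - 1) * ((p : ℤ) + 1) = ((p ^ 2 - 1 : ℕ) : ℤ) := by
    have : 1 ≤ p ^ 2 := Nat.one_le_pow _ _ hp.pos
    push_cast [Nat.cast_sub this]
    ring
  rw [hcast] at hgoal
  exact_mod_cast hgoal

end Fermat.Agent.S16.LevelOne.T1Formal
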