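import Mathlib
import Fermat.Prelude.Def_ModularForm_HeckeOperatorForms
import Fermat.Agent.S16.LevelOne.Fricke2
import Fermat.Agent.S16.LevelOne.QSeries
import Fermat.Agent.S16.LevelOne.EisSetup
import Fermat.Agent.S16.LevelOne.T1Formal
import Fermat.Agent.S16.LevelOne.Defs

/-!
# S16 (C4): the `Δ`-test

If a cusp form `g ∈ S_2(Γ₀(p))` satisfies `a_n(g) ≡ σ*(n) mod M` (`n ≥ 1`) then
`24 M ∣ (p-1) τ(p)` and `24 M ∣ (p-1) ((p+1) p^11 - τ(p)^2)`.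
-/

set_option autoImplicit false
set_option linter.dupNamespace false

namespace Fermat.Agent.S16.LevelOne.T1

open UpperHalfPlane ModularForm ModularFormClass PowerSeries
open Fermat.Agent.S20 Fermat.Agent.S16.Estar Fermat.Agent.S16.LevelRaise
open Fermat.Agent.S16.LevelOne Fermat.Agent.S16.LevelOne.QSeries
open Fermat.Agent.S16.LevelOne.Fricke Fermat.Agent.S16.LevelOne.EisSetup
open scoped MatrixGroups ModularForm Manifold

noncomputable section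

/-- the discriminant as a function -/
abbrev Δf : ℍ → ℂ := ⇑CuspForm.discriminant

/-- `T_p` preserves level one cusp forms (function level) -/
theorem isCF_heckeT_levelOne {p : ℕ} (hp : p.Prime) {k : ℤ} {f : ℍ → ℂ} (hf : IsCF 1 k f) :
    IsCF 1 k (heckeT k p f) := by
  have hpN : ¬ p ∣ 1 := fun h => hp.one_lt.ne' (Nat.dvd_one.mp h)
  have := isCF_coe (CuspForm.heckeTLin k hp hpN hf.toCF)
  rwa [CuspForm.coe_heckeTLin_apply, IsCF.coe_toCF] at this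

/-- `T_p` preserves level one modular forms (function level) -/
theorem isMF_heckeT_levelOne {p : ℕ} (hp : p.Prime) {k : ℤ} {f : ℍ → ℂ} (hf : IsMF 1 k f) :
    IsMF 1 k (heckeT k p f) := by
  have hpN : ¬ p ∣ 1 := fun h => hp.one_lt.ne' (Nat.dvd_one.mp h)
  have := isMF_coe (ModularForm.heckeTLin k hp hpN hf.toMF)
  rwa [ModularForm.coe_heckeTLin_apply, IsMF.coe_toMF] at this

/-- a level one form of weight `14` without constant term vanishes -/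
theorem eq_zero_of_weight_fourteen {Z : ℍ → ℂ} (hZ : IsMF 1 14 Z) (h0 : qCoeff Z 0 = 0) :
    Z = 0 := by
  have hv : valueAtInfty Z = 0 := by rw [hZ.valueAtInfty_eq_coeff_zero]; exact h0
  obtain ⟨r, hr, hZr⟩ := (hZ.isCF_of_valueAtInfty_eq_zero hv).exists_eq_delta_mul
  have hr0 : r = 0 := IsMF.eq_zero_of_weight_two (hr.cast (by norm_num))
  rw [hZr, hr0, mul_zero]

/-- **`Δ` is a Hecke eigenform**, on integral `q`-expansions:
`U_p δ + p^11 V_p δ = τ(p) δ`. -/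
theorem hecke_delta {p : ℕ} (hp : p.Prime) {δ : PowerSeries ℤ} (hδ : HasQZ Δf δ)
    (hδ1 : coeff 1 δ = 1) :
    Uop p δ + ((p : ℤ) ^ 11) • Vop p δ = (coeff p δ) • δ := by
  have hp0 : p ≠ 0 := hp.ne_zero
  have hΔ : IsCF 1 12 Δf := isCF_delta
  have hN : Nice Δf := hΔ.isMF.nice
  -- `T_p Δ = c Δ`
  obtain ⟨r, hr, hTr⟩ := (isCF_heckeT_levelOne hp hΔ).exists_eq_delta_mul
  obtain ⟨c, hc⟩ := IsMF.eq_const_of_weight_zero (hr.cast (by norm_num : (12 : ℤ) - 12 = 0))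
  have hTc : heckeT 12 p Δf = c • Δf := by
    rw [hTr, hc]; ext z; simp [mul_comm]
  -- integral expansion of `T_p Δ`
  have hT : HasQZ (heckeT 12 p Δf) (Uop p δ + ((p : ℤ) ^ 11) • Vop p δ) := by
    have := HasQZ.heckeT hN hδ 11 hp0
    have e : ((11 : ℕ) : ℤ) + 1 = 12 := by norm_num
    rwa [e] at this
  -- `c = τ(p)`
  have hc1 : c = ((coeff p δ : ℤ) : ℂ) := by
    have h1 := hT.qCoeff 1
    rw [hTc] at h1
    unfold qCoeff at h1
    rw [qExpansion_smul hN.analytic, PowerSeries.coeff_smul, hδ.coeff 1, hδ1] at h1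
    rw [map_add, coeff_Uop, coeff_int_smul, coeff_Vop_of_not_dvd hp0 δ
      (fun h => hp.one_lt.ne' (Nat.dvd_one.mp h))] at h1
    simpa using h1
  rw [hc1] at hTc
  have hT2 : HasQZ (heckeT 12 p Δf) ((coeff p δ) • δ) := by
    rw [hTc]; exact HasQZ.int_smul hN hδ _
  exact hT.unique hT2

/-- **the `Δ`-test**, unbundled hypotheses -/
theorem T1_aux {p M : ℕ} [Fact p.Prime] {g : ℍ → ℂ} (hg : IsCF p 2 g)
    (hc : ∀ n : ℕ, 1 ≤ n → ∃ m : ℤ,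
      qCoeff g n = (((sigmaStar p n : ℤ) + (M : ℤ) * m : ℤ) : ℂ))
    {δ : PowerSeries ℤ} (hδ : HasQZ Δf δ) (hδ1 : coeff 1 δ = 1) :
    (24 * (M : ℤ)) ∣ ((p : ℤ) - 1) * coeff p δ ∧
      (24 * (M : ℤ)) ∣ ((p : ℤ) - 1) * (((p : ℤ) + 1) * (p : ℤ) ^ 11 - (coeff p δ) ^ 2) := by
  have hp : p.Prime := Fact.out
  have hp0 : p ≠ 0 := hp.ne_zero
  have hpC : (p : ℂ) ≠ 0 := by exact_mod_cast hp0
  obtain ⟨F, aF, -, hF, haF, hF0, hFn⟩ := exists_F hg hc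
  have hΔ : IsCF 1 12 Δf := isCF_delta
  have hNΔ : Nice Δf := hΔ.isMF.nice
  have hδ0 : coeff 0 δ = 0 := by
    have h := hδ.qCoeff 0
    rw [qCoeff_zero_of_isZeroAtImInfty hNΔ (IsCF.isZeroAtImInfty hΔ)] at h
    exact_mod_cast h.symm
  -- `H = U_p F`
  have hH : IsMF p 2 (heckeU 2 p F) := isMF_heckeU_two hF
  have haH : HasQZ (heckeU 2 p F) (Uop p aF) := HasQZ.heckeU hF.nice haF 2 hp0
  -- `Z = p^12 F VΔ - U_p (H Δ)`
  have hVΔ : Nice (Vd p Δf) := hNΔ.Vd p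
  have haV : HasQZ (Vd p Δf) (Vop p δ) := HasQZ.Vd hNΔ hδ p
  have hFV : HasQZ (F * Vd p Δf) (aF * Vop p δ) := HasQZ.mul hF.nice hVΔ haF haV
  have hHΔ : HasQZ (heckeU 2 p F * Δf) (Uop p aF * δ) := HasQZ.mul hH.nice hNΔ haH hδ
  have hUHΔ : HasQZ (heckeU (2 + 12) p (heckeU 2 p F * Δf)) (Uop p (Uop p aF * δ)) :=
    HasQZ.heckeU (hH.nice.mul hNΔ) hHΔ _ hp0
  have hp12 : (((p : ℤ) ^ 12 : ℤ) : ℂ) = (p : ℂ) ^ 12 := by push_cast; rfl
  have hFV12 := HasQZ.int_smul (hF.nice.mul hVΔ) hFV ((p : ℤ) ^ 12)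
  rw [hp12] at hFV12
  set Z : ℍ → ℂ := ((p : ℂ) ^ 12) • (F * Vd p Δf) - heckeU (2 + 12) p (heckeU 2 p F * Δf) with hZdef
  have haZ : HasQZ Z (((p : ℤ) ^ 12) • (aF * Vop p δ) - Uop p (Uop p aF * δ)) :=
    HasQZ.sub ((hF.nice.mul hVΔ).smul _) ((hH.nice.mul hNΔ).heckeU _ p) hFV12 hUHΔ
  -- `Z = p^12 Tr(F VΔ)` is a level one form of weight 14
  have hZtr : Z = ((p : ℂ) ^ 12) • trFun (2 + 12) p (F * Vd p Δf) := by
    rw [tr_mul_V hF hΔ.isMF, hZdef, smul_sub, smul_smul]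
    congr 1
    rw [zpow_neg, ← zpow_natCast (p : ℂ) 12, Nat.cast_ofNat, mul_inv_cancel₀ (zpow_ne_zero _ hpC),
      one_smul]
  have hFVmf : IsMF p (2 + 12) (F * Vd p Δf) := by
    have h1 : IsMF (p * 1) 12 (Vd p Δf) := IsMF.Vd p hΔ.isMF
    rw [mul_one] at h1
    exact hF.mul h1
  have hZmf : IsMF 1 14 Z := by
    rw [hZtr]
    exact ((isMF_trFun hFVmf).smul _).cast (by norm_num)
  have hZ0 : qCoeff Z 0 = 0 := by
    rw [haZ.qCoeff 0, map_sub, coeff_int_smul, coeff_Uop, zero_mul, PowerSeries.coeff_mul,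
      PowerSeries.coeff_mul]
    simp [coeff_Vop hp0, hδ0]
  have hZ : Z = 0 := eq_zero_of_weight_fourteen hZmf hZ0
  have hser : ((p : ℤ) ^ 12) • (aF * Vop p δ) - Uop p (Uop p aF * δ) = 0 := by
    rw [hZ] at haZ
    exact haZ.unique HasQZ.zero
  -- the Hecke relation for `Δ`
  have hTδ := hecke_delta hp hδ hδ1
  refine T1Formal.T1_formal hp (aF := aF) (aH := Uop p aF) (δ := δ) (Vδ := Vop p δ) hF0 hFn
    (fun n => coeff_Uop p aF n) hδ1 (fun n => coeff_Vop hp0 δ n) (fun n => ?_) (fun n => ?_)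
  · have h := congrArg (coeff n) hTδ
    rw [map_add, coeff_Uop, coeff_int_smul, coeff_int_smul] at h
    linarith
  · have h := congrArg (coeff n) hser
    rw [map_sub, coeff_int_smul, coeff_Uop, map_zero] at h
    linarith

/-- **valuation form of the `Δ`-test**: for a prime `l ≠ p`, a congruence mod `l^a` forces
`l^(a + v_l(24)) ∣ p² - 1`. -/
theorem T1_val_aux {p l a : ℕ} [Fact p.Prime] (hl : l.Prime) (hlp : l ≠ p) {g : ℍ → ℂ}
    (hg : IsCF p 2 g)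
    (hc : ∀ n : ℕ, 1 ≤ n → ∃ m : ℤ,
      qCoeff g n = (((sigmaStar p n : ℤ) + ((l ^ a : ℕ) : ℤ) * m : ℤ) : ℂ))
    {δ : PowerSeries ℤ} (hδ : HasQZ Δf δ) (hδ1 : coeff 1 δ = 1) :
    l ^ (a + padicValNat l 24) ∣ p ^ 2 - 1 := by
  obtain ⟨h1, h2⟩ := T1_aux hg hc hδ hδ1
  have e : ((l ^ a : ℕ) : ℤ) = (l : ℤ) ^ a := by push_cast; rfl
  rw [e] at h1 h2
  exact T1Formal.T1_val (Fact.out : p.Prime) hl hlp h1 h2

/-- **(T1) the `Δ`-test**: with `t = τ(p)`, `24 M ∣ (p-1) t` and `24 M ∣ (p-1)((p+1)p^11 - t²)`. -/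
theorem T1 (p : ℕ) [Fact p.Prime] {M : ℕ} {g : ℍ → ℂ} (h : EisCong p M g) :
    ∃ t : ℤ, qCoeff Δf p = (t : ℂ) ∧
      (24 * (M : ℤ)) ∣ ((p : ℤ) - 1) * t ∧
      (24 * (M : ℤ)) ∣ ((p : ℤ) - 1) * (((p : ℤ) + 1) * (p : ℤ) ^ 11 - t ^ 2) := by
  obtain ⟨h1, h2⟩ := T1_aux h.isCF h.cong hasQZ_delta coeff_one_deltaZ
  exact ⟨coeff p deltaZ, hasQZ_delta.qCoeff p, h1, h2⟩

/-- **(T1), valuation form**: for a prime `l ≠ p`, `EisCong p (l^a) g` forces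
`l^(a + v_l(24)) ∣ p² - 1`. -/
theorem T1_val (p : ℕ) [Fact p.Prime] {l a : ℕ} (hl : l.Prime) (hlp : l ≠ p) {g : ℍ → ℂ}
    (h : EisCong p (l ^ a) g) : l ^ (a + padicValNat l 24) ∣ p ^ 2 - 1 :=
  T1_val_aux hl hlp h.isCF h.cong hasQZ_delta coeff_one_deltaZ

end

end Fermat.Agent.S16.LevelOne.T1
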