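import Mathlib
import Fermat.Agent.S16.Estar24
import Fermat.Agent.S16.LevelOne.QSeries

set_option autoImplicit false

/-!
# S16: adapter from an Eisenstein congruence modulo `2^a` to the `ℓ = 2` obstruction

If `g` is a cusp form of weight `2` on `Γ₀(p)` with `aₙ(g) ≡ σ*(n) mod 2^a` (`a ≥ 1`) and
`p ≡ 3 mod 4`, then `G := (estar24 p - 24 g)/2` is a modular form of weight `2` on `Γ₀(p)` whose
`q`-expansion has integer coefficients, odd constant term `(p-1)/2` and all higher coefficients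
divisible by `8`.
-/

namespace Fermat.Agent.S16.LevelOne.UpperTwoCore

open UpperHalfPlane ModularFormClass
open Fermat.Agent.S20 Fermat.Agent.S16.Estar
open Fermat.Agent.S16.LevelOne.QSeries

noncomputable section

/-- `G = (estar24 p - 24 g)/2` -/
def Gfun (p : ℕ) (g : ℍ → ℂ) : ℍ → ℂ := (2⁻¹ : ℂ) • (estar24 p + (-24 : ℂ) • g)

theorem isMF_Gfun (p : ℕ) [NeZero p] {g : ℍ → ℂ} (hg : IsCF p 2 g) : IsMF p 2 (Gfun p g) :=
  ((isMF_estar24 p).add (hg.isMF.smul _)).smul _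

theorem qCoeff_Gfun (p : ℕ) [NeZero p] {g : ℍ → ℂ} (hg : IsCF p 2 g) (n : ℕ) :
    qCoeff (Gfun p g) n = 2⁻¹ * (qCoeff (estar24 p) n - 24 * qCoeff g n) := by
  have h1 : Nice (estar24 p) := (isMF_estar24 p).nice
  have h2 : Nice g := hg.isMF.nice
  have h3 : Nice ((-24 : ℂ) • g) := h2.smul _
  unfold qCoeff Gfun
  rw [qExpansion_smul (h1.add h3).analytic, qExpansion_add h1.analytic h3.analytic,
    qExpansion_smul h2.analytic]
  simp only [map_add, PowerSeries.coeff_smul, smul_eq_mul]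
  ring

theorem qCoeff_zero_of_isCF {p : ℕ} [NeZero p] {g : ℍ → ℂ} (hg : IsCF p 2 g) : qCoeff g 0 = 0 := by
  have h1 := CongruenceSubgroup.one_mem_strictPeriods_Gamma0 p
  have := CuspFormClass.qExpansion_coeff_zero hg.toCF one_pos h1
  simpa [qCoeff] using this

/-- hypothesis-style form of the `ℓ = 2` obstruction (`Two.no_odd_mod_eight`): no weight-`2` form
on `Γ₀(p)` has an integral `q`-expansion with odd constant term and all higher coefficients
divisible by `8`. -/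
def NoOddModEight (p : ℕ) : Prop :=
  ∀ (G : ℍ → ℂ), IsMF p 2 G → ∀ a : ℕ → ℤ, (∀ n, qCoeff G n = (a n : ℂ)) → Odd (a 0) →
    (∀ n, 1 ≤ n → (8 : ℤ) ∣ a n) → False

/-- **`ℓ = 2`, `p ≡ 3 mod 4`**: no Eisenstein congruence modulo `2^a`, `a ≥ 1`. -/
theorem not_eisCong_two_of (p : ℕ) [Fact p.Prime] (hmain : NoOddModEight p) (hv : p % 4 = 3)
    {a : ℕ} (ha : 1 ≤ a) {g : ℍ → ℂ} (hCF : IsCF p 2 g)
    (hcong : ∀ n : ℕ, 1 ≤ n → ∃ m : ℤ, qCoeff g n =
      (((sigmaStar p n : ℤ) + ((2 ^ a : ℕ) : ℤ) * m : ℤ) : ℂ)) : False := by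
  have : NeZero p := ⟨(Fact.out : p.Prime).ne_zero⟩
  obtain ⟨k, hk⟩ : ∃ k : ℕ, p = 4 * k + 3 := ⟨p / 4, by omega⟩
  obtain ⟨b, rfl⟩ : ∃ b : ℕ, a = b + 1 := ⟨a - 1, by omega⟩
  choose! m hm using hcong
  let c : ℕ → ℤ := fun n => if n = 0 then 2 * (k : ℤ) + 1 else -(12 * 2 ^ (b + 1) * m n)
  apply hmain (Gfun p g) (isMF_Gfun p hCF) c
  · intro n
    rw [qCoeff_Gfun p hCF, qCoeff_estar24]
    by_cases hn : n = 0
    · subst hn
      simp only [c, if_true, qCoeff_zero_of_isCF hCF, hk]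
      push_cast
      ring
    · simp only [c, if_neg hn]
      rw [hm n (by omega)]
      push_cast
      ring
  · simp only [c, if_true]
    exact ⟨k, rfl⟩
  · intro n hn
    have hn0 : n ≠ 0 := by omega
    simp only [c, if_neg hn0]
    exact ⟨-(3 * 2 ^ b * m n), by ring⟩

end

end Fermat.Agent.S16.LevelOne.UpperTwoCore
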