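import Mathlib
import Fermat.Agent.S16.LevelOne.UpperTwoCore

set_option autoImplicit false

/-!
# S16: adapter from an Eisenstein congruence modulo `3^a` to the `ℓ = 3` obstruction
-/

namespace Fermat.Agent.S16.LevelOne.UpperThreeCore

open UpperHalfPlane ModularFormClass
open Fermat.Agent.S20 Fermat.Agent.S16.Estar

/-- hypothesis-style form of the `ℓ = 3` obstruction (section (E), `Three/Main`): no cusp form of
weight `2` on `Γ₀(p)` has an integral `q`-expansion congruent to `∑ σ*(n) qⁿ` modulo `3`. -/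
def NoCuspFormModThree (p : ℕ) : Prop :=
  ∀ (g : ℍ → ℂ), IsCF p 2 g → ∀ a : ℕ → ℤ, (∀ n, qCoeff g n = (a n : ℂ)) →
    (∀ n, 1 ≤ n → (3 : ℤ) ∣ a n - (sigmaStar p n : ℤ)) → False

/-- **`ℓ = 3`**: no Eisenstein congruence modulo `3^a`, `a ≥ 1`, given the obstruction. -/
theorem not_eisCong_three_of (p : ℕ) [Fact p.Prime] (hmain : NoCuspFormModThree p)
    {a : ℕ} (ha : 1 ≤ a) {g : ℍ → ℂ} (hCF : IsCF p 2 g)
    (hcong : ∀ n : ℕ, 1 ≤ n → ∃ m : ℤ, qCoeff g n =
      (((sigmaStar p n : ℤ) + ((3 ^ a : ℕ) : ℤ) * m : ℤ) : ℂ)) : False := by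
  have : NeZero p := ⟨(Fact.out : p.Prime).ne_zero⟩
  obtain ⟨b, rfl⟩ : ∃ b : ℕ, a = b + 1 := ⟨a - 1, by omega⟩
  choose! m hm using hcong
  let c : ℕ → ℤ := fun n => if n = 0 then 0 else (sigmaStar p n : ℤ) + 3 ^ (b + 1) * m n
  apply hmain g hCF c
  · intro n
    by_cases hn : n = 0
    · subst hn
      simp only [c, if_true, UpperTwoCore.qCoeff_zero_of_isCF hCF, Int.cast_zero]
    · simp only [c, if_neg hn]
      rw [hm n (by omega)]
      push_cast
      ring
  · intro n hn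
    have hn0 : n ≠ 0 := by omega
    simp only [c, if_neg hn0]
    exact ⟨3 ^ b * m n, by ring⟩

end Fermat.Agent.S16.LevelOne.UpperThreeCore
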