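import Mathlib
import Fermat.Agent.S16.LevelOne.Defs
import Fermat.Agent.S16.LevelOne.UpperThreeCore
import Fermat.Agent.S16.Three.Functions
import Fermat.Agent.S16.Three.Main

set_option autoImplicit false

/-!
# S16: `ℓ = 3`, `p ≡ 2 mod 3`: no Eisenstein congruence modulo `3^a` (`a ≥ 1`)

`UpperThreeCore.not_eisCong_three_of` fed with section (E): `Three.Functions.phib_sub_mem'`,
`Three.Functions.cuspForm_red_mem` and `Three.Main.false_of_mem`.
-/

namespace Fermat.Agent.S16.LevelOne.UpperThree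

open UpperHalfPlane ModularFormClass Fermat.Agent.S16.LevelOne Fermat.Agent.S16.Estar
open Fermat.Agent.S20

theorem noCuspFormModThree (p : ℕ) [Fact p.Prime] (hp : p % 3 = 2) :
    UpperThreeCore.NoCuspFormModThree p := by
  intro g hg a ha h3
  have : NeZero p := ⟨(Fact.out : p.Prime).ne_zero⟩
  have hp3 : p ≠ 3 := by
    rintro rfl
    omega
  have ha0 : ((a 0 : ℤ) : ZMod 3) = 0 := by
    have h0 : ((a 0 : ℤ) : ℂ) = 0 := by
      rw [← ha 0]
      exact UpperTwoCore.qCoeff_zero_of_isCF hg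
    have : a 0 = 0 := by exact_mod_cast h0
    rw [this]
    simp
  have ha' : ∀ n, 1 ≤ n → ((a n : ℤ) : ZMod 3) = ((sigmaPrime p n : ℕ) : ZMod 3) := by
    intro n hn
    have hd := h3 n hn
    rw [sigmaStar_eq_sigmaPrime] at hd
    have h1 : ((sigmaPrime p n : ℕ) : ZMod 3) = (((sigmaPrime p n : ℕ) : ℤ) : ZMod 3) := by
      push_cast; rfl
    rw [h1]
    symm
    rw [ZMod.intCast_eq_intCast_iff_dvd_sub]
    exact_mod_cast hd
  exact Fermat.Agent.S16.Three.Main.false_of_mem p hp
    (Fermat.Agent.S16.Three.Functions.phib_sub_mem' p hp3) a ha0 ha'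
    (Fermat.Agent.S16.Three.Functions.cuspForm_red_mem p hp3 hg a ha)

/-- **`ℓ = 3`**: for a prime `p ≡ 2 mod 3` there is no cusp form of weight `2` on `Γ₀(p)` congruent
to the Eisenstein series modulo `3^a`, `a ≥ 1`. -/
theorem not_eisCong_three (p : ℕ) [Fact p.Prime] (hp : p % 3 = 2) {a : ℕ} (ha : 1 ≤ a)
    {g : ℍ → ℂ} (h : EisCong p (3 ^ a) g) : False :=
  UpperThreeCore.not_eisCong_three_of p (noCuspFormModThree p hp) ha h.isCF h.cong

end Fermat.Agent.S16.LevelOne.UpperThree
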