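import Mathlib
import Fermat.Agent.S16.LevelOne.Defs
import Fermat.Agent.S16.LevelOne.UpperTwoCore
import Fermat.Agent.S16.Two.Main

set_option autoImplicit false

/-!
# S16: `ℓ = 2`, `p ≡ 3 mod 4`: no Eisenstein congruence modulo `2^a` (`a ≥ 1`)

`UpperTwoCore.not_eisCong_two_of` fed with `Two.no_odd_mod_eight` (section (D')).
-/

namespace Fermat.Agent.S16.LevelOne.UpperTwo

open UpperHalfPlane Fermat.Agent.S16.LevelOne

theorem noOddModEight (p : ℕ) [Fact p.Prime] (hp : 5 ≤ p) : UpperTwoCore.NoOddModEight p :=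
  fun G hG a ha h0 h8 => Fermat.Agent.S16.Two.no_odd_mod_eight p hp G hG a ha h0 h8

/-- **`ℓ = 2`**: for a prime `p ≥ 5`, `p ≡ 3 mod 4`, there is no cusp form of weight `2` on `Γ₀(p)`
congruent to the Eisenstein series modulo `2^a`, `a ≥ 1`. -/
theorem not_eisCong_two (p : ℕ) [Fact p.Prime] (hp : 5 ≤ p) (hv : p % 4 = 3) {a : ℕ}
    (ha : 1 ≤ a) {g : ℍ → ℂ} (h : EisCong p (2 ^ a) g) : False :=
  UpperTwoCore.not_eisCong_two_of p (noOddModEight p hp) hv ha h.isCF h.cong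

end Fermat.Agent.S16.LevelOne.UpperTwo
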