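import Mathlib
import Fermat.Prelude.Def_ModularCurve_ModularUnit
import Fermat.Agent.S16.LevelOne.Defs
import Fermat.Agent.S16.LevelOne.T1
import Fermat.Agent.S16.LevelOne.EllEqP
import Fermat.Agent.S16.LevelOne.SmallSelf
import Fermat.Agent.S16.LevelOne.UpperTwo
import Fermat.Agent.S16.LevelOne.UpperThree

/-!
# S16 (C10): arithmetic assembly of the upper bound

`upper_of`: if `g` is a weight-two cusp form on `Γ₀(p)` congruent to the Eisenstein series modulo
`l^a` (`a ≥ 1`), then `l^a ∣ eisensteinNumerator p = (p-1)/gcd(p-1,12)`; assembled from the `Δ`-test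
`T1_val`, the cases `l = p` (`EllEqP`, `SmallSelf`), `l = 2` (`UpperTwo`), `l = 3` (`UpperThree`) and
(as a hypothesis here) the case `l ≥ 5`, `l ∣ p + 1` (`T2`).
-/
set_option autoImplicit false
namespace Fermat.Agent.S16.LevelOne.UpperCore

open UpperHalfPlane Fermat.Agent.S16.LevelOne

/-- if `12 = l^v * c` with `c` prime to `l` and `l^(a+v) ∣ m`, then `l^a * gcd(m,12) ∣ m`. -/
theorem pow_mul_gcd_dvd {l : ℕ} {a v c m : ℕ} (h12 : 12 = l ^ v * c)
    (hc : Nat.Coprime l c) (h : l ^ (a + v) ∣ m) : l ^ a * Nat.gcd m 12 ∣ m := by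
  have hg12 : Nat.gcd m 12 ∣ l ^ v * c := h12 ▸ Nat.gcd_dvd_right m 12
  obtain ⟨g1, g2, hg1, hg2, hg⟩ := (Nat.dvd_mul).mp hg12
  rw [← hg, ← mul_assoc]
  have h1 : l ^ a * g1 ∣ m := by
    refine dvd_trans ?_ h
    rw [pow_add]
    exact Nat.mul_dvd_mul_left _ hg1
  have h2 : g2 ∣ m := by
    refine dvd_trans ?_ (Nat.gcd_dvd_left m 12)
    rw [← hg]
    exact Dvd.intro_left _ rfl
  have hcop : Nat.Coprime (l ^ a * g1) g2 := by
    have h3 : Nat.Coprime (l ^ (a + v)) c := Nat.Coprime.pow_left _ hc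
    have h4 : l ^ a * g1 ∣ l ^ (a + v) := by
      rw [pow_add]
      exact Nat.mul_dvd_mul_left _ hg1
    exact (h3.coprime_dvd_left h4).coprime_dvd_right hg2
  exact hcop.mul_dvd_of_dvd_of_dvd h1 h2

theorem dvd_div_gcd {l a m : ℕ} (h : l ^ a * Nat.gcd m 12 ∣ m) : l ^ a ∣ m / Nat.gcd m 12 := by
  rw [mul_comm] at h
  exact Nat.dvd_div_of_mul_dvd h

theorem sq_sub_one (p : ℕ) : p ^ 2 - 1 = (p + 1) * (p - 1) := by
  have := Nat.sq_sub_sq p 1
  rwa [one_pow] at this

/-- the prime-to-`(p+1)` part. -/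
theorem dvd_pred_of_not_dvd_succ {l : ℕ} (hl : l.Prime) {e p : ℕ}
    (h : l ^ e ∣ p ^ 2 - 1) (hn : ¬ l ∣ p + 1) : l ^ e ∣ p - 1 := by
  rw [sq_sub_one p] at h
  have hcop : Nat.Coprime (l ^ e) (p + 1) :=
    Nat.Coprime.pow_left _ ((Nat.Prime.coprime_iff_not_dvd hl).mpr hn)
  exact hcop.dvd_of_dvd_mul_left h

/-- `l = 2`, `p ≡ 1 mod 4`. -/
theorem two_pow_dvd_pred {e p : ℕ} (hp4 : p % 4 = 1) (h : 2 ^ (e + 1) ∣ p ^ 2 - 1) :
    2 ^ e ∣ p - 1 := by
  have hp : 1 ≤ p := by omega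
  rw [sq_sub_one p] at h
  obtain ⟨u, hu⟩ : ∃ u, p + 1 = 2 * u := ⟨(p + 1) / 2, by omega⟩
  have hodd : ¬ 2 ∣ u := by omega
  rw [hu, pow_succ, mul_comm (2 ^ e) 2, mul_assoc] at h
  have h2 : 2 ^ e ∣ u * (p - 1) := Nat.dvd_of_mul_dvd_mul_left (by norm_num) h
  have hcop : Nat.Coprime (2 ^ e) u :=
    Nat.Coprime.pow_left _ ((Nat.Prime.coprime_iff_not_dvd Nat.prime_two).mpr hodd)
  exact hcop.dvd_of_dvd_mul_left h2

theorem three_le_padicValNat_two : 3 ≤ padicValNat 2 24 := by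
  have : Fact (Nat.Prime 2) := ⟨Nat.prime_two⟩
  exact (padicValNat_dvd_iff_le (by norm_num)).mp (by norm_num)

theorem one_le_padicValNat_three : 1 ≤ padicValNat 3 24 := by
  have : Fact (Nat.Prime 3) := ⟨Nat.prime_three⟩
  exact (padicValNat_dvd_iff_le (by norm_num)).mp (by norm_num)

theorem coprime_twelve {l : ℕ} (hl : l.Prime) (h5 : 5 ≤ l) : Nat.Coprime l 12 := by
  rw [Nat.Prime.coprime_iff_not_dvd hl]
  intro h
  have hle : l ≤ 12 := Nat.le_of_dvd (by norm_num) h
  interval_cases l <;> first | omega | exact absurd hl (by norm_num)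

/-- weakening the modulus of an Eisenstein congruence. -/
theorem EisCong.of_dvd {p M M' : ℕ} {g : ℍ → ℂ} (h : EisCong p M g) (hd : M' ∣ M) :
    EisCong p M' g := by
  refine ⟨h.isCF, fun n hn => ?_⟩
  obtain ⟨m, hm⟩ := h.cong n hn
  obtain ⟨c, rfl⟩ := hd
  refine ⟨(c : ℤ) * m, ?_⟩
  rw [hm]
  congr 2
  push_cast
  ring

/-- the divisibility endgame: `l^(a+v) ∣ p - 1` with `12 = l^v c`, `(l, c) = 1`. -/
theorem dvd_numerator_of {l : ℕ} {a v c p : ℕ} (h12 : 12 = l ^ v * c) (hc : Nat.Coprime l c)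
    (h : l ^ (a + v) ∣ p - 1) : l ^ a ∣ ModularCurve.eisensteinNumerator p := by
  unfold ModularCurve.eisensteinNumerator
  exact dvd_div_gcd (pow_mul_gcd_dvd h12 hc h)

/-- **upper bound**, with the case `l ≥ 5`, `l ∣ p + 1` as a hypothesis. -/
theorem upper_of (p : ℕ) [Fact p.Prime]
    (hT2 : ∀ {l : ℕ}, l.Prime → 5 ≤ l → l ∣ p + 1 → ∀ {g : ℍ → ℂ}, ¬ EisCong p l g)
    {l a : ℕ} (hl : l.Prime) (ha : 1 ≤ a) {g : ℍ → ℂ} (h : EisCong p (l ^ a) g) :
    l ^ a ∣ ModularCurve.eisensteinNumerator p := by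
  have hp : p.Prime := Fact.out
  have hp2 : 2 ≤ p := hp.two_le
  have hl2 : 2 ≤ l := hl.two_le
  have hdl : l ∣ l ^ a := dvd_pow_self l (by omega)
  by_cases hlp : l = p
  · -- `l = p`
    exfalso
    subst hlp
    by_cases h7 : 7 ≤ l
    · exact EllEqP.not_eisCong_self h7 (EisCong.of_dvd h hdl)
    · exact SmallSelf.not_eisCong_pow_self_small l (by omega) ha h.isCF h.cong
  · have hT1 := T1.T1_val p hl hlp h
    rcases Nat.lt_or_ge l 5 with hl5 | hl5
    · -- `l ∈ {2, 3}`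
      have hl23 : l = 2 ∨ l = 3 := by
        interval_cases l
        · left; rfl
        · right; rfl
        · exact absurd hl (by norm_num)
      rcases hl23 with rfl | rfl
      · -- `l = 2`, `p` odd
        have hodd : p % 2 = 1 := by
          rcases hp.eq_two_or_odd with h2 | h2
          · exact absurd h2.symm hlp
          · exact h2
        have h8 : 2 ^ (a + 3) ∣ p ^ 2 - 1 :=
          dvd_trans (pow_dvd_pow 2 (by have := three_le_padicValNat_two; omega)) hT1
        have hp4 : p % 4 = 1 ∨ p % 4 = 3 := by omega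
        rcases hp4 with hp4 | hp4
        · have h1 : 2 ^ (a + 2) ∣ p - 1 := two_pow_dvd_pred hp4 h8
          exact dvd_numerator_of (v := 2) (c := 3) (by norm_num) (by norm_num) h1
        · exfalso
          by_cases hp5 : 5 ≤ p
          · exact UpperTwo.not_eisCong_two p hp5 hp4 ha h
          · -- `p = 3`
            have hp3 : p = 3 := by omega
            subst hp3
            have h9 : 2 ^ (a + 3) ≤ 8 := Nat.le_of_dvd (by norm_num) h8
            have h10 : 2 ^ (1 + 3) ≤ 2 ^ (a + 3) := Nat.pow_le_pow_right (by norm_num) (by omega)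
            norm_num at h9 h10
            omega
      · -- `l = 3`, `p ≠ 3`
        have hp3 : p % 3 = 1 ∨ p % 3 = 2 := by
          have : p % 3 ≠ 0 := by
            intro h0
            have h3 : 3 ∣ p := Nat.dvd_of_mod_eq_zero h0
            exact hlp ((Nat.prime_dvd_prime_iff_eq Nat.prime_three hp).mp h3)
          omega
        rcases hp3 with hp3 | hp3
        · have h9 : 3 ^ (a + 1) ∣ p ^ 2 - 1 :=
            dvd_trans (pow_dvd_pow 3 (by have := one_le_padicValNat_three; omega)) hT1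
          have h1 : 3 ^ (a + 1) ∣ p - 1 :=
            dvd_pred_of_not_dvd_succ Nat.prime_three h9 (by omega)
          exact dvd_numerator_of (v := 1) (c := 4) (by norm_num) (by norm_num) h1
        · exact (UpperThree.not_eisCong_three p hp3 ha h).elim
    · -- `l ≥ 5`
      by_cases hd : l ∣ p + 1
      · exact (hT2 hl hl5 hd (EisCong.of_dvd h hdl)).elim
      · have h9 : l ^ a ∣ p ^ 2 - 1 := dvd_trans (pow_dvd_pow l (by omega)) hT1
        have h1 : l ^ (a + 0) ∣ p - 1 := dvd_pred_of_not_dvd_succ hl h9 hd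
        exact dvd_numerator_of (v := 0) (c := 12) (by norm_num) (coprime_twelve hl hl5) h1

end Fermat.Agent.S16.LevelOne.UpperCore
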