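import Mathlib
import Fermat.Agent.S16.LevelOne.UpperCore
import Fermat.Agent.S16.LevelOne.T2

/-!
# S16 (C10): the upper bound

`upper`: a weight-two cusp form on `Γ₀(p)` congruent to the Eisenstein series modulo `l^a`
(`a ≥ 1`) forces `l^a ∣ eisensteinNumerator p`.
-/

set_option autoImplicit false

namespace Fermat.Agent.S16.LevelOne.Upper

open UpperHalfPlane Fermat.Agent.S16.LevelOne

/-- **the upper bound of S16** in terms of Eisenstein congruences. -/
theorem upper (p : ℕ) [Fact p.Prime] {l a : ℕ} (hl : l.Prime) (ha : 1 ≤ a) {g : ℍ → ℂ}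
    (h : EisCong p (l ^ a) g) : l ^ a ∣ ModularCurve.eisensteinNumerator p :=
  UpperCore.upper_of p (fun hl h5 hd => T2.not_eisCong_of_dvd_succ hl h5 hd) hl ha h

end Fermat.Agent.S16.LevelOne.Upper
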