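import Mathlib

/-!
# S16, level-one package: `κ = e6 / e4` is not a rational function of `J`

Pure algebra (Mathlib only).  `k ⊆ K` fields, `J e4 e6 d : K` with `J` transcendental over `k`,
`e4 ^ 3 = d * J`, `e6 ^ 2 = d * (J - c)`, `c ≠ 0`, `d ≠ 0`
(think `e4 = E4`, `e6 = E6`, `d = Δ`, `J = j`, `c = 1728`, all reduced mod `l`).

An *isobaric sum of half weight `H`* is `∑_{2 a + 3 b = H} cf b * e4 ^ a * e6 ^ b`.

* `kappa_not_rat` : a relation `Q(J) * e6 = P(J) * e4` (`Q ≠ 0`) is incompatible with one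
  isobaric relation `isoSum h cf = u`, `u ≠ 0` a constant, `0 < h`.
* `eq_zero_of_mem_isoSpan_succ` (Swinnerton-Dyer lite): given one such relation, an element which
  is isobaric of half weights `H` and `H + 1` simultaneously is `0`.
-/

set_option autoImplicit false

namespace Fermat.Agent.S16.KappaAlg

open Polynomial

section General

variable {k K : Type*} [CommRing k] [CommRing K] [Algebra k K]

/-- `b` is an admissible exponent of `e6` in half weight `H`. -/
def Adm (H b : ℕ) : Prop := 3 * b ≤ H ∧ 2 ∣ (H - 3 * b)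

instance (H b : ℕ) : Decidable (Adm H b) := by unfold Adm; infer_instance

theorem Adm.eq {H b : ℕ} (h : Adm H b) : 2 * ((H - 3 * b) / 2) + 3 * b = H := by
  obtain ⟨h1, h2⟩ := h
  omega

theorem adm_of_eq {H a b : ℕ} (h : 2 * a + 3 * b = H) : Adm H b ∧ (H - 3 * b) / 2 = a := by
  refine ⟨⟨by omega, ⟨a, by omega⟩⟩, by omega⟩

/-- The isobaric sum of half weight `H` with coefficient function `cf` (indexed by the exponent of
`e6`). -/
noncomputable def isoSum (e4 e6 : K) (H : ℕ) (cf : ℕ → k) : K :=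
  ∑ b ∈ (Finset.range (H + 1)).filter (Adm H),
    algebraMap k K (cf b) * e4 ^ ((H - 3 * b) / 2) * e6 ^ b

theorem isoSum_add (e4 e6 : K) (H : ℕ) (cf cf' : ℕ → k) :
    isoSum e4 e6 H (cf + cf') = isoSum e4 e6 H cf + isoSum e4 e6 H cf' := by
  unfold isoSum
  rw [← Finset.sum_add_distrib]
  refine Finset.sum_congr rfl fun b _ => ?_
  simp only [Pi.add_apply, map_add]
  ring

theorem isoSum_smul (e4 e6 : K) (H : ℕ) (r : k) (cf : ℕ → k) :
    isoSum e4 e6 H (r • cf) = r • isoSum e4 e6 H cf := by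
  unfold isoSum
  rw [Finset.smul_sum]
  refine Finset.sum_congr rfl fun b _ => ?_
  simp only [Pi.smul_apply, smul_eq_mul, map_mul, Algebra.smul_def]
  ring

theorem isoSum_zero (e4 e6 : K) (H : ℕ) : isoSum e4 e6 H (0 : ℕ → k) = 0 := by
  unfold isoSum
  simp

theorem isoSum_single (e4 e6 : K) {H a b : ℕ} (h : 2 * a + 3 * b = H) :
    isoSum e4 e6 H (Pi.single b (1 : k)) = e4 ^ a * e6 ^ b := by
  obtain ⟨hadm, ha⟩ := adm_of_eq h
  unfold isoSum
  rw [Finset.sum_eq_single b]
  · rw [Pi.single_eq_same, map_one, one_mul, ha]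
  · intro b' _ hb'
    rw [Pi.single_eq_of_ne hb', map_zero, zero_mul, zero_mul]
  · intro hb
    exact absurd (Finset.mem_filter.mpr ⟨Finset.mem_range.mpr (by omega), hadm⟩) hb

/-- The `k`-span of the monomials `e4 ^ a * e6 ^ b`, `2 a + 3 b = H`. -/
def isoSpan (e4 e6 : K) (H : ℕ) : Submodule k K :=
  Submodule.span k {x | ∃ a b : ℕ, 2 * a + 3 * b = H ∧ x = e4 ^ a * e6 ^ b}

theorem monomial_mem_isoSpan (e4 e6 : K) {H a b : ℕ} (h : 2 * a + 3 * b = H) :
    e4 ^ a * e6 ^ b ∈ isoSpan (k := k) e4 e6 H :=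
  Submodule.subset_span ⟨a, b, h, rfl⟩

theorem isoSum_mem_isoSpan (e4 e6 : K) (H : ℕ) (cf : ℕ → k) :
    isoSum e4 e6 H cf ∈ isoSpan (k := k) e4 e6 H := by
  unfold isoSum
  refine Submodule.sum_mem _ fun b hb => ?_
  have hadm : Adm H b := (Finset.mem_filter.mp hb).2
  rw [mul_assoc, ← Algebra.smul_def]
  exact Submodule.smul_mem _ _ (monomial_mem_isoSpan e4 e6 hadm.eq)

theorem exists_isoSum_of_mem {e4 e6 : K} {H : ℕ} {x : K} (hx : x ∈ isoSpan (k := k) e4 e6 H) :
    ∃ cf : ℕ → k, x = isoSum e4 e6 H cf := by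
  unfold isoSpan at hx
  induction hx using Submodule.span_induction with
  | mem x hx =>
    obtain ⟨a, b, h, rfl⟩ := hx
    exact ⟨Pi.single b 1, (isoSum_single e4 e6 h).symm⟩
  | zero => exact ⟨0, (isoSum_zero e4 e6 H).symm⟩
  | add x y _ _ hx hy =>
    obtain ⟨cf, rfl⟩ := hx
    obtain ⟨cf', rfl⟩ := hy
    exact ⟨cf + cf', (isoSum_add e4 e6 H cf cf').symm⟩
  | smul r x _ hx =>
    obtain ⟨cf, rfl⟩ := hx
    exact ⟨r • cf, (isoSum_smul e4 e6 H r cf).symm⟩

theorem mem_isoSpan_iff {e4 e6 : K} {H : ℕ} {x : K} :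
    x ∈ isoSpan (k := k) e4 e6 H ↔ ∃ cf : ℕ → k, x = isoSum e4 e6 H cf :=
  ⟨exists_isoSum_of_mem, fun ⟨cf, h⟩ => h ▸ isoSum_mem_isoSpan e4 e6 H cf⟩

theorem mul_mem_isoSpan {e4 e6 : K} {H H' : ℕ} {x y : K} (hx : x ∈ isoSpan (k := k) e4 e6 H)
    (hy : y ∈ isoSpan (k := k) e4 e6 H') : x * y ∈ isoSpan (k := k) e4 e6 (H + H') := by
  unfold isoSpan at hx hy
  induction hx using Submodule.span_induction with
  | mem x hx =>
    obtain ⟨a, b, h, rfl⟩ := hx
    induction hy using Submodule.span_induction with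
    | mem y hy =>
      obtain ⟨a', b', h', rfl⟩ := hy
      have : e4 ^ a * e6 ^ b * (e4 ^ a' * e6 ^ b') = e4 ^ (a + a') * e6 ^ (b + b') := by ring
      rw [this]
      exact monomial_mem_isoSpan e4 e6 (by omega)
    | zero => rw [mul_zero]; exact Submodule.zero_mem _
    | add y z _ _ hy hz => rw [mul_add]; exact Submodule.add_mem _ hy hz
    | smul r y _ hy => rw [mul_smul_comm]; exact Submodule.smul_mem _ _ hy
  | zero => rw [zero_mul]; exact Submodule.zero_mem _
  | add x z _ _ hx hz => rw [add_mul]; exact Submodule.add_mem _ hx hz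
  | smul r x _ hx => rw [smul_mul_assoc]; exact Submodule.smul_mem _ _ hx

theorem e4_mem_isoSpan (e4 e6 : K) : e4 ∈ isoSpan (k := k) e4 e6 2 := by
  have := monomial_mem_isoSpan (k := k) e4 e6 (H := 2) (a := 1) (b := 0) (by norm_num)
  simpa using this

theorem e6_mem_isoSpan (e4 e6 : K) : e6 ∈ isoSpan (k := k) e4 e6 3 := by
  have := monomial_mem_isoSpan (k := k) e4 e6 (H := 3) (a := 0) (b := 1) (by norm_num)
  simpa using this

theorem one_mem_isoSpan (e4 e6 : K) : (1 : K) ∈ isoSpan (k := k) e4 e6 0 := by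
  have := monomial_mem_isoSpan (k := k) e4 e6 (H := 0) (a := 0) (b := 0) (by norm_num)
  simpa using this

theorem pow_mem_isoSpan {e4 e6 : K} {H : ℕ} {x : K} (hx : x ∈ isoSpan (k := k) e4 e6 H) (n : ℕ) :
    x ^ n ∈ isoSpan (k := k) e4 e6 (n * H) := by
  induction n with
  | zero => simpa using one_mem_isoSpan (k := k) e4 e6
  | succ n ih =>
    rw [pow_succ, show (n + 1) * H = n * H + H by ring]
    exact mul_mem_isoSpan ih hx

theorem algebraMap_mem_isoSpan (e4 e6 : K) (r : k) :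
    algebraMap k K r ∈ isoSpan (k := k) e4 e6 0 := by
  rw [Algebra.algebraMap_eq_smul_one]
  exact Submodule.smul_mem _ _ (one_mem_isoSpan e4 e6)

theorem cube_sub_sq_mem_isoSpan (e4 e6 : K) : e4 ^ 3 - e6 ^ 2 ∈ isoSpan (k := k) e4 e6 6 := by
  refine Submodule.sub_mem _ ?_ ?_
  · have := monomial_mem_isoSpan (k := k) e4 e6 (H := 6) (a := 3) (b := 0) (by norm_num)
    simpa using this
  · have := monomial_mem_isoSpan (k := k) e4 e6 (H := 6) (a := 0) (b := 2) (by norm_num)
    simpa using this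

/-- Isobaric spans are transported by `k`-algebra homomorphisms. -/
theorem map_mem_isoSpan {K' : Type*} [CommRing K'] [Algebra k K'] (φ : K →ₐ[k] K') {e4 e6 : K}
    {H : ℕ} {x : K} (hx : x ∈ isoSpan (k := k) e4 e6 H) :
    φ x ∈ isoSpan (k := k) (φ e4) (φ e6) H := by
  unfold isoSpan at hx
  induction hx using Submodule.span_induction with
  | mem x hx =>
    obtain ⟨a, b, h, rfl⟩ := hx
    rw [map_mul, map_pow, map_pow]
    exact monomial_mem_isoSpan _ _ h
  | zero => rw [map_zero]; exact Submodule.zero_mem _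
  | add x y _ _ hx hy => rw [map_add]; exact Submodule.add_mem _ hx hy
  | smul r x _ hx => rw [map_smul]; exact Submodule.smul_mem _ _ hx

/-- Variant for a ring homomorphism commuting with the algebra maps. -/
theorem map_mem_isoSpan' {K' : Type*} [CommRing K'] [Algebra k K'] (φ : K →+* K')
    (hφ : ∀ r : k, φ (algebraMap k K r) = algebraMap k K' r) {e4 e6 : K}
    {H : ℕ} {x : K} (hx : x ∈ isoSpan (k := k) e4 e6 H) :
    φ x ∈ isoSpan (k := k) (φ e4) (φ e6) H :=
  map_mem_isoSpan (⟨φ, hφ⟩ : K →ₐ[k] K') hx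

end General

variable {k K : Type*} [Field k] [Field K] [Algebra k K]

/-- The standing hypotheses. -/
structure Setup (c : k) (J e4 e6 d : K) : Prop where
  hc : c ≠ 0
  hJ : Transcendental k J
  hd : d ≠ 0
  h4 : e4 ^ 3 = d * J
  h6 : e6 ^ 2 = d * (J - algebraMap k K c)

namespace Setup

variable {c : k} {J e4 e6 d : K} (S : Setup c J e4 e6 d)
include S

theorem aeval_injective : Function.Injective (aeval (R := k) J) :=
  transcendental_iff_injective.mp S.hJ

theorem J_ne_zero : J ≠ 0 := by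
  intro h
  apply S.hJ
  rw [h]
  exact isAlgebraic_zero

theorem J_sub_ne_zero : J - algebraMap k K c ≠ 0 := by
  intro h
  apply S.hJ
  rw [sub_eq_zero.mp h]
  exact isAlgebraic_algebraMap c

theorem e4_ne_zero : e4 ≠ 0 := by
  intro h
  have := S.h4
  rw [h, zero_pow (by norm_num)] at this
  exact mul_ne_zero S.hd S.J_ne_zero this.symm

theorem e6_ne_zero : e6 ≠ 0 := by
  intro h
  have := S.h6
  rw [h, zero_pow (by norm_num)] at this
  exact mul_ne_zero S.hd S.J_sub_ne_zero this.symm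

/-- `e6 ^ 2 * J = e4 ^ 3 * (J - c)`. -/
theorem star : e6 ^ 2 * J = e4 ^ 3 * (J - algebraMap k K c) := by
  rw [S.h4, S.h6]; ring

/-- From `Q(J) * e6 = P(J) * e4`:  `P(J) ^ 2 * J = Q(J) ^ 2 * e4 * (J - c)`. -/
theorem key1 {pp q : K} (h : q * e6 = pp * e4) :
    pp ^ 2 * J = q ^ 2 * e4 * (J - algebraMap k K c) := by
  have h1 : (q * e6) ^ 2 * J = q ^ 2 * (e4 ^ 3 * (J - algebraMap k K c)) := by
    rw [← S.star]; ring
  rw [h] at h1
  have h2 : e4 ^ 2 * (pp ^ 2 * J) = e4 ^ 2 * (q ^ 2 * e4 * (J - algebraMap k K c)) := by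
    rw [show e4 ^ 2 * (pp ^ 2 * J) = (pp * e4) ^ 2 * J by ring, h1]; ring
  exact mul_left_cancel₀ (pow_ne_zero 2 S.e4_ne_zero) h2

/-- Term identity: for `2 a + 3 b = H`, `m = a + b`:
`Q(J) ^ H * (J - c) ^ m * (e4 ^ a * e6 ^ b) = P(J) ^ H * J ^ m`. -/
theorem key2 {pp q : K} (h : q * e6 = pp * e4) {H a b : ℕ} (hab : 2 * a + 3 * b = H) :
    q ^ H * (J - algebraMap k K c) ^ (a + b) * (e4 ^ a * e6 ^ b) = pp ^ H * J ^ (a + b) := by
  have hH : H = 2 * (a + b) + b := by omega
  have h1 := S.key1 h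
  generalize J - algebraMap k K c = w at h1 ⊢
  calc q ^ H * w ^ (a + b) * (e4 ^ a * e6 ^ b)
      = (q ^ 2 * w) ^ (a + b) * e4 ^ a * (q * e6) ^ b := by
        rw [hH]; ring
    _ = (q ^ 2 * w) ^ (a + b) * e4 ^ a * (pp * e4) ^ b := by rw [h]
    _ = (q ^ 2 * e4 * w) ^ (a + b) * pp ^ b := by ring
    _ = (pp ^ 2 * J) ^ (a + b) * pp ^ b := by rw [← h1]
    _ = pp ^ H * J ^ (a + b) := by rw [hH]; ring

/-- `e4 ^ a * e6 ^ (b0 + 2 t) * J ^ t = e4 ^ (a + 3 t) * e6 ^ b0 * (J - c) ^ t`. -/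
theorem term2 (a b0 t : ℕ) :
    e4 ^ a * e6 ^ (b0 + 2 * t) * J ^ t =
      e4 ^ (a + 3 * t) * e6 ^ b0 * (J - algebraMap k K c) ^ t := by
  have h := S.star
  generalize J - algebraMap k K c = w at h ⊢
  calc e4 ^ a * e6 ^ (b0 + 2 * t) * J ^ t = e4 ^ a * e6 ^ b0 * (e6 ^ 2 * J) ^ t := by ring
    _ = e4 ^ a * e6 ^ b0 * (e4 ^ 3 * w) ^ t := by rw [h]
    _ = e4 ^ (a + 3 * t) * e6 ^ b0 * w ^ t := by ring

/-- Every isobaric sum of half weight `H` is (up to the power `J ^ H`) the base monomial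
`e4 ^ a0 * e6 ^ b0` (`b0 = H % 2`, `2 a0 + 3 b0 = H`) times a polynomial in `J`. -/
theorem isoSum_mul_pow (H : ℕ) (cf : ℕ → k) :
    ∃ R : k[X], isoSum e4 e6 H cf * J ^ H =
      e4 ^ ((H - 3 * (H % 2)) / 2) * e6 ^ (H % 2) * aeval J R := by
  classical
  refine ⟨∑ b ∈ (Finset.range (H + 1)).filter (Adm H),
    C (cf b) * (X - C c) ^ ((b - H % 2) / 2) * X ^ (H - (b - H % 2) / 2), ?_⟩
  unfold isoSum
  rw [map_sum, Finset.sum_mul, Finset.mul_sum]
  refine Finset.sum_congr rfl fun b hb => ?_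
  have hadm : Adm H b := (Finset.mem_filter.mp hb).2
  obtain ⟨h1, h2⟩ := hadm
  have hb2 : b = H % 2 + 2 * ((b - H % 2) / 2) := by omega
  have ha : (H - 3 * (H % 2)) / 2 = (H - 3 * b) / 2 + 3 * ((b - H % 2) / 2) := by omega
  have htH : (b - H % 2) / 2 ≤ H := by omega
  have key := S.term2 ((H - 3 * b) / 2) (H % 2) ((b - H % 2) / 2)
  rw [← hb2, ← ha] at key
  simp only [map_mul, map_pow, map_sub, aeval_C, aeval_X]
  have hJ : J ^ H = J ^ ((b - H % 2) / 2) * J ^ (H - (b - H % 2) / 2) := by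
    rw [← pow_add, Nat.add_sub_cancel' htH]
  rw [hJ]
  linear_combination (algebraMap k K (cf b) * J ^ (H - (b - H % 2) / 2)) * key

end Setup

theorem isoSum_one_eq_zero (e4 e6 : K) (cf : ℕ → k) : isoSum e4 e6 1 cf = 0 := by
  unfold isoSum
  refine Finset.sum_eq_zero fun b hb => ?_
  obtain ⟨_, h1, h2⟩ := Finset.mem_filter.mp hb
  exfalso
  omega

theorem rootMultiplicity_pow' {p : k[X]} (hp : p ≠ 0) (x : k) (n : ℕ) :
    rootMultiplicity x (p ^ n) = n * rootMultiplicity x p := by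
  induction n with
  | zero => simp
  | succ n ih =>
    rw [pow_succ, rootMultiplicity_mul (mul_ne_zero (pow_ne_zero n hp) hp), ih]; ring

/-- **`κ = e6 / e4` is not a rational function of `J`**, given one isobaric relation
`isoSum h cf = u` with `u ≠ 0` constant and `0 < h`. -/
theorem kappa_not_rat {c : k} {J e4 e6 d : K} (S : Setup c J e4 e6 d) {P Q : k[X]} (hQ : Q ≠ 0)
    (hPQ : aeval J Q * e6 = aeval J P * e4) {h : ℕ} (hh : 0 < h) (cf : ℕ → k) {u : k}
    (hu : u ≠ 0) (hiso : isoSum e4 e6 h cf = algebraMap k K u) : False := by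
  classical
  have hq0 : aeval J Q ≠ 0 := fun h0 => hQ (S.aeval_injective (by rw [h0, map_zero]))
  have hpp0 : aeval J P ≠ 0 := by
    intro h0
    rw [h0, zero_mul] at hPQ
    exact mul_ne_zero hq0 S.e6_ne_zero hPQ
  have hP : P ≠ 0 := by
    rintro rfl
    exact hpp0 (map_zero _)
  -- the support of the relation
  set I := (Finset.range (h + 1)).filter (Adm h) with hI
  set supp := I.filter (fun b => cf b ≠ 0) with hsupp
  have hne : supp.Nonempty := by
    by_contra hemp
    rw [Finset.not_nonempty_iff_eq_empty] at hemp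
    have h0 : isoSum e4 e6 h cf = 0 := by
      unfold isoSum
      refine Finset.sum_eq_zero fun b hb => ?_
      have hcb : cf b = 0 := by
        by_contra hcb
        have hbs : b ∈ supp := Finset.mem_filter.mpr ⟨hb, hcb⟩
        rw [hemp] at hbs
        exact absurd hbs (Finset.notMem_empty _)
      rw [hcb, map_zero, zero_mul, zero_mul]
    rw [h0] at hiso
    exact hu ((algebraMap k K).injective (by rw [← hiso, map_zero]))
  set b0 := supp.min' hne with hb0
  have hb0mem : b0 ∈ supp := Finset.min'_mem _ _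
  have hb0I : b0 ∈ I := (Finset.mem_filter.mp hb0mem).1
  have hb0adm : Adm h b0 := (Finset.mem_filter.mp hb0I).2
  have hcb0 : cf b0 ≠ 0 := (Finset.mem_filter.mp hb0mem).2
  set M := (h - b0) / 2 with hM
  set Spoly : k[X] := ∑ b ∈ I, C (cf b) * X ^ ((h - b) / 2) * (X - C c) ^ (M - (h - b) / 2)
    with hS
  -- the identity in `K`
  have hK : aeval J P ^ h * aeval J Spoly =
      algebraMap k K u * aeval J Q ^ h * (J - algebraMap k K c) ^ M := by
    rw [← hiso]
    unfold isoSum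
    rw [hS, map_sum, Finset.mul_sum, Finset.sum_mul, Finset.sum_mul]
    refine Finset.sum_congr rfl fun b hb => ?_
    have hadm : Adm h b := (Finset.mem_filter.mp hb).2
    by_cases hcb : cf b = 0
    · simp [hcb]
    · have hbs : b ∈ supp := Finset.mem_filter.mpr ⟨hb, hcb⟩
      have hle : b0 ≤ b := Finset.min'_le _ _ hbs
      have hm : (h - b) / 2 ≤ M := Nat.div_le_div_right (by omega)
      have hab := hadm.eq
      have hmb : (h - 3 * b) / 2 + b = (h - b) / 2 := by
        obtain ⟨h1, h2⟩ := hadm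
        omega
      have key := S.key2 hPQ hab
      rw [hmb] at key
      simp only [map_mul, map_pow, aeval_C, aeval_X, map_sub]
      have hsplit : (J - algebraMap k K c) ^ M =
          (J - algebraMap k K c) ^ ((h - b) / 2) * (J - algebraMap k K c) ^ (M - (h - b) / 2) := by
        rw [← pow_add, Nat.add_sub_cancel' hm]
      rw [hsplit]
      linear_combination (-(algebraMap k K (cf b) * (J - algebraMap k K c) ^ (M - (h - b) / 2))) * key
  -- the polynomial identity
  have hpoly : P ^ h * Spoly = C u * Q ^ h * (X - C c) ^ M := by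
    apply S.aeval_injective
    simp only [map_mul, map_pow, map_sub, aeval_C, aeval_X]
    exact hK
  -- the value of `Spoly` at `c`
  have hev : Spoly.eval c = cf b0 * c ^ M := by
    rw [hS, eval_finsetSum, Finset.sum_eq_single b0]
    · simp [hM]
    · intro b hb hbne
      have hadm : Adm h b := (Finset.mem_filter.mp hb).2
      by_cases hcb : cf b = 0
      · simp [hcb]
      · have hbs : b ∈ supp := Finset.mem_filter.mpr ⟨hb, hcb⟩
        have hle : b0 ≤ b := Finset.min'_le _ _ hbs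
        have hlt : (h - b) / 2 < M := by
          obtain ⟨h1, h2⟩ := hadm
          obtain ⟨h3, h4⟩ := hb0adm
          omega
        have hpos : M - (h - b) / 2 ≠ 0 := by omega
        simp [hpos]
    · intro hnot
      exact absurd hb0I hnot
  have hevne : Spoly.eval c ≠ 0 := by
    rw [hev]
    exact mul_ne_zero hcb0 (pow_ne_zero _ S.hc)
  have hSne : Spoly ≠ 0 := by
    rintro h0
    rw [h0, eval_zero] at hevne
    exact hevne rfl
  have hrootS : rootMultiplicity c Spoly = 0 := rootMultiplicity_eq_zero hevne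
  -- compare root multiplicities
  have hL : rootMultiplicity c (P ^ h * Spoly) = h * rootMultiplicity c P := by
    rw [rootMultiplicity_mul (mul_ne_zero (pow_ne_zero h hP) hSne), rootMultiplicity_pow' hP,
      hrootS, add_zero]
  have hCu : (C u : k[X]) ≠ 0 := by
    rwa [Ne, C_eq_zero]
  have hXc : (X - C c : k[X]) ^ M ≠ 0 := pow_ne_zero _ (X_sub_C_ne_zero c)
  have hR : rootMultiplicity c (C u * Q ^ h * (X - C c) ^ M) = h * rootMultiplicity c Q + M := by
    rw [rootMultiplicity_mul (mul_ne_zero (mul_ne_zero hCu (pow_ne_zero h hQ)) hXc),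
      rootMultiplicity_mul (mul_ne_zero hCu (pow_ne_zero h hQ)), rootMultiplicity_C,
      rootMultiplicity_pow' hQ, rootMultiplicity_X_sub_C_pow, zero_add]
  rw [hpoly, hR] at hL
  -- arithmetic: `h ∣ M` but `0 < M < h`
  have hdvd : h ∣ M := by
    have h1 : h ∣ h * rootMultiplicity c Q + M := ⟨_, hL⟩
    exact (Nat.dvd_add_right (dvd_mul_right h _)).mp h1
  obtain ⟨h1, h2⟩ := hb0adm
  have hMpos : 0 < M := by omega
  have hMlt : M < h := by omega
  exact absurd (Nat.le_of_dvd hMpos hdvd) (not_le.mpr hMlt)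

/-- **Swinnerton-Dyer lite.**  Given one isobaric relation `u ∈ isoSpan h` (`u ≠ 0` constant,
`0 < h`), an element which is isobaric of half weight `H` and of half weight `H + 1` is zero. -/
theorem eq_zero_of_mem_isoSpan_succ {c : k} {J e4 e6 d : K} (S : Setup c J e4 e6 d) {h : ℕ}
    (hh : 0 < h) {u : k} (hu : u ≠ 0) (hA : algebraMap k K u ∈ isoSpan (k := k) e4 e6 h)
    {H : ℕ} {x : K} (h1 : x ∈ isoSpan (k := k) e4 e6 H)
    (h2 : x ∈ isoSpan (k := k) e4 e6 (H + 1)) : x = 0 := by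
  by_contra hx
  obtain ⟨cfA, hcfA⟩ := exists_isoSum_of_mem hA
  obtain ⟨cf1, hcf1⟩ := exists_isoSum_of_mem h1
  obtain ⟨cf2, hcf2⟩ := exists_isoSum_of_mem h2
  obtain ⟨R1, hR1⟩ := S.isoSum_mul_pow H cf1
  obtain ⟨R2, hR2⟩ := S.isoSum_mul_pow (H + 1) cf2
  rw [← hcf1] at hR1
  rw [← hcf2] at hR2
  have hxJ : ∀ n : ℕ, x * J ^ n ≠ 0 := fun n => mul_ne_zero hx (pow_ne_zero _ S.J_ne_zero)
  have hR1ne : aeval J R1 ≠ 0 := by
    intro h0
    rw [h0, mul_zero] at hR1
    exact hxJ _ hR1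
  have hR2ne : aeval J R2 ≠ 0 := by
    intro h0
    rw [h0, mul_zero] at hR2
    exact hxJ _ hR2
  have hR2ne' : R2 ≠ 0 := by
    rintro rfl
    exact hR2ne (map_zero _)
  have hrel : e4 ^ ((H - 3 * (H % 2)) / 2) * e6 ^ (H % 2) * aeval J R1 * J =
      e4 ^ ((H + 1 - 3 * ((H + 1) % 2)) / 2) * e6 ^ ((H + 1) % 2) * aeval J R2 := by
    rw [← hR1, ← hR2]; ring
  rcases Nat.even_or_odd' H with ⟨s, rfl | rfl⟩
  · -- `H = 2 s`
    rcases Nat.eq_zero_or_pos s with rfl | hs
    · exact hx (by rw [hcf2]; exact isoSum_one_eq_zero e4 e6 cf2)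
    · have e1 : (2 * s) % 2 = 0 := by omega
      have e2 : (2 * s + 1) % 2 = 1 := by omega
      have ea1 : (2 * s - 3 * 0) / 2 = (s - 1) + 1 := by omega
      have ea2 : (2 * s + 1 - 3 * 1) / 2 = s - 1 := by omega
      rw [e1, e2, ea1, ea2, pow_succ, pow_zero, pow_one] at hrel
      have h3 : e4 ^ (s - 1) * (e4 * (aeval J R1 * J)) = e4 ^ (s - 1) * (e6 * aeval J R2) := by
        linear_combination hrel
      have h4 := mul_left_cancel₀ (pow_ne_zero _ S.e4_ne_zero) h3
      refine kappa_not_rat S (P := X * R1) (Q := R2) hR2ne' ?_ hh cfA hu hcfA.symm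
      simp only [map_mul, aeval_X]
      linear_combination -h4
  · -- `H = 2 s + 1`
    rcases Nat.eq_zero_or_pos s with rfl | hs
    · exact hx (by rw [hcf1]; exact isoSum_one_eq_zero e4 e6 cf1)
    · have e1 : (2 * s + 1) % 2 = 1 := by omega
      have e2 : (2 * s + 1 + 1) % 2 = 0 := by omega
      have ea1 : (2 * s + 1 - 3 * 1) / 2 = s - 1 := by omega
      have ea2 : (2 * s + 1 + 1 - 3 * 0) / 2 = (s - 1) + 2 := by omega
      rw [e1, e2, ea1, ea2, pow_add, pow_zero, pow_one] at hrel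
      have h3 : e4 ^ (s - 1) * (e6 * (aeval J R1 * J)) = e4 ^ (s - 1) * (e4 ^ 2 * aeval J R2) := by
        linear_combination hrel
      have h4 := mul_left_cancel₀ (pow_ne_zero _ S.e4_ne_zero) h3
      -- `e6 * R2 = e4 * (J - c) * R1`
      have hstar := S.star
      have h5 : e4 ^ 2 * (aeval J R2 * e6) =
          e4 ^ 2 * (aeval J R1 * (J - algebraMap k K c) * e4) := by
        linear_combination (-e6) * h4 + (aeval J R1) * hstar
      have h6 := mul_left_cancel₀ (pow_ne_zero _ S.e4_ne_zero) h5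
      refine kappa_not_rat S (P := R1 * (X - C c)) (Q := R2) hR2ne' ?_ hh cfA hu hcfA.symm
      simp only [map_mul, map_sub, aeval_X, aeval_C]
      exact h6

end Fermat.Agent.S16.KappaAlg
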