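/-
S16, upper bound for `l ≥ 5` and `l = p`, level-one input (pure algebra, Mathlib only):

  `κ = R / Q` (think `Q = E₄ mod l`, `R = E₆ mod l`) does NOT lie in `k(J)`, `J = Q³ / Δ`,
  as soon as ONE nonzero isobaric polynomial `A(Q, R)` (weights `4`, `6`, total weight `w > 0`)
  is a nonzero constant.

Proof: at the place `J = 1728` of `k(J)` one has `v(Δ) = 3m`, `v(Q) = m`, `2 v(R) = 3m + 1`,
so `m` is odd; the monomials `Q^a R^b` of weight `w` have pairwise distinct valuations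
`(m w + 2 b) / 4`, so `v(A(Q,R)) = 0` forces `m w = -2 b_min`, `|m| ≤ 1/3`: contradiction.
(We use multiplicative valuations, so signs are reversed below.)
-/
import Mathlib

set_option autoImplicit false

noncomputable section

namespace Fermat.Agent.S16.LevelOne.KappaNotRat

open WithZero

/-! ### The abstract valuation argument -/

section Abstract

variable {F : Type*} [Field F] (v : Valuation F ℤᵐ⁰)

/-- additive version of the valuation (with the sign of `log`, i.e. `-ord`). -/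
def lg (y : F) : ℤ := WithZero.log (v y)

theorem lg_mul {y z : F} (hy : y ≠ 0) (hz : z ≠ 0) : lg v (y * z) = lg v y + lg v z := by
  unfold lg
  rw [map_mul, WithZero.log_mul ((Valuation.ne_zero_iff v).mpr hy) ((Valuation.ne_zero_iff v).mpr hz)]

theorem lg_pow (y : F) (n : ℕ) : lg v (y ^ n) = n * lg v y := by
  unfold lg
  rw [map_pow, WithZero.log_pow, nsmul_eq_mul]

theorem v_eq_exp_lg {y : F} (hy : y ≠ 0) : v y = WithZero.exp (lg v y) := by
  unfold lg
  rw [WithZero.exp_log ((Valuation.ne_zero_iff v).mpr hy)]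

theorem lg_of_v_eq_one {y : F} (hy : v y = 1) : lg v y = 0 := by
  unfold lg
  rw [hy, WithZero.log_one]

/-- **Abstract form.** `F` a field with a `ℤᵐ⁰`-valued valuation `v`, `x` with `v x = 1` and
`v (x - 1728) = exp (-1)`; `Q³ - R² = 1728 Δ`, `Q³ = x Δ`, `Δ ≠ 0`.  Then no isobaric combination
`∑ c_i Q^{a_i} R^{b_i}` (`4 a_i + 6 b_i = w > 0`, coefficients of valuation `1` or zero, not all
zero) can have valuation `1`. -/
theorem false_of_valuation (Q R Δ x : F) (hΔ : Δ ≠ 0)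
    (h1 : Q ^ 3 - R ^ 2 = 1728 * Δ) (h2 : Q ^ 3 = x * Δ)
    (hx : v x = 1) (hx' : v (x - 1728) = WithZero.exp (-1 : ℤ))
    (s : Finset (ℕ × ℕ)) (c : ℕ × ℕ → F) (w : ℕ) (hw0 : 0 < w)
    (hc : ∀ i ∈ s, c i ≠ 0 → v (c i) = 1)
    (hw : ∀ i ∈ s, c i ≠ 0 → 4 * i.1 + 6 * i.2 = w)
    (hne : ∃ i ∈ s, c i ≠ 0)
    (hsum : v (∑ i ∈ s, c i * Q ^ i.1 * R ^ i.2) = 1) : False := by
  classical
  have hx0 : x ≠ 0 := by
    intro h0
    rw [h0, map_zero] at hx
    exact zero_ne_one hx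
  have hx1 : x - 1728 ≠ 0 := by
    intro h0
    rw [h0, map_zero] at hx'
    exact WithZero.exp_ne_zero hx'.symm
  have hQ : Q ≠ 0 := by
    intro h0
    rw [h0, zero_pow (by norm_num)] at h2
    exact (mul_ne_zero hx0 hΔ) h2.symm
  have hR2 : R ^ 2 = (x - 1728) * Δ := by
    have : R ^ 2 = Q ^ 3 - 1728 * Δ := by rw [← h1]; ring
    rw [this, h2]; ring
  have hR : R ≠ 0 := by
    intro h0
    rw [h0, zero_pow (by norm_num)] at hR2
    exact (mul_ne_zero hx1 hΔ) hR2.symm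
  -- the integers m, n
  set m : ℤ := lg v Q with hm
  set n : ℤ := lg v R with hn
  have hd : lg v Δ = 3 * m := by
    have := congrArg (lg v) h2
    rw [lg_pow, lg_mul v hx0 hΔ, lg_of_v_eq_one v hx, zero_add] at this
    rw [← this]; push_cast; ring
  have hn2 : 2 * n = 3 * m - 1 := by
    have := congrArg (lg v) hR2
    rw [lg_pow, lg_mul v hx1 hΔ, hd] at this
    have h1728 : lg v (x - 1728) = -1 := by
      unfold lg
      rw [hx', WithZero.log_exp]
    rw [h1728] at this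
    push_cast at this
    linarith
  -- valuation of a monomial
  have hterm : ∀ i : ℕ × ℕ, c i ≠ 0 → v (c i) = 1 →
      v (c i * Q ^ i.1 * R ^ i.2) = WithZero.exp ((i.1 : ℤ) * m + (i.2 : ℤ) * n) := by
    intro i hci hvi
    rw [map_mul, map_mul, hvi, one_mul, map_pow, map_pow, v_eq_exp_lg v hQ, v_eq_exp_lg v hR,
      ← WithZero.exp_nsmul, ← WithZero.exp_nsmul, ← WithZero.exp_add]
    simp only [nsmul_eq_mul, hm, hn]
  -- the dominant monomial: minimal exponent of R among the nonzero coefficients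
  set s' := s.filter (fun i => c i ≠ 0) with hs'
  have hs'ne : s'.Nonempty := by
    obtain ⟨i, hi, hci⟩ := hne
    exact ⟨i, Finset.mem_filter.mpr ⟨hi, hci⟩⟩
  obtain ⟨j, hjs', hjmin⟩ := Finset.exists_min_image s' (fun i => i.2) hs'ne
  have hjs : j ∈ s := (Finset.mem_filter.mp hjs').1
  have hcj : c j ≠ 0 := (Finset.mem_filter.mp hjs').2
  have hvj := hterm j hcj (hc j hjs hcj)
  have hdom : ∀ i ∈ s \ {j}, v (c i * Q ^ i.1 * R ^ i.2) < v (c j * Q ^ j.1 * R ^ j.2) := by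
    intro i hi
    rw [Finset.mem_sdiff, Finset.mem_singleton] at hi
    obtain ⟨his, hij⟩ := hi
    by_cases hci : c i = 0
    · rw [hci, zero_mul, zero_mul, map_zero, hvj]
      exact WithZero.exp_pos
    · rw [hterm i hci (hc i his hci), hvj, WithZero.exp_lt_exp]
      have hwi := hw i his hci
      have hwj := hw j hjs hcj
      have hle : j.2 ≤ i.2 := hjmin i (Finset.mem_filter.mpr ⟨his, hci⟩)
      have hlt : j.2 < i.2 := by
        rcases Nat.lt_or_ge j.2 i.2 with h | h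
        · exact h
        · exfalso
          have h2' : i.2 = j.2 := le_antisymm h hle
          have h1' : i.1 = j.1 := by omega
          exact hij (Prod.ext h1' h2')
      -- 4 * (a m + b n) = m w - 2 b
      have e1 : 4 * ((i.1 : ℤ) * m + (i.2 : ℤ) * n) = m * (w : ℤ) - 2 * (i.2 : ℤ) := by
        have : (w : ℤ) = 4 * (i.1 : ℤ) + 6 * (i.2 : ℤ) := by exact_mod_cast hwi.symm
        rw [this]
        linear_combination (2 * (i.2 : ℤ)) * hn2
      have e2 : 4 * ((j.1 : ℤ) * m + (j.2 : ℤ) * n) = m * (w : ℤ) - 2 * (j.2 : ℤ) := by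
        have : (w : ℤ) = 4 * (j.1 : ℤ) + 6 * (j.2 : ℤ) := by exact_mod_cast hwj.symm
        rw [this]
        linear_combination (2 * (j.2 : ℤ)) * hn2
      have hlt' : (j.2 : ℤ) < (i.2 : ℤ) := by exact_mod_cast hlt
      linarith
  have hval := Valuation.map_sum_eq_of_lt v hjs hdom
  rw [hsum, hvj] at hval
  have hzero : (j.1 : ℤ) * m + (j.2 : ℤ) * n = 0 := by
    have := hval.symm
    rwa [WithZero.exp_eq_one] at this
  have hwj := hw j hjs hcj
  have hwjZ : (w : ℤ) = 4 * (j.1 : ℤ) + 6 * (j.2 : ℤ) := by exact_mod_cast hwj.symm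
  -- m w = 2 b_j
  have hmw : m * (w : ℤ) = 2 * (j.2 : ℤ) := by
    rw [hwjZ]
    linear_combination 4 * hzero - (2 * (j.2 : ℤ)) * hn2
  have hw0' : (0 : ℤ) < (w : ℤ) := by exact_mod_cast hw0
  have hj2 : (0 : ℤ) ≤ (j.2 : ℤ) := Int.natCast_nonneg _
  have hj1 : (0 : ℤ) ≤ (j.1 : ℤ) := Int.natCast_nonneg _
  -- m is odd, and 0 ≤ m w ≤ w / 3
  have hm0 : 0 ≤ m := by
    by_contra hneg
    push Not at hneg
    have : m * (w : ℤ) < 0 := mul_neg_of_neg_of_pos hneg hw0'
    linarith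
  have hm1 : m ≠ 0 := by
    intro h0
    rw [h0] at hn2
    omega
  have hm1' : 1 ≤ m := by omega
  have : (w : ℤ) ≤ m * (w : ℤ) := by nlinarith
  nlinarith

end Abstract


/-! ### The valuation of `k(X)` at `X = a` -/

section RatFuncVal

open Polynomial IsDedekindDomain

variable (k : Type*) [Field k] (a : k)

/-- The place `X = a` of `k[X]`. -/
def placeAt : HeightOneSpectrum (Polynomial k) where
  asIdeal := Ideal.span {X - C a}
  isPrime := (Ideal.span_singleton_prime (X_sub_C_ne_zero a)).mpr (prime_X_sub_C a)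
  ne_bot := by
    rw [Ne, Ideal.span_singleton_eq_bot]
    exact X_sub_C_ne_zero a

/-- The valuation of `k(X)` at `X = a`. -/
def valAt : Valuation (RatFunc k) ℤᵐ⁰ := (placeAt k a).valuation (RatFunc k)

theorem valAt_algebraMap_of_not_isRoot {f : Polynomial k} (hf : ¬ f.IsRoot a) :
    valAt k a (algebraMap (Polynomial k) (RatFunc k) f) = 1 := by
  unfold valAt
  rw [HeightOneSpectrum.valuation_of_algebraMap, HeightOneSpectrum.intValuation_eq_one_iff]
  intro hmem
  apply hf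
  have : X - C a ∣ f := Ideal.mem_span_singleton.mp hmem
  exact dvd_iff_isRoot.mp this

theorem valAt_X_sub_C :
    valAt k a (algebraMap (Polynomial k) (RatFunc k) (X - C a)) = WithZero.exp (-1 : ℤ) := by
  unfold valAt
  rw [HeightOneSpectrum.valuation_of_algebraMap]
  exact HeightOneSpectrum.intValuation_singleton _ (X_sub_C_ne_zero a) rfl

theorem valAt_C {c : k} (hc : c ≠ 0) : valAt k a (algebraMap k (RatFunc k) c) = 1 := by
  have h := valAt_algebraMap_of_not_isRoot k a (f := C c) (by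
    rw [IsRoot, eval_C]; exact hc)
  rwa [RatFunc.algebraMap_C, ← RatFunc.algebraMap_eq_C] at h

theorem valAt_X (ha : a ≠ 0) : valAt k a (RatFunc.X : RatFunc k) = 1 := by
  have h := valAt_algebraMap_of_not_isRoot k a (f := X) (by
    rw [IsRoot, eval_X]; exact ha)
  rwa [RatFunc.algebraMap_X] at h

theorem valAt_X_sub (a : k) :
    valAt k a ((RatFunc.X : RatFunc k) - algebraMap k (RatFunc k) a) = WithZero.exp (-1 : ℤ) := by
  have h := valAt_X_sub_C k a
  rwa [map_sub, RatFunc.algebraMap_X, RatFunc.algebraMap_C, ← RatFunc.algebraMap_eq_C] at h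

end RatFuncVal

/-! ### The concrete statement -/

section Concrete

open IntermediateField

variable {k E : Type*} [Field k] [Field E] [Algebra k E]

/-- **`κ = R/Q ∉ k(J)`.**  `Q, R` in a field extension `E` of `k` (`1728 ≠ 0` in `k`),
`Q³ - R² ≠ 0`, `J (Q³ - R²) = 1728 Q³` (i.e. `J = Q³/Δ`), `J` transcendental over `k`.
If some nonzero isobaric combination `∑ c_i Q^{a_i} R^{b_i}` (`4 a_i + 6 b_i = w > 0`, `c_i ∈ k`)
is a nonzero constant `u ∈ k`, then `R / Q ∉ k(J)`. -/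
theorem kappa_not_mem (h1728 : (1728 : k) ≠ 0) (Q R J : E) (hΔ : Q ^ 3 - R ^ 2 ≠ 0)
    (hJ : J * (Q ^ 3 - R ^ 2) = 1728 * Q ^ 3) (hJt : Transcendental k J)
    (s : Finset (ℕ × ℕ)) (c : ℕ × ℕ → k) (w : ℕ) (hw0 : 0 < w)
    (hw : ∀ i ∈ s, c i ≠ 0 → 4 * i.1 + 6 * i.2 = w) (hne : ∃ i ∈ s, c i ≠ 0)
    (u : k) (hu : u ≠ 0)
    (hsum : ∑ i ∈ s, algebraMap k E (c i) * Q ^ i.1 * R ^ i.2 = algebraMap k E u) :
    R / Q ∉ k⟮J⟯ := by
  intro hκ
  have hE1728 : (1728 : E) ≠ 0 := by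
    have : (1728 : E) = algebraMap k E 1728 := (map_ofNat (algebraMap k E) 1728).symm
    rw [this]
    exact (map_ne_zero (algebraMap k E)).mpr h1728
  have hJ0 : J ≠ 0 := fun h0 => hJt (h0 ▸ isAlgebraic_zero)
  have hJ1 : J - 1728 ≠ 0 := by
    intro h0
    apply hJt
    have : J = algebraMap k E 1728 := by
      rw [map_ofNat]; exact sub_eq_zero.mp h0
    rw [this]
    exact isAlgebraic_algebraMap _
  have hQ : Q ≠ 0 := by
    intro h0
    rw [h0] at hJ hΔ
    have h3 : J * (0 ^ 3 - R ^ 2) = 0 := by rw [hJ]; ring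
    rcases mul_eq_zero.mp h3 with h | h
    · exact hJ0 h
    · exact hΔ h
  have hJmem : J ∈ k⟮J⟯ := mem_adjoin_simple_self k J
  -- Q and R lie in k(J)
  have hQeq : Q = J * (R / Q) ^ 2 / (J - 1728) := by
    rw [eq_div_iff hJ1]
    field_simp
    linear_combination hJ
  have hQmem : Q ∈ k⟮J⟯ := by
    rw [hQeq]
    refine div_mem (mul_mem hJmem (pow_mem hκ 2)) (sub_mem hJmem ?_)
    have : (1728 : E) = algebraMap k E 1728 := (map_ofNat (algebraMap k E) 1728).symm
    rw [this]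
    exact IntermediateField.algebraMap_mem _ _
  have hRmem : R ∈ k⟮J⟯ := by
    have : R = (R / Q) * Q := by field_simp
    rw [this]
    exact mul_mem hκ hQmem
  -- transport to F := k(J) with the valuation at J = 1728
  let e := RatFunc.algEquivOfTranscendental J hJt
  let v' : Valuation k⟮J⟯ ℤᵐ⁰ := (valAt k (1728 : k)).comap (e.symm : k⟮J⟯ →+* RatFunc k)
  let q' : k⟮J⟯ := ⟨Q, hQmem⟩
  let r' : k⟮J⟯ := ⟨R, hRmem⟩
  let x' : k⟮J⟯ := AdjoinSimple.gen k J
  have hF1728 : (1728 : k⟮J⟯) ≠ 0 := by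
    have : (1728 : k⟮J⟯) = algebraMap k k⟮J⟯ 1728 := (map_ofNat (algebraMap k k⟮J⟯) 1728).symm
    rw [this]
    exact (map_ne_zero (algebraMap k k⟮J⟯)).mpr h1728
  let δ' : k⟮J⟯ := (q' ^ 3 - r' ^ 2) / 1728
  have hcoe : Function.Injective (algebraMap k⟮J⟯ E) := (algebraMap k⟮J⟯ E).injective
  have hδ' : δ' ≠ 0 := by
    apply div_ne_zero _ hF1728
    intro h0
    apply hΔ
    have := congrArg (algebraMap k⟮J⟯ E) h0
    simpa [q', r'] using this
  have h1' : q' ^ 3 - r' ^ 2 = 1728 * δ' := by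
    simp only [δ']
    field_simp
  have h2' : q' ^ 3 = x' * δ' := by
    apply hcoe
    simp only [δ', map_mul, map_div₀, map_sub, map_pow, map_ofNat]
    show Q ^ 3 = J * ((Q ^ 3 - R ^ 2) / 1728)
    rw [mul_div_assoc', hJ]
    field_simp
  have hx' : v' x' = 1 := by
    show valAt k 1728 (e.symm x') = 1
    rw [RatFunc.algEquivOfTranscendental_symm_gen]
    exact valAt_X k 1728 h1728
  have hx'' : v' (x' - 1728) = WithZero.exp (-1 : ℤ) := by
    show valAt k 1728 (e.symm (x' - 1728)) = _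
    rw [map_sub, RatFunc.algEquivOfTranscendental_symm_gen, map_ofNat]
    have := valAt_X_sub k (1728 : k)
    rwa [map_ofNat] at this
  have hc' : ∀ i ∈ s, algebraMap k k⟮J⟯ (c i) ≠ 0 → v' (algebraMap k k⟮J⟯ (c i)) = 1 := by
    intro i _ hci
    have hci' : c i ≠ 0 := fun h0 => hci (by rw [h0, map_zero])
    show valAt k 1728 (e.symm (algebraMap k k⟮J⟯ (c i))) = 1
    rw [AlgEquiv.commutes]
    exact valAt_C k 1728 hci'
  have hw' : ∀ i ∈ s, algebraMap k k⟮J⟯ (c i) ≠ 0 → 4 * i.1 + 6 * i.2 = w := by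
    intro i hi hci
    exact hw i hi (fun h0 => hci (by rw [h0, map_zero]))
  have hne' : ∃ i ∈ s, algebraMap k k⟮J⟯ (c i) ≠ 0 := by
    obtain ⟨i, hi, hci⟩ := hne
    exact ⟨i, hi, (map_ne_zero (algebraMap k k⟮J⟯)).mpr hci⟩
  have hsum' : ∑ i ∈ s, algebraMap k k⟮J⟯ (c i) * q' ^ i.1 * r' ^ i.2 = algebraMap k k⟮J⟯ u := by
    apply hcoe
    rw [map_sum]
    simp only [map_mul, map_pow]
    exact hsum
  have hvsum : v' (∑ i ∈ s, algebraMap k k⟮J⟯ (c i) * q' ^ i.1 * r' ^ i.2) = 1 := by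
    rw [hsum']
    show valAt k 1728 (e.symm (algebraMap k k⟮J⟯ u)) = 1
    rw [AlgEquiv.commutes]
    exact valAt_C k 1728 hu
  exact false_of_valuation v' q' r' δ' x' hδ' h1' h2' hx' hx'' s
    (fun i => algebraMap k k⟮J⟯ (c i)) w hw0 hc' hw' hne' hvsum

/-- `MvPolynomial` form of `kappa_not_mem`: `A ≠ 0` weighted homogeneous of weight `w > 0`
for the weights `![4, 6]`, with `A(Q, R) = u` a nonzero constant. -/
theorem kappa_not_mem_mvPolynomial (h1728 : (1728 : k) ≠ 0) (Q R J : E) (hΔ : Q ^ 3 - R ^ 2 ≠ 0)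
    (hJ : J * (Q ^ 3 - R ^ 2) = 1728 * Q ^ 3) (hJt : Transcendental k J)
    (A : MvPolynomial (Fin 2) k) (hA : A ≠ 0) (w : ℕ) (hw0 : 0 < w)
    (hAw : MvPolynomial.IsWeightedHomogeneous (![4, 6] : Fin 2 → ℕ) A w)
    (u : k) (hu : u ≠ 0) (hval : MvPolynomial.aeval ![Q, R] A = algebraMap k E u) :
    R / Q ∉ k⟮J⟯ := by
  classical
  let φ : (Fin 2 →₀ ℕ) → ℕ × ℕ := fun d => (d 0, d 1)
  have hφ : Function.Injective φ := by
    intro d d' h
    ext i
    have h0 : d 0 = d' 0 := congrArg Prod.fst h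
    have h1 : d 1 = d' 1 := congrArg Prod.snd h
    fin_cases i
    · exact h0
    · exact h1
  let ψ : ℕ × ℕ → (Fin 2 →₀ ℕ) := fun i => Finsupp.single 0 i.1 + Finsupp.single 1 i.2
  have hψφ : ∀ d, ψ (φ d) = d := by
    intro d
    ext i
    fin_cases i <;> simp [ψ, φ]
  refine kappa_not_mem h1728 Q R J hΔ hJ hJt (A.support.image φ) (fun i => A.coeff (ψ i)) w hw0
    ?_ ?_ u hu ?_
  · intro i hi hci
    obtain ⟨d, hd, rfl⟩ := Finset.mem_image.mp hi
    rw [hψφ] at hci
    have := hAw hci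
    rw [Finsupp.weight_apply, Finsupp.sum_fintype _ _ (by intro i; simp), Fin.sum_univ_two] at this
    simp only [Matrix.cons_val_zero, Matrix.cons_val_one, smul_eq_mul] at this
    show 4 * d 0 + 6 * d 1 = w
    rw [← this]; ring
  · obtain ⟨d, hd⟩ := MvPolynomial.support_nonempty.mpr hA
    refine ⟨φ d, Finset.mem_image_of_mem φ hd, ?_⟩
    show A.coeff (ψ (φ d)) ≠ 0
    rw [hψφ]
    exact MvPolynomial.mem_support_iff.mp hd
  · rw [Finset.sum_image (fun d _ d' _ h => hφ h), ← hval, MvPolynomial.aeval_def,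
      MvPolynomial.eval₂_eq']
    refine Finset.sum_congr rfl fun d _ => ?_
    rw [hψφ, Fin.prod_univ_two, mul_assoc]
    rfl

end Concrete

end Fermat.Agent.S16.LevelOne.KappaNotRat
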