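import Fermat.Agent.S16.LevelOne.KappaAlg
import Fermat.Agent.S16.Three.Series
import Fermat.Agent.S20.LevelOne

/-!
# S16 / LevelOne / LevelOneRepr: the level one `q`-expansion principle mod `l`

For a prime `l ≥ 5`: if `f` is a level one modular form of weight `2 H` whose `q`-expansion is the
integral power series `a`, then the reduction of `a` mod `l` lies in the `𝔽_l`-span of the monomials
`Ē₄ ^ i * Ē₆ ^ j`, `2 i + 3 j = H` (`KappaAlg.isoSpan`).
-/

set_option autoImplicit false

namespace Fermat.Agent.S16.LevelOne.LevelOneRepr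

open UpperHalfPlane ModularForm ModularFormClass EisensteinSeries Filter Topology ModularCurve
open Fermat.Agent.S20 Fermat.Agent.S24.JExp Fermat.Agent.S16.Three.Series Fermat.Agent.S16.KappaAlg
open scoped MatrixGroups ModularForm Manifold

noncomputable section

/-- reduction of integral power series mod `l` -/
abbrev redl (l : ℕ) : PowerSeries ℤ →+* PowerSeries (ZMod l) :=
  PowerSeries.map (Int.castRingHom (ZMod l))

/-- `Ē₄`. -/
abbrev e4b (l : ℕ) : PowerSeries (ZMod l) := redl l eisenstein4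

/-- `Ē₆`. -/
abbrev e6b (l : ℕ) : PowerSeries (ZMod l) := redl l eisenstein6

theorem nice_of_isMF {k : ℤ} {f : ℍ → ℂ} (hf : IsMF 1 k f) : Nice f where
  per := SlashInvariantFormClass.periodic_comp_ofComplex hf.toMFOne one_mem_strictPeriods_SL
  hol := hf.1
  bdd := ModularFormClass.bdd_at_infty hf.toMFOne

theorem qExpansion_discriminant :
    qExpansion 1 (⇑CuspForm.discriminant : ℍ → ℂ) = toC deltaZ := by
  have h : (⇑CuspForm.discriminant : ℍ → ℂ) = qP * etaH ^ 24 := by
    funext τ
    exact discriminant_eq τ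
  rw [h, qExpansion_delta_fun]

theorem constantCoeff_eisenstein6 : PowerSeries.constantCoeff eisenstein6 = 1 := by
  rw [← PowerSeries.coeff_zero_eq_constantCoeff]
  simp [eisenstein6, sigSer]

/-- The monomials `E₄ ^ i * E₆ ^ j`. -/
theorem isMF_monomial (i j : ℕ) :
    IsMF 1 (2 * ((2 * i + 3 * j : ℕ) : ℤ)) ((⇑E₄ : ℍ → ℂ) ^ i * (⇑E₆ : ℍ → ℂ) ^ j) :=
  ((isMF_E4.pow i).mul (isMF_E6.pow j)).cast (by push_cast; ring)

theorem qExpansion_monomial (i j : ℕ) :
    qExpansion 1 ((⇑E₄ : ℍ → ℂ) ^ i * (⇑E₆ : ℍ → ℂ) ^ j) =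
      toC (eisenstein4 ^ i * eisenstein6 ^ j) := by
  have h4 : Nice (⇑E₄ : ℍ → ℂ) := nice_of_isMF isMF_E4
  have h6 : Nice (⇑E₆ : ℍ → ℂ) := nice_of_isMF isMF_E6
  rw [(h4.pow i).qExpansion_mul (h6.pow j), h4.qExpansion_pow, h6.qExpansion_pow,
    qExpansion_E4', qExpansion_E6, map_mul, map_pow, map_pow]

/-- Division by `Δ` on integral `q`-expansions. -/
theorem exists_qexp_of_delta_mul {k : ℤ} {g : ℍ → ℂ} (hg : IsMF 1 k g) {b : PowerSeries ℤ}
    (hb : qExpansion 1 ((⇑CuspForm.discriminant : ℍ → ℂ) * g) = toC b) :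
    ∃ a' : PowerSeries ℤ, qExpansion 1 g = toC a' ∧ b = deltaZ * a' := by
  have hΔ : Nice (⇑CuspForm.discriminant : ℍ → ℂ) := nice_of_isMF isCF_delta.isMF
  rw [hΔ.qExpansion_mul (nice_of_isMF hg), qExpansion_discriminant] at hb
  -- `b` has no constant term
  have hb0 : PowerSeries.constantCoeff b = 0 := by
    have h := congrArg (PowerSeries.constantCoeff (R := ℂ)) hb
    rw [map_mul, deltaZ, map_mul, map_mul, PowerSeries.map_X, PowerSeries.constantCoeff_X,
      zero_mul, zero_mul] at h
    have h2 : ((PowerSeries.constantCoeff b : ℤ) : ℂ) = 0 := by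
      rw [← PowerSeries.coeff_zero_eq_constantCoeff, PowerSeries.coeff_map] at h
      simpa using h.symm
    exact_mod_cast h2
  set w : PowerSeries ℤ := PowerSeries.mk fun n => PowerSeries.coeff (n + 1) b with hw
  have hbw : b = PowerSeries.X * w := by
    have := PowerSeries.eq_X_mul_shift_add_const b
    rw [hb0, map_zero, add_zero] at this
    exact this
  refine ⟨dedekindEtaUnitInv * w, ?_, ?_⟩
  · rw [hbw, deltaZ, map_mul, map_mul, PowerSeries.map_X, mul_assoc] at hb
    have h1 := PowerSeries.X_mul_cancel hb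
    have hu : toC dedekindEtaUnitInv * toC dedekindEtaUnit = 1 := by
      rw [← map_mul, mul_comm, dedekindEtaUnit_mul_inv, map_one]
    calc qExpansion 1 g = (toC dedekindEtaUnitInv * toC dedekindEtaUnit) * qExpansion 1 g := by
          rw [hu, one_mul]
      _ = toC dedekindEtaUnitInv * toC w := by rw [mul_assoc, h1]
      _ = toC (dedekindEtaUnitInv * w) := by rw [map_mul]
  · rw [hbw, deltaZ]
    calc PowerSeries.X * w = PowerSeries.X * ((dedekindEtaUnit * dedekindEtaUnitInv) * w) := by
          rw [dedekindEtaUnit_mul_inv, one_mul]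
      _ = PowerSeries.X * dedekindEtaUnit * (dedekindEtaUnitInv * w) := by ring

theorem natCast_1728_ne_zero (l : ℕ) [Fact l.Prime] (h5 : 5 ≤ l) : ((1728 : ℕ) : ZMod l) ≠ 0 := by
  rw [Ne, ZMod.natCast_eq_zero_iff]
  intro hdvd
  have hl : l.Prime := Fact.out
  rw [show (1728 : ℕ) = 2 ^ 6 * 3 ^ 3 by norm_num] at hdvd
  rcases (Nat.Prime.dvd_mul hl).mp hdvd with h | h
  · have := Nat.le_of_dvd (by norm_num) (hl.dvd_of_dvd_pow h)
    omega
  · have := Nat.le_of_dvd (by norm_num) (hl.dvd_of_dvd_pow h)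
    omega

/-- `Δ̄ = (Ē₄³ - Ē₆²) / 1728` is isobaric of half weight `6`. -/
theorem redl_deltaZ_mem (l : ℕ) [Fact l.Prime] (h5 : 5 ≤ l) :
    redl l deltaZ ∈ isoSpan (k := ZMod l) (e4b l) (e6b l) 6 := by
  have h := congrArg (redl l) deltaZ_identity
  rw [map_add, map_mul, map_pow, map_pow] at h
  have h1728 : redl l (1728 : PowerSeries ℤ) = PowerSeries.C ((1728 : ℕ) : ZMod l) := by
    rw [map_ofNat, map_natCast, Nat.cast_ofNat]
  rw [h1728] at h
  have hu := natCast_1728_ne_zero l h5
  have hδ : redl l deltaZ =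
      (((1728 : ℕ) : ZMod l))⁻¹ • (e4b l ^ 3 - e6b l ^ 2) := by
    rw [← h, add_sub_cancel_right, PowerSeries.smul_eq_C_mul, ← mul_assoc, ← map_mul,
      inv_mul_cancel₀ hu, map_one, one_mul]
  rw [hδ]
  exact Submodule.smul_mem _ _ (cube_sub_sq_mem_isoSpan _ _)

/-- **Level one `q`-expansion principle mod `l`.** -/
theorem mem_isoSpan_of_isMF (l : ℕ) [Fact l.Prime] (h5 : 5 ≤ l) (H : ℕ) :
    ∀ {f : ℍ → ℂ}, IsMF 1 (2 * (H : ℤ)) f → ∀ {a : PowerSeries ℤ}, qExpansion 1 f = toC a →
      redl l a ∈ isoSpan (k := ZMod l) (e4b l) (e6b l) H := by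
  induction H using Nat.strong_induction_on with
  | _ H ih =>
    intro f hf a ha
    by_cases hH1 : H = 1
    · subst hH1
      have hf0 : f = 0 := (hf.cast (by norm_num)).eq_zero_of_weight_two
      rw [hf0, qExpansion_zero] at ha
      have ha0 : a = 0 := toC_injective (by rw [← ha, map_zero])
      rw [ha0, map_zero]
      exact Submodule.zero_mem _
    · obtain ⟨i, j, hij⟩ : ∃ i j : ℕ, 2 * i + 3 * j = H := by
        rcases Nat.even_or_odd' H with ⟨s, rfl | rfl⟩
        · exact ⟨s, 0, by omega⟩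
        · exact ⟨s - 1, 1, by omega⟩
      set M : ℍ → ℂ := (⇑E₄ : ℍ → ℂ) ^ i * (⇑E₆ : ℍ → ℂ) ^ j with hM
      set m : PowerSeries ℤ := eisenstein4 ^ i * eisenstein6 ^ j with hm
      have hMF : IsMF 1 (2 * (H : ℤ)) M := by
        have := isMF_monomial i j
        rwa [hij] at this
      have hMq : qExpansion 1 M = toC m := qExpansion_monomial i j
      have hm0 : PowerSeries.constantCoeff m = 1 := by
        rw [hm, map_mul, map_pow, map_pow, constantCoeff_eisenstein4, constantCoeff_eisenstein6,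
          one_pow, one_pow, one_mul]
      set c : ℤ := PowerSeries.constantCoeff a with hc
      set f' : ℍ → ℂ := f - (c : ℂ) • M with hf'
      have hf'MF : IsMF 1 (2 * (H : ℤ)) f' := hf.sub (hMF.smul (c : ℂ))
      have hCm : toC (PowerSeries.C c * m) = PowerSeries.C (c : ℂ) * toC m := by
        rw [map_mul, PowerSeries.map_C, eq_intCast]
      have hf'q : qExpansion 1 f' = toC (a - PowerSeries.C c * m) := by
        rw [hf', UpperHalfPlane.qExpansion_sub (nice_of_isMF hf).analyticAt
          (nice_of_isMF (hMF.smul (c : ℂ))).analyticAt,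
          UpperHalfPlane.qExpansion_smul (nice_of_isMF hMF).analyticAt, ha, hMq, map_sub, hCm,
          PowerSeries.smul_eq_C_mul]
      have h0 : valueAtInfty f' = 0 := by
        rw [hf'MF.valueAtInfty_eq_coeff_zero, hf'q, PowerSeries.coeff_map,
          PowerSeries.coeff_zero_eq_constantCoeff, map_sub, map_mul, PowerSeries.constantCoeff_C,
          hm0, mul_one, ← hc, sub_self]
        simp
      have hcf : IsCF 1 (2 * (H : ℤ)) f' := hf'MF.isCF_of_valueAtInfty_eq_zero h0
      obtain ⟨g, hg, hfg⟩ := hcf.exists_eq_delta_mul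
      obtain ⟨a', ha', hb⟩ := exists_qexp_of_delta_mul hg (by rw [← hfg]; exact hf'q)
      have hmono : redl l (PowerSeries.C c * m) ∈ isoSpan (k := ZMod l) (e4b l) (e6b l) H := by
        rw [map_mul, PowerSeries.map_C, ← PowerSeries.smul_eq_C_mul, hm, map_mul, map_pow,
          map_pow]
        exact Submodule.smul_mem _ _ (monomial_mem_isoSpan _ _ hij)
      have hsplit : redl l a = redl l (PowerSeries.C c * m) + redl l deltaZ * redl l a' := by
        rw [← map_mul, ← map_add, ← hb]
        congr 1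
        ring
      rw [hsplit]
      refine Submodule.add_mem _ hmono ?_
      by_cases hH6 : H < 6
      · have hg0 : g = 0 := IsMF.eq_zero_of_neg (by omega) hg
        rw [hg0, qExpansion_zero] at ha'
        have ha'0 : a' = 0 := toC_injective (by rw [← ha', map_zero])
        rw [ha'0, map_zero, mul_zero]
        exact Submodule.zero_mem _
      · have hH6' : 6 ≤ H := by omega
        have hg' : IsMF 1 (2 * ((H - 6 : ℕ) : ℤ)) g := hg.cast (by push_cast [hH6']; ring)
        have hIH := ih (H - 6) (by omega) hg' ha'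
        have := mul_mem_isoSpan (redl_deltaZ_mem l h5) hIH
        rwa [show 6 + (H - 6) = H by omega] at this

end

end Fermat.Agent.S16.LevelOne.LevelOneRepr
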