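import Mathlib
import Fermat.Agent.S20.LevelOne

set_option autoImplicit false

/-!
# S16 / (C7): the level-one `q`-expansion principle

A level-one modular form `f` of weight `n` with *integral* `q`-expansion `a ∈ ℤ[[q]]` is, after
mapping to any commutative ring `R` in which `1728` is invertible (e.g. `ZMod ℓ`, `ℓ ≥ 5`), an
isobaric polynomial of weight `n` in the images of the `q`-expansions of `E₄`, `E₆`.

The integral `q`-expansions `e4 e6 d` of `E₄`, `E₆`, `Δ` are *parameters* (structure `StdSeries`),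
so that every consumer may use its own favourite definitions of these series.
-/

namespace Fermat.Agent.S16.LevelOne.QExpPrinciple

open UpperHalfPlane ModularForm EisensteinSeries
open scoped MatrixGroups ModularForm Manifold
open Fermat.Agent.S20

noncomputable section

/-- `f` has the integral `q`-expansion `a`. -/
def HasIntQ (f : ℍ → ℂ) (a : PowerSeries ℤ) : Prop :=
  qExpansion 1 f = a.map (Int.castRingHom ℂ)

theorem map_intCast_injective :
    Function.Injective (PowerSeries.map (Int.castRingHom ℂ)) := by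
  intro a b h
  ext n
  have := congrArg (PowerSeries.coeff n) h
  simpa using this

theorem HasIntQ.unique {f : ℍ → ℂ} {a b : PowerSeries ℤ} (ha : HasIntQ f a) (hb : HasIntQ f b) :
    a = b :=
  map_intCast_injective (ha.symm.trans hb)

theorem HasIntQ.congr {f g : ℍ → ℂ} {a : PowerSeries ℤ} (ha : HasIntQ f a) (h : f = g) :
    HasIntQ g a := h ▸ ha

theorem hasIntQ_zero : HasIntQ 0 0 := by
  unfold HasIntQ
  rw [qExpansion_zero, map_zero]

theorem hasIntQ_one : HasIntQ 1 1 := by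
  unfold HasIntQ
  rw [qExpansion_one, map_one]

theorem HasIntQ.mul {k l : ℤ} {f g : ℍ → ℂ} (hf : IsMF 1 k f) (hg : IsMF 1 l g)
    {a b : PowerSeries ℤ} (ha : HasIntQ f a) (hb : HasIntQ g b) : HasIntQ (f * g) (a * b) := by
  unfold HasIntQ at *
  have h := ModularForm.qExpansion_mul_coe one_pos one_mem_strictPeriods_SL hf.toMFOne hg.toMFOne
  rw [IsMF.coe_toMFOne, IsMF.coe_toMFOne] at h
  rw [h, ha, hb, map_mul]

theorem HasIntQ.sub {k l : ℤ} {f g : ℍ → ℂ} (hf : IsMF 1 k f) (hg : IsMF 1 l g)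
    {a b : PowerSeries ℤ} (ha : HasIntQ f a) (hb : HasIntQ g b) : HasIntQ (f - g) (a - b) := by
  unfold HasIntQ at *
  have h := ModularForm.qExpansion_sub one_pos one_mem_strictPeriods_SL hf.toMFOne hg.toMFOne
  rw [IsMF.coe_toMFOne, IsMF.coe_toMFOne] at h
  rw [h, ha, hb, map_sub]

theorem HasIntQ.int_smul {k : ℤ} {f : ℍ → ℂ} (hf : IsMF 1 k f) {a : PowerSeries ℤ}
    (ha : HasIntQ f a) (c : ℤ) : HasIntQ ((c : ℂ) • f) (PowerSeries.C c * a) := by
  unfold HasIntQ at *
  have h := ModularForm.qExpansion_smul one_pos one_mem_strictPeriods_SL (c : ℂ) hf.toMFOne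
  rw [IsMF.coe_toMFOne] at h
  rw [h, ha, map_mul, PowerSeries.map_C]
  ext n
  rw [PowerSeries.coeff_smul, PowerSeries.coeff_C_mul]
  simp

theorem HasIntQ.pow {k : ℤ} {f : ℍ → ℂ} (hf : IsMF 1 k f) {a : PowerSeries ℤ}
    (ha : HasIntQ f a) (n : ℕ) : HasIntQ (f ^ n) (a ^ n) := by
  induction n with
  | zero => rw [pow_zero, pow_zero]; exact hasIntQ_one
  | succ n ih => rw [pow_succ, pow_succ]; exact ih.mul (hf.pow n) hf ha

/-- The integral `q`-expansions of `E₄`, `E₆`, `Δ` (as parameters). -/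
structure StdSeries (e4 e6 d : PowerSeries ℤ) : Prop where
  h4 : HasIntQ (⇑ModularForm.E₄ : ℍ → ℂ) e4
  h6 : HasIntQ (⇑ModularForm.E₆ : ℍ → ℂ) e6
  hd : HasIntQ (⇑CuspForm.discriminant : ℍ → ℂ) d

theorem HasIntQ.coeff {f : ℍ → ℂ} {a : PowerSeries ℤ} (ha : HasIntQ f a) (n : ℕ) :
    (qExpansion 1 f).coeff n = ((a.coeff n : ℤ) : ℂ) := by
  rw [ha]
  simp

namespace StdSeries

variable {e4 e6 d : PowerSeries ℤ} (hS : StdSeries e4 e6 d)

include hS

theorem constantCoeff_e4 : PowerSeries.constantCoeff e4 = 1 := by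
  have h := hS.h4.coeff 0
  rw [E_qExpansion_coeff_zero _ ⟨2, rfl⟩] at h
  rw [← PowerSeries.coeff_zero_eq_constantCoeff_apply]
  exact_mod_cast h.symm

theorem constantCoeff_e6 : PowerSeries.constantCoeff e6 = 1 := by
  have h := hS.h6.coeff 0
  rw [E_qExpansion_coeff_zero _ ⟨3, rfl⟩] at h
  rw [← PowerSeries.coeff_zero_eq_constantCoeff_apply]
  exact_mod_cast h.symm

theorem constantCoeff_d : PowerSeries.constantCoeff d = 0 := by
  have h := hS.hd.coeff 0
  rw [CuspFormClass.qExpansion_coeff_zero CuspForm.discriminant one_pos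
    one_mem_strictPeriods_SL] at h
  rw [← PowerSeries.coeff_zero_eq_constantCoeff_apply]
  exact_mod_cast h.symm

theorem coeff_one_d : PowerSeries.coeff 1 d = 1 := by
  have h := hS.hd.coeff 1
  rw [CuspForm.coe_discriminant, discriminant_qExpansion_coeff_one] at h
  exact_mod_cast h.symm

/-- `1728 Δ = E₄³ - E₆²` for the integral `q`-expansions. -/
theorem relation : PowerSeries.C (1728 : ℤ) * d = e4 ^ 3 - e6 ^ 2 := by
  have h1 : HasIntQ (((1728 : ℤ) : ℂ) • (⇑CuspForm.discriminant : ℍ → ℂ))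
      (PowerSeries.C (1728 : ℤ) * d) := hS.hd.int_smul isCF_delta.isMF 1728
  have h2 : HasIntQ ((⇑ModularForm.E₄ : ℍ → ℂ) ^ 3 - (⇑ModularForm.E₆ : ℍ → ℂ) ^ 2)
      (e4 ^ 3 - e6 ^ 2) :=
    (hS.h4.pow isMF_E4 3).sub (isMF_E4.pow 3) (isMF_E6.pow 2) (hS.h6.pow isMF_E6 2)
  refine h1.unique (h2.congr ?_)
  rw [delta_eq]
  funext z
  simp only [Pi.sub_apply, Pi.pow_apply, Pi.smul_apply, smul_eq_mul]
  push_cast
  ring

/-- `Δ = q · (unit)` in `ℤ[[q]]`. -/
theorem exists_unit : ∃ u v : PowerSeries ℤ, d = PowerSeries.X * u ∧ u * v = 1 := by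
  obtain ⟨u, hu⟩ := PowerSeries.X_dvd_iff.mpr hS.constantCoeff_d
  have h1 : PowerSeries.constantCoeff u = 1 := by
    have h := hS.coeff_one_d
    rw [hu, show (1 : ℕ) = 0 + 1 from rfl, PowerSeries.coeff_succ_X_mul,
      PowerSeries.coeff_zero_eq_constantCoeff_apply] at h
    exact h
  have hunit : IsUnit u := by
    rw [PowerSeries.isUnit_iff_constantCoeff, h1]
    exact isUnit_one
  obtain ⟨v, hv⟩ := hunit.exists_right_inv
  exact ⟨u, v, hu, hv⟩

/-- Division by `Δ` preserves integrality of the `q`-expansion. -/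
theorem exists_div_delta {k : ℤ} {f : ℍ → ℂ} (hf : IsMF 1 k f) {a : PowerSeries ℤ}
    (ha : HasIntQ f a) (h0 : PowerSeries.constantCoeff a = 0) :
    ∃ (g : ℍ → ℂ) (a' : PowerSeries ℤ), IsMF 1 (k - 12) g ∧ HasIntQ g a' ∧
      f = (⇑CuspForm.discriminant : ℍ → ℂ) * g ∧ a = d * a' := by
  have hval : valueAtInfty f = 0 := by
    rw [hf.valueAtInfty_eq_coeff_zero, ha.coeff 0, PowerSeries.coeff_zero_eq_constantCoeff_apply,
      h0]
    simp
  obtain ⟨g, hg, hfg⟩ := (hf.isCF_of_valueAtInfty_eq_zero hval).exists_eq_delta_mul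
  obtain ⟨u, v, hdu, huv⟩ := hS.exists_unit
  obtain ⟨a1, ha1⟩ := PowerSeries.X_dvd_iff.mpr h0
  have hq : qExpansion 1 f = qExpansion 1 (⇑CuspForm.discriminant : ℍ → ℂ) * qExpansion 1 g := by
    have h := ModularForm.qExpansion_mul_coe one_pos one_mem_strictPeriods_SL
      CuspForm.discriminant hg.toMFOne
    rw [IsMF.coe_toMFOne] at h
    rw [hfg]
    exact h
  have hG : qExpansion 1 g = (v * a1).map (Int.castRingHom ℂ) := by
    have h1 : (PowerSeries.X : PowerSeries ℂ) * a1.map (Int.castRingHom ℂ) =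
        PowerSeries.X * (u.map (Int.castRingHom ℂ) * qExpansion 1 g) := by
      have := hq
      rw [ha, hS.hd, ha1, hdu, map_mul, map_mul, PowerSeries.map_X] at this
      rw [this]
      ring
    have h2 := mul_left_cancel₀ PowerSeries.X_ne_zero h1
    have h3 : v.map (Int.castRingHom ℂ) * u.map (Int.castRingHom ℂ) = 1 := by
      rw [← map_mul, mul_comm, huv, map_one]
    rw [map_mul, h2, ← mul_assoc, h3, one_mul]
  refine ⟨g, v * a1, hg, hG, hfg, ?_⟩
  rw [ha1, hdu]
  calc PowerSeries.X * a1 = PowerSeries.X * ((u * v) * a1) := by rw [huv, one_mul]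
    _ = PowerSeries.X * u * (v * a1) := by ring

end StdSeries

section Main

open MvPolynomial

variable {R : Type*} [CommRing R]

theorem IsWeightedHomogeneous.cast' {σ M : Type*} [AddCommMonoid M] {w : σ → M}
    {P : MvPolynomial σ R} {m m' : M} (h : IsWeightedHomogeneous w P m) (hm : m = m') :
    IsWeightedHomogeneous w P m' := hm ▸ h

theorem isWH_monomial (r : R) (i j : ℕ) :
    IsWeightedHomogeneous (![4, 6] : Fin 2 → ℕ)
      (C r * X 0 ^ i * X 1 ^ j : MvPolynomial (Fin 2) R) (4 * i + 6 * j) := by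
  have h0 := (isWeightedHomogeneous_X (R := R) (![4, 6] : Fin 2 → ℕ) 0).pow i
  have h1 := (isWeightedHomogeneous_X (R := R) (![4, 6] : Fin 2 → ℕ) 1).pow j
  have h := ((isWeightedHomogeneous_C (![4, 6] : Fin 2 → ℕ) r).mul h0).mul h1
  refine IsWeightedHomogeneous.cast' h ?_
  simp [mul_comm]

theorem isWH_delta :
    IsWeightedHomogeneous (![4, 6] : Fin 2 → ℕ)
      (X 0 ^ 3 - X 1 ^ 2 : MvPolynomial (Fin 2) R) 12 := by
  have h0 := (isWeightedHomogeneous_X (R := R) (![4, 6] : Fin 2 → ℕ) 0).pow 3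
  have h1 := (isWeightedHomogeneous_X (R := R) (![4, 6] : Fin 2 → ℕ) 1).pow 2
  exact (IsWeightedHomogeneous.cast' h0 (by simp)).sub (IsWeightedHomogeneous.cast' h1 (by simp))

/-- **The level-one `q`-expansion principle.** -/
theorem exists_repr_aux {e4 e6 d : PowerSeries ℤ} (hS : StdSeries e4 e6 d)
    (hu : IsUnit ((1728 : ℤ) : R)) :
    ∀ (n : ℕ) (f : ℍ → ℂ), IsMF 1 (n : ℤ) f → ∀ a : PowerSeries ℤ, HasIntQ f a →
      ∃ P : MvPolynomial (Fin 2) R, IsWeightedHomogeneous (![4, 6] : Fin 2 → ℕ) P n ∧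
        a.map (Int.castRingHom R) =
          aeval ![e4.map (Int.castRingHom R), e6.map (Int.castRingHom R)] P := by
  intro n
  induction n using Nat.strong_induction_on with
  | _ n ih =>
  intro f hf a ha
  have hzero : f = 0 → ∃ P : MvPolynomial (Fin 2) R,
      IsWeightedHomogeneous (![4, 6] : Fin 2 → ℕ) P n ∧
        a.map (Int.castRingHom R) =
          aeval ![e4.map (Int.castRingHom R), e6.map (Int.castRingHom R)] P := by
    intro h0
    have ha0 : a = 0 := (ha.congr h0).unique hasIntQ_zero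
    exact ⟨0, isWeightedHomogeneous_zero _ _ _, by rw [ha0]; simp⟩
  rcases Nat.even_or_odd n with hev | hodd
  swap
  · exact hzero (hf.eq_zero_of_odd (by exact_mod_cast hodd))
  by_cases h2 : n = 2
  · subst h2
    exact hzero (IsMF.eq_zero_of_weight_two (by exact_mod_cast hf))
  have hev' : Even (n : ℤ) := by exact_mod_cast hev
  have hn04 : (n : ℤ) = 0 ∨ 4 ≤ (n : ℤ) := by
    obtain ⟨m, hm⟩ := hev
    omega
  obtain ⟨i, j, hij⟩ := exists_nat_of_even hev' hn04
  have hij' : n = 4 * i + 6 * j := by exact_mod_cast hij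
  have hA0 : IsMF 1 (n : ℤ)
      ((⇑ModularForm.E₄ : ℍ → ℂ) ^ i * (⇑ModularForm.E₆ : ℍ → ℂ) ^ j) :=
    ((isMF_E4.pow i).mul (isMF_E6.pow j)).cast (by rw [hij]; ring)
  have hA0q : HasIntQ ((⇑ModularForm.E₄ : ℍ → ℂ) ^ i * (⇑ModularForm.E₆ : ℍ → ℂ) ^ j)
      (e4 ^ i * e6 ^ j) :=
    (hS.h4.pow isMF_E4 i).mul (isMF_E4.pow i) (isMF_E6.pow j) (hS.h6.pow isMF_E6 j)
  set c : ℤ := PowerSeries.constantCoeff a with hc
  have hf1 : IsMF 1 (n : ℤ)
      (f - (c : ℂ) • ((⇑ModularForm.E₄ : ℍ → ℂ) ^ i * (⇑ModularForm.E₆ : ℍ → ℂ) ^ j)) :=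
    hf.sub (hA0.smul _)
  have hf1q : HasIntQ
      (f - (c : ℂ) • ((⇑ModularForm.E₄ : ℍ → ℂ) ^ i * (⇑ModularForm.E₆ : ℍ → ℂ) ^ j))
      (a - PowerSeries.C c * (e4 ^ i * e6 ^ j)) :=
    ha.sub hf (hA0.smul _) (hA0q.int_smul hA0 c)
  have h0 : PowerSeries.constantCoeff (a - PowerSeries.C c * (e4 ^ i * e6 ^ j)) = 0 := by
    simp [hS.constantCoeff_e4, hS.constantCoeff_e6, hc]
  obtain ⟨g, a', hg, hgq, -, haa'⟩ := hS.exists_div_delta hf1 hf1q h0
  -- the polynomial for `d * a'`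
  have key : ∃ P2 : MvPolynomial (Fin 2) R,
      IsWeightedHomogeneous (![4, 6] : Fin 2 → ℕ) P2 n ∧
        (d * a').map (Int.castRingHom R) =
          aeval ![e4.map (Int.castRingHom R), e6.map (Int.castRingHom R)] P2 := by
    by_cases h12 : n < 12
    · have hg0 : g = 0 := IsMF.eq_zero_of_neg (by omega) hg
      have ha'0 : a' = 0 := (hgq.congr hg0).unique hasIntQ_zero
      exact ⟨0, isWeightedHomogeneous_zero _ _ _, by rw [ha'0]; simp⟩
    · have h12' : 12 ≤ n := not_lt.mp h12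
      obtain ⟨P', hP'w, hP'⟩ := ih (n - 12) (by omega) g
        (hg.cast (by rw [Nat.cast_sub h12']; rfl)) a' hgq
      refine ⟨C (↑hu.unit⁻¹ : R) * (X 0 ^ 3 - X 1 ^ 2) * P', ?_, ?_⟩
      · have h := ((isWeightedHomogeneous_C (![4, 6] : Fin 2 → ℕ) (↑hu.unit⁻¹ : R)).mul
          (isWH_delta (R := R))).mul hP'w
        exact IsWeightedHomogeneous.cast' h (by omega)
      · have hrel := congrArg (PowerSeries.map (Int.castRingHom R)) hS.relation
        rw [map_mul, PowerSeries.map_C, map_sub, map_pow, map_pow] at hrel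
        have hd' : d.map (Int.castRingHom R) =
            PowerSeries.C (↑hu.unit⁻¹ : R) * ((e4.map (Int.castRingHom R)) ^ 3 -
              (e6.map (Int.castRingHom R)) ^ 2) := by
          rw [← hrel, ← mul_assoc, ← map_mul]
          have : (↑hu.unit⁻¹ : R) * (Int.castRingHom R) 1728 = 1 := by
            rw [eq_intCast]
            exact hu.val_inv_mul
          rw [this, map_one, one_mul]
        rw [map_mul, hd', hP']
        simp only [map_mul, map_sub, map_pow, aeval_X, aeval_C, Matrix.cons_val_zero,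
          Matrix.cons_val_one]
        rfl
  obtain ⟨P2, hP2w, hP2⟩ := key
  refine ⟨C ((Int.castRingHom R) c) * X 0 ^ i * X 1 ^ j + P2, ?_, ?_⟩
  · exact (IsWeightedHomogeneous.cast' (isWH_monomial _ i j) hij'.symm).add hP2w
  · have hsplit : a = PowerSeries.C c * (e4 ^ i * e6 ^ j) + d * a' := by
      rw [← haa']; ring
    rw [map_add, ← hP2]
    conv_lhs => rw [hsplit]
    rw [map_add]
    congr 1
    simp only [map_mul, map_pow, aeval_X, aeval_C, Matrix.cons_val_zero, Matrix.cons_val_one,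
      PowerSeries.map_C]
    rw [mul_assoc]
    rfl

/-- **The level-one `q`-expansion principle** (`R` any commutative ring in which `1728` is
invertible): a level-one form of weight `n` with integral `q`-expansion `a` is, over `R`, an
isobaric polynomial of weight `n` in `E₄`, `E₆`. -/
theorem exists_repr {e4 e6 d : PowerSeries ℤ} (hS : StdSeries e4 e6 d)
    (hu : IsUnit ((1728 : ℤ) : R)) {n : ℕ} {f : ℍ → ℂ} (hf : IsMF 1 (n : ℤ) f)
    {a : PowerSeries ℤ} (ha : HasIntQ f a) :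
    ∃ P : MvPolynomial (Fin 2) R, IsWeightedHomogeneous (![4, 6] : Fin 2 → ℕ) P n ∧
      a.map (Int.castRingHom R) =
        aeval ![e4.map (Int.castRingHom R), e6.map (Int.castRingHom R)] P :=
  exists_repr_aux hS hu n f hf a ha

/-- An isobaric polynomial of weight `2 H`, evaluated at `(x, y)`, lies in the span of the
monomials `x ^ i * y ^ j`, `2 i + 3 j = H` (the shape `KappaAlg.isoSpan`). -/
theorem aeval_mem_span {A : Type*} [CommRing A] [Algebra R A] (x y : A)
    {P : MvPolynomial (Fin 2) R} {H : ℕ}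
    (hP : IsWeightedHomogeneous (![4, 6] : Fin 2 → ℕ) P (2 * H)) :
    aeval ![x, y] P ∈
      Submodule.span R {z : A | ∃ i j : ℕ, 2 * i + 3 * j = H ∧ z = x ^ i * y ^ j} := by
  rw [P.as_sum, map_sum]
  refine Submodule.sum_mem _ fun dd hdd => ?_
  have hcoeff : coeff dd P ≠ 0 := mem_support_iff.mp hdd
  have hw : Finsupp.weight (![4, 6] : Fin 2 → ℕ) dd = 2 * H := hP hcoeff
  rw [Finsupp.weight_apply, Finsupp.sum_fintype _ _ (fun i => by simp), Fin.sum_univ_two] at hw
  simp only [Matrix.cons_val_zero, Matrix.cons_val_one, smul_eq_mul] at hw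
  rw [aeval_monomial, Finsupp.prod_fintype _ _ (fun i => by simp), Fin.prod_univ_two,
    ← Algebra.smul_def]
  simp only [Matrix.cons_val_zero, Matrix.cons_val_one]
  refine Submodule.smul_mem _ _ (Submodule.subset_span ⟨dd 0, dd 1, by omega, rfl⟩)

/-- **Span form of the `q`-expansion principle** (weight `2 H`). -/
theorem mem_span_of_isMF {e4 e6 d : PowerSeries ℤ} (hS : StdSeries e4 e6 d)
    (hu : IsUnit ((1728 : ℤ) : R)) {H : ℕ} {f : ℍ → ℂ} (hf : IsMF 1 ((2 * H : ℕ) : ℤ) f)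
    {a : PowerSeries ℤ} (ha : HasIntQ f a) :
    a.map (Int.castRingHom R) ∈
      Submodule.span R {z : PowerSeries R | ∃ i j : ℕ, 2 * i + 3 * j = H ∧
        z = (e4.map (Int.castRingHom R)) ^ i * (e6.map (Int.castRingHom R)) ^ j} := by
  obtain ⟨P, hP, h⟩ := exists_repr (R := R) hS hu hf ha
  rw [h]
  exact aeval_mem_span _ _ hP

/-- the same with the weight written `2 * (H : ℤ)`; the conclusion is (definitionally)
`a.map _ ∈ KappaAlg.isoSpan (e4.map _) (e6.map _) H`. -/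
theorem mem_span_of_isMF' {e4 e6 d : PowerSeries ℤ} (hS : StdSeries e4 e6 d)
    (hu : IsUnit ((1728 : ℤ) : R)) {H : ℕ} {f : ℍ → ℂ} (hf : IsMF 1 (2 * (H : ℤ)) f)
    {a : PowerSeries ℤ} (ha : HasIntQ f a) :
    a.map (Int.castRingHom R) ∈
      Submodule.span R {z : PowerSeries R | ∃ i j : ℕ, 2 * i + 3 * j = H ∧
        z = (e4.map (Int.castRingHom R)) ^ i * (e6.map (Int.castRingHom R)) ^ j} :=
  mem_span_of_isMF hS hu (hf.cast (by push_cast; ring)) ha

/-- level-one forms of odd weight with integral `q`-expansion have `q`-expansion `0`. -/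
theorem eq_zero_of_odd {n : ℕ} (hn : Odd n) {f : ℍ → ℂ} (hf : IsMF 1 (n : ℤ) f)
    {a : PowerSeries ℤ} (ha : HasIntQ f a) : a = 0 :=
  (ha.congr (hf.eq_zero_of_odd (by exact_mod_cast hn))).unique hasIntQ_zero

/-- `1728` is a unit of `ZMod ℓ` for a prime `ℓ ≥ 5`. -/
theorem isUnit_1728 (ℓ : ℕ) [hℓ : Fact ℓ.Prime] (h5 : 5 ≤ ℓ) :
    IsUnit ((1728 : ℤ) : ZMod ℓ) := by
  rw [isUnit_iff_ne_zero]
  intro h0
  rw [ZMod.intCast_zmod_eq_zero_iff_dvd] at h0
  have h1 : ℓ ∣ 2 ^ 6 * 3 ^ 3 := by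
    have : ((ℓ : ℕ) : ℤ) ∣ ((2 ^ 6 * 3 ^ 3 : ℕ) : ℤ) := by
      norm_num
      exact h0
    exact Int.natCast_dvd_natCast.mp this
  rcases (Nat.Prime.dvd_mul hℓ.out).mp h1 with h | h
  · have := Nat.le_of_dvd (by norm_num) (hℓ.out.dvd_of_dvd_pow h)
    omega
  · have := Nat.le_of_dvd (by norm_num) (hℓ.out.dvd_of_dvd_pow h)
    omega

end Main

end

end Fermat.Agent.S16.LevelOne.QExpPrinciple
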