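import Mathlib

/-
S16 (C), level-one package: the pure-algebra core of Swinnerton-Dyer's theorem on
modular forms mod `ℓ` (helper24).  `k` a field of characteristic `ℓ`, `k[Q,R] =
MvPolynomial (Fin 2) k` with weights `wt = ![4, 6]`, `serreD` the derivation
`∂Q = -4R`, `∂R = -6Q²`.  Main results: `irreducible_sub_one`, `ker_eq_span`, `weight_congr`.
-/

namespace Fermat.Agent.S16.LevelOne.SwDAlg

section Eisenstein

variable {S : Type*} [CommRing S] [IsDomain S]

open Polynomial in
/-- Reversed Eisenstein criterion for `A * X ^ w - 1`. -/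
theorem irreducible_C_mul_X_pow_sub_one {𝔭 : Ideal S} (h𝔭 : 𝔭.IsPrime) {A : S}
    (hA : A ∈ 𝔭) (hA2 : A ∉ 𝔭 ^ 2) {w : ℕ} (hw : 1 ≤ w) :
    Irreducible (C A * X ^ w - 1 : S[X]) := by
  have hA0 : A ≠ 0 := by
    rintro rfl
    exact hA2 (Ideal.zero_mem _)
  set G0 : S[X] := C A * X ^ w - 1 with hG0
  have hG0c0 : G0.coeff 0 = -1 := by
    simp [hG0, Polynomial.coeff_X_pow, Nat.ne_of_lt (Nat.lt_of_lt_of_le Nat.zero_lt_one hw)]
  have hG0deg : G0.natDegree = w := by
    rw [hG0, Polynomial.natDegree_sub_eq_left_of_natDegree_lt]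
    · exact Polynomial.natDegree_C_mul_X_pow w A hA0
    · rw [Polynomial.natDegree_one, Polynomial.natDegree_C_mul_X_pow w A hA0]
      exact hw
  have hG0lc : G0.leadingCoeff = A := by
    rw [Polynomial.leadingCoeff, hG0deg, hG0]
    simp [Polynomial.coeff_one, Nat.ne_of_gt (Nat.lt_of_lt_of_le Nat.zero_lt_one hw)]
  have hG00 : G0 ≠ 0 := by
    intro h
    rw [h] at hG0c0
    simp at hG0c0
  -- the reduction mod 𝔭 of G0 is -1
  have hG0map : G0.map (Ideal.Quotient.mk 𝔭) = -1 := by
    rw [hG0]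
    simp [Ideal.Quotient.eq_zero_iff_mem.mpr hA]
  -- key: a factor of positive degree has leading coefficient in 𝔭
  have key : ∀ F G : S[X], F * G = G0 → 1 ≤ F.natDegree → F.leadingCoeff ∈ 𝔭 := by
    intro F G hFG hF
    have h1 : (F.map (Ideal.Quotient.mk 𝔭)) * (G.map (Ideal.Quotient.mk 𝔭)) = -1 := by
      rw [← Polynomial.map_mul, hFG, hG0map]
    have hu : IsUnit (F.map (Ideal.Quotient.mk 𝔭)) := by
      refine IsUnit.of_mul_eq_one (-(G.map (Ideal.Quotient.mk 𝔭))) ?_
      rw [mul_neg, h1, neg_neg]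
    have hd : (F.map (Ideal.Quotient.mk 𝔭)).natDegree = 0 := Polynomial.natDegree_eq_zero_of_isUnit hu
    have : (F.map (Ideal.Quotient.mk 𝔭)).coeff F.natDegree = 0 := by
      apply Polynomial.coeff_eq_zero_of_natDegree_lt
      omega
    rw [Polynomial.coeff_map] at this
    exact Ideal.Quotient.eq_zero_iff_mem.mp this
  have unit_of_deg0 : ∀ F G : S[X], F * G = G0 → F.natDegree = 0 → IsUnit F := by
    intro F G hFG hF
    obtain ⟨c, rfl⟩ := Polynomial.natDegree_eq_zero.mp hF
    have := congrArg (fun p => Polynomial.coeff p 0) hFG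
    simp only [Polynomial.coeff_C_mul, hG0c0] at this
    refine Polynomial.isUnit_C.mpr ?_
    exact IsUnit.of_mul_eq_one (-(G.coeff 0)) (by rw [mul_neg, this, neg_neg])
  refine ⟨?_, ?_⟩
  · intro hu
    have := Polynomial.natDegree_eq_zero_of_isUnit hu
    omega
  · intro F G hFG
    by_cases hF : F.natDegree = 0
    · exact Or.inl (unit_of_deg0 F G hFG.symm hF)
    by_cases hG : G.natDegree = 0
    · exact Or.inr (unit_of_deg0 G F (by rw [mul_comm]; exact hFG.symm) hG)
    exfalso
    apply hA2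
    have h1 := key F G hFG.symm (by omega)
    have h2 := key G F (by rw [mul_comm]; exact hFG.symm) (by omega)
    have : A = F.leadingCoeff * G.leadingCoeff := by
      rw [← Polynomial.leadingCoeff_mul, ← hFG, hG0lc]
    rw [this, pow_two]
    exact Ideal.mul_mem_mul h1 h2

end Eisenstein

open MvPolynomial

section Wsub

variable {ι : Type*} {R : Type*} [CommRing R]

/-- The weight substitution `X i ↦ X i * λ ^ w i`, as an algebra map into polynomials in `λ`. -/
noncomputable def wsub (w : ι → ℕ) :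
    MvPolynomial ι R →ₐ[R] Polynomial (MvPolynomial ι R) :=
  aeval (fun i => Polynomial.C (X i) * Polynomial.X ^ w i)

theorem wsub_X (w : ι → ℕ) (i : ι) :
    wsub (R := R) w (X i) = Polynomial.C (X i) * Polynomial.X ^ w i := by
  simp [wsub]

theorem wsub_C (w : ι → ℕ) (r : R) :
    wsub (R := R) w (C r) = Polynomial.C (C r) := by
  simp [wsub]

theorem wsub_monomial (w : ι → ℕ) (d : ι →₀ ℕ) (r : R) :
    wsub w (monomial d r) = Polynomial.C (monomial d r) * Polynomial.X ^ (Finsupp.weight w d) := by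
  rw [wsub, aeval_monomial, Finsupp.weight_apply, monomial_eq, Finsupp.prod, Finsupp.prod,
    Finsupp.sum, map_mul, map_prod]
  simp only [mul_pow, Finset.prod_mul_distrib, ← pow_mul, Finset.prod_pow_eq_pow_sum, map_pow,
    smul_eq_mul]
  rw [mul_assoc]
  congr 3
  apply Finset.sum_congr rfl
  intro i _
  ring

theorem wsub_of_isWeightedHomogeneous {w : ι → ℕ} {f : MvPolynomial ι R} {n : ℕ}
    (hf : IsWeightedHomogeneous w f n) :
    wsub w f = Polynomial.C f * Polynomial.X ^ n := by
  conv_lhs => rw [f.as_sum]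
  rw [map_sum]
  have : ∀ d ∈ f.support, wsub w (monomial d (coeff d f)) =
      Polynomial.C (monomial d (coeff d f)) * Polynomial.X ^ n := by
    intro d hd
    rw [wsub_monomial, hf (mem_support_iff.mp hd)]
  rw [Finset.sum_congr rfl this, ← Finset.sum_mul, ← map_sum, ← f.as_sum]

theorem eval_one_wsub (w : ι → ℕ) (f : MvPolynomial ι R) :
    (wsub w f).eval 1 = f := by
  induction f using MvPolynomial.induction_on with
  | C a => simp
  | add p q hp hq => simp [hp, hq]
  | mul_X p i hp => simp [hp, wsub_X]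

theorem coeff_wsub (w : ι → ℕ) (f : MvPolynomial ι R) (j : ℕ) :
    (wsub w f).coeff j = weightedHomogeneousComponent w j f := by
  classical
  conv_lhs => rw [f.as_sum]
  rw [map_sum, Polynomial.finsetSum_coeff, weightedHomogeneousComponent_apply,
    Finset.sum_filter]
  apply Finset.sum_congr rfl
  intro d _
  rw [wsub_monomial, Polynomial.coeff_C_mul_X_pow]
  simp only [eq_comm]

theorem isWeightedHomogeneous_of_wsub {w : ι → ℕ} {f : MvPolynomial ι R} {n : ℕ}
    (hf : wsub w f = Polynomial.C f * Polynomial.X ^ n) :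
    IsWeightedHomogeneous w f n := by
  have h := coeff_wsub w f n
  rw [hf, Polynomial.coeff_C_mul_X_pow, if_pos rfl] at h
  rw [h]
  exact weightedHomogeneousComponent_isWeightedHomogeneous n f

end Wsub

section Irred

variable {ι : Type*} {R : Type*} [CommRing R] [IsDomain R]

/-- If a weighted homogeneous polynomial `A` of positive weight has a prime factor of multiplicity
exactly one, then `A - 1` is irreducible. -/
theorem irreducible_sub_one_of_prime {w : ι → ℕ} {A : MvPolynomial ι R} {n : ℕ} (hn : 1 ≤ n)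
    (hA : IsWeightedHomogeneous w A n) {p : MvPolynomial ι R} (hp : Prime p) (hpA : p ∣ A)
    (hpA2 : ¬ p ^ 2 ∣ A) : Irreducible (A - 1) := by
  have h𝔭 : (Ideal.span {p}).IsPrime := (Ideal.span_singleton_prime hp.ne_zero).mpr hp
  have hirr : Irreducible (Polynomial.C A * Polynomial.X ^ n - 1 :
      Polynomial (MvPolynomial ι R)) := by
    apply irreducible_C_mul_X_pow_sub_one h𝔭 _ _ hn
    · exact Ideal.mem_span_singleton.mpr hpA
    · rw [Ideal.span_singleton_pow, Ideal.mem_span_singleton]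
      exact hpA2
  have hsub : wsub w (A - 1) = Polynomial.C A * Polynomial.X ^ n - 1 := by
    rw [map_sub, map_one, wsub_of_isWeightedHomogeneous hA]
  have hunit : ∀ f : MvPolynomial ι R, IsUnit (wsub w f) → IsUnit f := by
    intro f hf
    have := hf.map (Polynomial.evalRingHom (1 : MvPolynomial ι R))
    simpa [eval_one_wsub] using this
  refine ⟨?_, ?_⟩
  · intro hu
    apply hirr.not_isUnit
    rw [← hsub]
    exact hu.map (wsub w)
  · intro f g hfg
    have : wsub w f * wsub w g = Polynomial.C A * Polynomial.X ^ n - 1 := by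
      rw [← map_mul, ← hfg, hsub]
    rcases hirr.isUnit_or_isUnit this.symm with h | h
    · exact Or.inl (hunit f h)
    · exact Or.inr (hunit g h)

end Irred

section DerivHomog

variable {ι : Type*} {R : Type*} [CommRing R]

theorem mkDerivation_isWeightedHomogeneous {w : ι → ℕ} {f : ι → MvPolynomial ι R} {c : ℕ}
    (hf : ∀ i, IsWeightedHomogeneous w (f i) (w i + c)) {p : MvPolynomial ι R} {n : ℕ}
    (hp : IsWeightedHomogeneous w p n) :
    IsWeightedHomogeneous w (mkDerivation R f p) (n + c) := by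
  classical
  induction hp using IsWeightedHomogeneous.induction_on with
  | zero => simpa using isWeightedHomogeneous_zero R w (n + c)
  | add p q hp hq ihp ihq => simpa using ihp.add ihq
  | monomial d r hd =>
    rw [mkDerivation_monomial, Finsupp.sum, ← mem_weightedHomogeneousSubmodule]
    apply Submodule.smul_mem
    apply Submodule.sum_mem
    intro i hi
    rw [mem_weightedHomogeneousSubmodule, smul_eq_mul]
    have hdi : 1 ≤ d i := Nat.one_le_iff_ne_zero.mpr (Finsupp.mem_support_iff.mp hi)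
    have hsplit : d = (d - Finsupp.single i 1) + Finsupp.single i 1 := by
      ext j
      by_cases hj : j = i
      · subst hj; simp; omega
      · simp [Ne.symm hj]
    have hw : Finsupp.weight w (d - Finsupp.single i 1) + w i = n := by
      conv_rhs => rw [← hd, hsplit]
      rw [map_add, Finsupp.weight_single]
      simp
    have := (isWeightedHomogeneous_monomial w (d - Finsupp.single i 1) ((d i : R)) rfl).mul (hf i)
    convert this using 1
    omega

end DerivHomog

section UFDDeriv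

variable {ι : Type*} {k : Type*} [Field k]

theorem dvd_deriv_of_forall_prime
    (D : Derivation k (MvPolynomial ι k) (MvPolynomial ι k)) (f : MvPolynomial ι k)
    (h : ∀ p, Prime p → p ∣ f → p ∣ D p) : f ∣ D f := by
  induction f using UniqueFactorizationMonoid.induction_on_prime with
  | h₁ => simp
  | h₂ x hx => exact hx.dvd
  | h₃ a p ha hp ih =>
    have h1 : a ∣ D a := ih (fun q hq hqa => h q hq (Dvd.dvd.mul_left hqa p))
    have h2 : p ∣ D p := h p hp (Dvd.intro a rfl)
    rw [D.leibniz, smul_eq_mul, smul_eq_mul]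
    exact dvd_add (mul_dvd_mul_left p h1) (by rw [mul_comm p a]; exact mul_dvd_mul_left a h2)

theorem deriv_pow_mul (D : Derivation k (MvPolynomial ι k) (MvPolynomial ι k))
    {p : MvPolynomial ι k} (hp : Prime p) (hDp : ¬ p ∣ D p) {e : ℕ} (he : (e : k) ≠ 0)
    {u : MvPolynomial ι k} (hu : ¬ p ∣ u) :
    ∃ v, D (p ^ e * u) = p ^ (e - 1) * v ∧ ¬ p ∣ v := by
  have he1 : 1 ≤ e := by
    rcases Nat.eq_zero_or_pos e with h | h
    · subst h; simp at he
    · exact h
  refine ⟨p * D u + C (e : k) * (u * D p), ?_, ?_⟩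
  · rw [D.leibniz, D.leibniz_pow, smul_eq_mul, smul_eq_mul, smul_eq_mul]
    have : (e • (p ^ (e - 1) * D p) : MvPolynomial ι k) = C (e : k) * (p ^ (e - 1) * D p) := by
      rw [nsmul_eq_mul]; simp
    rw [this]
    obtain ⟨e', rfl⟩ : ∃ e', e = e' + 1 := ⟨e - 1, by omega⟩
    simp only [Nat.add_sub_cancel]
    ring
  · intro hv
    have h1 : p ∣ C (e : k) * (u * D p) := by
      have := dvd_sub hv (Dvd.intro (D u) rfl)
      simpa using this
    rcases hp.dvd_or_dvd h1 with h | h
    · have hunit : IsUnit (C (e : k) : MvPolynomial ι k) := (isUnit_iff_ne_zero.mpr he).map C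
      exact hp.not_isUnit (isUnit_of_dvd_unit h hunit)
    · rcases hp.dvd_or_dvd h with h | h
      · exact hu h
      · exact hDp h

theorem totalDegree_pow_eq (p : MvPolynomial ι k) (hp : p ≠ 0) (a : ℕ) :
    (p ^ a).totalDegree = a * p.totalDegree := by
  induction a with
  | zero => simp
  | succ a ih =>
    rw [pow_succ, totalDegree_mul_of_isDomain (pow_ne_zero a hp) hp, ih]
    ring

end UFDDeriv

section SerreD

variable {k : Type*} [Field k]

/-- The weights of `Q = E₄` and `R = E₆`. -/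
def wt : Fin 2 → ℕ := ![4, 6]

theorem weight_wt (d : Fin 2 →₀ ℕ) : Finsupp.weight wt d = 4 * d 0 + 6 * d 1 := by
  rw [Finsupp.weight_apply, Finsupp.sum_fintype _ _ (by simp)]
  simp [wt, Fin.sum_univ_two, mul_comm]

/-- The Serre derivation on `k[Q,R]`: `∂Q = -4R`, `∂R = -6Q²`. -/
noncomputable def serreD (k : Type*) [CommRing k] :
    Derivation k (MvPolynomial (Fin 2) k) (MvPolynomial (Fin 2) k) :=
  mkDerivation k ![C (-4) * X 1, C (-6) * X 0 ^ 2]

theorem serreD_X0 : serreD k (X 0) = C (-4) * X 1 := by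
  simp [serreD, mkDerivation_X]

theorem serreD_X1 : serreD k (X 1) = C (-6) * X 0 ^ 2 := by
  simp [serreD, mkDerivation_X]

theorem serreD_isWeightedHomogeneous {f : MvPolynomial (Fin 2) k} {n : ℕ}
    (hf : IsWeightedHomogeneous wt f n) : IsWeightedHomogeneous wt (serreD k f) (n + 2) := by
  apply mkDerivation_isWeightedHomogeneous _ hf
  intro i
  fin_cases i
  · exact (isWeightedHomogeneous_X k wt 1).C_mul (-4)
  · exact ((isWeightedHomogeneous_X k wt 0).pow 2).C_mul (-6)

theorem eq_zero_of_weight_two {h : MvPolynomial (Fin 2) k}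
    (hh : IsWeightedHomogeneous wt h 2) : h = 0 := by
  ext d
  by_contra hd
  have := hh hd
  rw [weight_wt] at this
  omega

/-- If `a ≠ 0` is w.h. of weight `m` and `a * g` is w.h. of weight `m + j`,
then `g` is w.h. of weight `j`. -/
theorem isWeightedHomogeneous_of_mul {ι : Type*} {w : ι → ℕ} {a g : MvPolynomial ι k} {m j : ℕ}
    (ha : IsWeightedHomogeneous w a m) (ha0 : a ≠ 0)
    (hag : IsWeightedHomogeneous w (a * g) (m + j)) : IsWeightedHomogeneous w g j := by
  apply isWeightedHomogeneous_of_wsub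
  have h1 := wsub_of_isWeightedHomogeneous hag
  rw [map_mul, wsub_of_isWeightedHomogeneous ha] at h1
  have h2 : Polynomial.C a * Polynomial.X ^ m * (wsub w g - Polynomial.C g * Polynomial.X ^ j)
      = 0 := by
    rw [mul_sub, h1, map_mul, pow_add]
    ring
  have h3 : Polynomial.C a * Polynomial.X ^ m ≠ (0 : Polynomial (MvPolynomial ι k)) :=
    mul_ne_zero (Polynomial.C_ne_zero.mpr ha0) (pow_ne_zero _ Polynomial.X_ne_zero)
  exact sub_eq_zero.mp ((mul_eq_zero.mp h2).resolve_left h3)

theorem totalDegree_le_of_isWeightedHomogeneous {f : MvPolynomial (Fin 2) k} {n : ℕ}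
    (hf : IsWeightedHomogeneous wt f n) : f.totalDegree ≤ n := by
  rw [totalDegree]
  apply Finset.sup_le
  intro d hd
  have := hf (mem_support_iff.mp hd)
  rw [weight_wt] at this
  rw [Finsupp.sum_fintype _ _ (by simp)]
  simp [Fin.sum_univ_two]
  omega

/-- A nonzero w.h. polynomial `A` of weight `ℓ - 1` with `∂∂A = -QA` has a prime factor
of multiplicity exactly one. -/
theorem exists_prime_simple (ℓ : ℕ) [CharP k ℓ] {A : MvPolynomial (Fin 2) k}
    (hA : IsWeightedHomogeneous wt A (ℓ - 1)) (hA0 : A ≠ 0)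
    (hDD : serreD k (serreD k A) = -(X 0) * A) :
    ∃ p, Prime p ∧ p ∣ A ∧ ¬ p ^ 2 ∣ A := by
  -- Step 1: some prime factor is not ∂-stable
  have step1 : ∃ p, Prime p ∧ p ∣ A ∧ ¬ p ∣ serreD k p := by
    by_contra hcon
    push Not at hcon
    obtain ⟨h, hh⟩ := dvd_deriv_of_forall_prime (serreD k) A hcon
    have hw : IsWeightedHomogeneous wt (A * h) (ℓ - 1 + 2) := by
      rw [← hh]; exact serreD_isWeightedHomogeneous hA
    have h0 : h = 0 := eq_zero_of_weight_two (isWeightedHomogeneous_of_mul hA hA0 hw)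
    rw [h0, mul_zero] at hh
    rw [hh, map_zero] at hDD
    have : (X 0 : MvPolynomial (Fin 2) k) * A = 0 := by
      have := hDD.symm
      rwa [neg_mul, neg_eq_zero] at this
    rcases mul_eq_zero.mp this with h | h
    · exact X_ne_zero 0 h
    · exact hA0 h
  obtain ⟨p, hp, hpA, hDp⟩ := step1
  refine ⟨p, hp, hpA, ?_⟩
  obtain ⟨a, u, hu, hAu⟩ := WfDvdMonoid.max_power_factor hA0 hp.irreducible
  intro hp2
  -- a ≥ 2
  have ha2 : 2 ≤ a := by
    by_contra hlt
    have hle : a ≤ 1 := by omega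
    apply hu
    have h1 : p ^ 2 ∣ p ^ 1 * u := by
      refine dvd_trans hp2 ?_
      rw [hAu]
      exact mul_dvd_mul_right (pow_dvd_pow p hle) u
    rw [pow_two, pow_one] at h1
    exact (mul_dvd_mul_iff_left hp.ne_zero).mp h1
  -- a ≤ ℓ - 1
  have hu0 : u ≠ 0 := by
    rintro rfl
    exact hA0 (by rw [hAu, mul_zero])
  have hale : a ≤ ℓ - 1 := by
    have h1 : (p ^ a).totalDegree ≤ A.totalDegree :=
      totalDegree_le_of_dvd_of_isDomain (Dvd.intro u hAu.symm) hA0
    rw [totalDegree_pow_eq p hp.ne_zero] at h1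
    have h2 := totalDegree_le_of_isWeightedHomogeneous hA
    have h3 : 1 ≤ p.totalDegree := by
      by_contra hlt
      have h0 : p.totalDegree = 0 := by omega
      obtain ⟨c, hc⟩ : ∃ c, p = C c := ⟨_, totalDegree_eq_zero_iff_eq_C.mp h0⟩
      have hc0 : c ≠ 0 := by
        rintro rfl
        exact hp.ne_zero (by rw [hc, map_zero])
      exact hp.not_isUnit (by rw [hc]; exact (isUnit_iff_ne_zero.mpr hc0).map C)
    nlinarith
  have hcast : ∀ b : ℕ, 1 ≤ b → b ≤ ℓ - 1 → (b : k) ≠ 0 := by
    intro b hb1 hb2 h0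
    have := (CharP.cast_eq_zero_iff k ℓ b).mp h0
    have := Nat.le_of_dvd (by omega) this
    omega
  obtain ⟨v, hv, hpv⟩ := deriv_pow_mul (serreD k) hp hDp (hcast a (by omega) hale) hu
  rw [← hAu] at hv
  obtain ⟨v', hv', hpv'⟩ := deriv_pow_mul (serreD k) hp hDp (hcast (a - 1) (by omega) (by omega)) hpv
  rw [← hv, hDD] at hv'
  -- p ^ (a - 1) divides the left side
  apply hpv'
  have h1 : p ^ (a - 1) ∣ p ^ (a - 1 - 1) * v' := by
    rw [← hv', hAu]
    refine Dvd.dvd.mul_left (Dvd.dvd.mul_right (pow_dvd_pow p (by omega)) u) _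
  obtain ⟨a', rfl⟩ : ∃ a', a = a' + 2 := ⟨a - 2, by omega⟩
  have e1 : a' + 2 - 1 = a' + 1 := by omega
  have e2 : a' + 1 - 1 = a' := by omega
  rw [e1, e2, pow_succ] at h1
  exact (mul_dvd_mul_iff_left (pow_ne_zero a' hp.ne_zero)).mp h1

theorem irreducible_sub_one (ℓ : ℕ) [CharP k ℓ] (hℓ : 2 ≤ ℓ) {A : MvPolynomial (Fin 2) k}
    (hA : IsWeightedHomogeneous wt A (ℓ - 1)) (hA0 : A ≠ 0)
    (hDD : serreD k (serreD k A) = -(X 0) * A) : Irreducible (A - 1) := by
  obtain ⟨p, hp, hpA, hp2⟩ := exists_prime_simple ℓ hA hA0 hDD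
  exact irreducible_sub_one_of_prime (by omega) hA hp hpA hp2

end SerreD

section Kernel

variable {k : Type*} [Field k] {D : Type*} [CommRing D] [IsDomain D] [Algebra k D]

theorem withBot_enat_le_one_of_succ_le_two (x : WithBot ℕ∞) (h : x + 1 ≤ 2) : x ≤ 1 := by
  induction x with
  | bot => exact bot_le
  | coe x =>
    induction x with
    | top => 
      exfalso
      have : ((⊤ : ℕ∞) : WithBot ℕ∞) + 1 = ((⊤ : ℕ∞) : WithBot ℕ∞) := rfl
      rw [this] at h
      have h2 : ((⊤ : ℕ∞) : WithBot ℕ∞) ≤ ((2 : ℕ∞) : WithBot ℕ∞) := h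
      rw [WithBot.coe_le_coe] at h2
      simp at h2
    | coe n =>
      have h2 : n + 1 ≤ 2 := by
        have h3 : (((n + 1 : ℕ) : ℕ∞) : WithBot ℕ∞) ≤ (((2 : ℕ) : ℕ∞) : WithBot ℕ∞) := by
          push_cast
          exact h
        rw [WithBot.coe_le_coe, Nat.cast_le] at h3
        exact h3
      have : n ≤ 1 := by omega
      exact_mod_cast this

theorem ker_eq_span_of_irreducible {F : MvPolynomial (Fin 2) k} (hF : Irreducible F)
    (φ : MvPolynomial (Fin 2) k →ₐ[k] D) (hφF : φ F = 0)
    {f : MvPolynomial (Fin 2) k} (htr : Transcendental k (φ f)) :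
    RingHom.ker φ = Ideal.span {F} := by
  classical
  have hFp : Prime F := hF.prime
  have hI : (Ideal.span {F}).IsPrime := (Ideal.span_singleton_prime hFp.ne_zero).mpr hFp
  have hle : Ideal.span {F} ≤ RingHom.ker φ := by
    rw [Ideal.span_singleton_le_iff_mem]
    exact hφF
  refine le_antisymm ?_ hle
  -- the quotient has Krull dimension ≤ 1
  have hdimP : ringKrullDim (MvPolynomial (Fin 2) k) = 2 := by
    rw [MvPolynomial.ringKrullDim_of_isNoetherianRing, ringKrullDim_eq_zero_of_field]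
    simp
  have hdim : ringKrullDim (MvPolynomial (Fin 2) k ⧸ Ideal.span {F}) ≤ 1 := by
    apply withBot_enat_le_one_of_succ_le_two
    rw [← hdimP]
    exact ringKrullDim_quotient_succ_le_of_nonZeroDivisor (mem_nonZeroDivisors_of_ne_zero hFp.ne_zero)
  have : Ring.KrullDimLE 1 (MvPolynomial (Fin 2) k ⧸ Ideal.span {F}) :=
    Ring.krullDimLE_iff.mpr hdim
  -- the induced map
  let φ' : (MvPolynomial (Fin 2) k ⧸ Ideal.span {F}) →ₐ[k] D :=
    Ideal.Quotient.liftₐ (Ideal.span {F}) φ (fun a ha => hle ha)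
  have hφ' : ∀ g, φ' (Ideal.Quotient.mk _ g) = φ g := fun g => rfl
  by_cases hJ : RingHom.ker φ' = ⊥
  · intro g hg
    have : (Ideal.Quotient.mk (Ideal.span {F}) g) ∈ RingHom.ker φ' := by
      rw [RingHom.mem_ker]; exact hg
    rw [hJ, Ideal.mem_bot] at this
    exact Ideal.Quotient.eq_zero_iff_mem.mp this
  · exfalso
    have hJp : (RingHom.ker φ').IsPrime := RingHom.ker_isPrime φ'
    have hJm : (RingHom.ker φ').IsMaximal := hJp.isMaximal_of_ne_bot hJ
    let _ : Field ((MvPolynomial (Fin 2) k ⧸ Ideal.span {F}) ⧸ RingHom.ker φ') :=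
      Ideal.Quotient.field _
    have : Module.Finite k ((MvPolynomial (Fin 2) k ⧸ Ideal.span {F}) ⧸ RingHom.ker φ') :=
      finite_of_finite_type_of_isJacobsonRing k _
    have halg : IsAlgebraic k (Ideal.Quotient.mk (RingHom.ker φ')
        (Ideal.Quotient.mk (Ideal.span {F}) f)) := Algebra.IsAlgebraic.isAlgebraic _
    obtain ⟨p, hp0, hp⟩ := halg
    apply htr
    refine ⟨p, hp0, ?_⟩
    have h1 : Polynomial.aeval (Ideal.Quotient.mk (RingHom.ker φ')
        (Ideal.Quotient.mk (Ideal.span {F}) f)) p =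
        Ideal.Quotient.mk (RingHom.ker φ') (Polynomial.aeval
          (Ideal.Quotient.mk (Ideal.span {F}) f) p) := by
      have := Polynomial.aeval_algHom_apply (Ideal.Quotient.mkₐ k (RingHom.ker φ'))
        (Ideal.Quotient.mk (Ideal.span {F}) f) p
      simpa using this
    rw [h1, Ideal.Quotient.eq_zero_iff_mem, RingHom.mem_ker] at hp
    have h2 := Polynomial.aeval_algHom_apply φ' (Ideal.Quotient.mk (Ideal.span {F}) f) p
    rw [hφ'] at h2
    rw [h2]
    exact hp

end Kernel

section Grading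

variable {ι : Type*} {k : Type*} [CommRing k] {D : Type*} [CommRing D] [Algebra k D]

theorem isWeightedHomogeneous_cast {w : ι → ℕ} (m : ℕ) {f : MvPolynomial ι k} {n : ℕ}
    (hf : IsWeightedHomogeneous w f n) :
    IsWeightedHomogeneous (fun i => (w i : ZMod m)) f (n : ZMod m) := by
  intro d hd
  have := hf hd
  rw [← this, Finsupp.weight_apply, Finsupp.weight_apply, Finsupp.sum, Finsupp.sum, Nat.cast_sum]
  apply Finset.sum_congr rfl
  intro i _
  simp

attribute [local instance] MvPolynomial.weightedGradedAlgebra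

theorem weight_congr_of_ker {w : ι → ℕ} {A : MvPolynomial ι k} {m : ℕ}
    (hA : IsWeightedHomogeneous w A m)
    (φ : MvPolynomial ι k →ₐ[k] D) (hker : RingHom.ker φ = Ideal.span {A - 1})
    {f₁ f₂ : MvPolynomial ι k} {k₁ k₂ : ℕ} (h₁ : IsWeightedHomogeneous w f₁ k₁)
    (h₂ : IsWeightedHomogeneous w f₂ k₂) (h : φ f₁ = φ f₂) (hne : φ f₁ ≠ 0) :
    k₁ ≡ k₂ [MOD m] := by
  classical
  rw [← ZMod.natCast_eq_natCast_iff]
  by_contra hk
  apply hne
  set w' : ι → ZMod m := fun i => (w i : ZMod m) with hw'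
  have hA' : IsWeightedHomogeneous w' (A - 1) 0 := by
    have h1 := isWeightedHomogeneous_cast m hA
    rw [ZMod.natCast_self] at h1
    exact h1.sub (isWeightedHomogeneous_one k w')
  have hI : (Ideal.span {A - 1}).IsHomogeneous (weightedHomogeneousSubmodule k w') := by
    apply Ideal.homogeneous_span
    intro x hx
    rw [Set.mem_singleton_iff] at hx
    subst hx
    exact ⟨0, hA'⟩
  have hmem : f₁ - f₂ ∈ Ideal.span {A - 1} := by
    rw [← hker, RingHom.mem_ker, map_sub, h, sub_self]
  have hc := weightedHomogeneousComponent_mem_of_mem k w' hI hmem (k₁ : ZMod m)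
  rw [map_sub, (isWeightedHomogeneous_cast m h₁).weightedHomogeneousComponent_same,
    (isWeightedHomogeneous_cast m h₂).weightedHomogeneousComponent_ne _ hk, sub_zero,
    ← hker, RingHom.mem_ker] at hc
  exact hc

end Grading

section Main

variable {k : Type*} [Field k] {D : Type*} [CommRing D] [IsDomain D] [Algebra k D]

/-- **Swinnerton-Dyer, kernel theorem.** If `A` is w.h. of weight `ℓ - 1` with `∂∂A = -QA`,
`φ A = 1` and the image of `φ` contains a transcendental element, then `ker φ = (A - 1)`. -/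
theorem ker_eq_span (ℓ : ℕ) [CharP k ℓ] (hℓ : 2 ≤ ℓ) {A : MvPolynomial (Fin 2) k}
    (hA : IsWeightedHomogeneous wt A (ℓ - 1))
    (hDD : serreD k (serreD k A) = -(X 0) * A)
    (φ : MvPolynomial (Fin 2) k →ₐ[k] D) (hφA : φ A = 1)
    {f : MvPolynomial (Fin 2) k} (htr : Transcendental k (φ f)) :
    RingHom.ker φ = Ideal.span {A - 1} := by
  have hA0 : A ≠ 0 := by
    rintro rfl
    rw [map_zero] at hφA
    exact zero_ne_one hφA
  have hirr := irreducible_sub_one ℓ hℓ hA hA0 hDD
  exact ker_eq_span_of_irreducible hirr φ (by rw [map_sub, hφA, map_one, sub_self]) htr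

/-- **Swinnerton-Dyer, weight congruence.** Under the hypotheses of `ker_eq_span`, two w.h.
polynomials with the same nonzero image have weights congruent modulo `ℓ - 1`. -/
theorem weight_congr (ℓ : ℕ) [CharP k ℓ] (hℓ : 2 ≤ ℓ) {A : MvPolynomial (Fin 2) k}
    (hA : IsWeightedHomogeneous wt A (ℓ - 1))
    (hDD : serreD k (serreD k A) = -(X 0) * A)
    (φ : MvPolynomial (Fin 2) k →ₐ[k] D) (hφA : φ A = 1)
    {f : MvPolynomial (Fin 2) k} (htr : Transcendental k (φ f))
    {f₁ f₂ : MvPolynomial (Fin 2) k} {k₁ k₂ : ℕ} (h₁ : IsWeightedHomogeneous wt f₁ k₁)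
    (h₂ : IsWeightedHomogeneous wt f₂ k₂) (h : φ f₁ = φ f₂) (hne : φ f₁ ≠ 0) :
    k₁ ≡ k₂ [MOD ℓ - 1] :=
  weight_congr_of_ker hA φ (ker_eq_span ℓ hℓ hA hDD φ hφA htr) h₁ h₂ h hne

end Main

end Fermat.Agent.S16.LevelOne.SwDAlg
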