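import Mathlib
import Fermat.Agent.S16.LevelOne.Fricke2
import Fermat.Agent.S16.LevelOne.QSeries
import Fermat.Agent.S16.LevelOne.EisSetup
import Fermat.Agent.S16.LevelOne.T1
import Fermat.Agent.S16.LevelOne.SwDLite
import Fermat.Agent.S16.LevelOne.Defs

/-!
# S16 (C6), hedge by helper17: the case `l ≥ 5`, `l ∣ p + 1` of the upper bound

Test form `ξ = Δ^p`: `(p-1) T_p ξ` (weight `12p`) is congruent mod `l` to a level one form of weight
`12p + 2`; by Swinnerton-Dyer lite it vanishes mod `l`, but its first coefficient is `p - 1`.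
-/

set_option autoImplicit false

namespace Fermat.Agent.S16.LevelOne.T2h17

open UpperHalfPlane ModularForm ModularFormClass PowerSeries
open Fermat.Agent.S20 Fermat.Agent.S16.Estar Fermat.Agent.S16.LevelRaise
open Fermat.Agent.S16.LevelOne Fermat.Agent.S16.LevelOne.QSeries
open Fermat.Agent.S16.LevelOne.Fricke Fermat.Agent.S16.LevelOne.EisSetup
open Fermat.Agent.S16.LevelOne.T1
open scoped MatrixGroups ModularForm Manifold

noncomputable section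

/-- a series which is constant mod `l` -/
theorem redL_eq_C {l : ℕ} {a : PowerSeries ℤ} {c : ℤ} (h0 : coeff 0 a = c)
    (hn : ∀ n, 1 ≤ n → (l : ℤ) ∣ coeff n a) : redL l a = C ((c : ℤ) : ZMod l) := by
  ext n
  rw [coeff_redL, PowerSeries.coeff_C]
  by_cases h : n = 0
  · subst h; rw [h0, if_pos rfl]
  · rw [if_neg h]
    exact (ZMod.intCast_zmod_eq_zero_iff_dvd _ _).mpr (hn n (Nat.one_le_iff_ne_zero.mpr h))

theorem Uop_C {R : Type*} [CommRing R] {p : ℕ} (hp : p ≠ 0) (c : R) :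
    Uop p (C c : PowerSeries R) = C c := by
  ext n
  rw [coeff_Uop, PowerSeries.coeff_C, PowerSeries.coeff_C]
  by_cases h : n = 0
  · subst h; simp
  · rw [if_neg h, if_neg (Nat.mul_ne_zero h hp)]

theorem Uop_C_mul {R : Type*} [CommRing R] (p : ℕ) (c : R) (a : PowerSeries R) :
    Uop p (C c * a) = C c * Uop p a := by
  ext n
  simp [coeff_Uop]

/-- **the case `l ≥ 5`, `l ∣ p + 1`** -/
theorem not_eisCong_of_dvd_succ {p : ℕ} [Fact p.Prime] {l : ℕ} (hl : l.Prime) (h5 : 5 ≤ l)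
    (hlp : l ∣ p + 1) {g : ℍ → ℂ} : ¬ EisCong p l g := by
  intro h
  have : Fact l.Prime := ⟨hl⟩
  have hp : p.Prime := Fact.out
  have hp0 : p ≠ 0 := hp.ne_zero
  have hpC : (p : ℂ) ≠ 0 := by exact_mod_cast hp0
  obtain ⟨F, aF, -, hF, haF, hF0, hFn⟩ := exists_F h.isCF h.cong
  have hFl : ∀ n, 1 ≤ n → (l : ℤ) ∣ coeff n aF := fun n hn =>
    (Dvd.intro_left 24 rfl).trans (hFn n hn)
  -- the test form `ξ = Δ^p`
  set K : ℕ := 12 * p with hK
  have hK1 : 1 ≤ K := by have := hp.pos; omega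
  have hΔ : IsCF 1 12 Δf := isCF_delta
  have hξ : IsMF 1 (K : ℤ) (Δf ^ p) := (hΔ.isMF.pow p).cast (by rw [hK]; push_cast; ring)
  have hx : HasQZ (Δf ^ p) (deltaZ ^ p) := HasQZ.pow nice_delta hasQZ_delta p
  have hNξ : Nice (Δf ^ p) := hξ.nice
  set x : PowerSeries ℤ := deltaZ ^ p with hxdef
  -- `H = U_p F`
  have hH : IsMF p 2 (heckeU 2 p F) := isMF_heckeU_two hF
  have haH : HasQZ (heckeU 2 p F) (Uop p aF) := HasQZ.heckeU hF.nice haF 2 hp0
  -- `ζ' = p^K F Vξ - U_p (H ξ) = p^K Tr(F Vξ)`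
  have hVξ : Nice (Vd p (Δf ^ p)) := hNξ.Vd p
  have haV : HasQZ (Vd p (Δf ^ p)) (Vop p x) := HasQZ.Vd hNξ hx p
  have hFV : HasQZ (F * Vd p (Δf ^ p)) (aF * Vop p x) := HasQZ.mul hF.nice hVξ haF haV
  have hHξ : HasQZ (heckeU 2 p F * Δf ^ p) (Uop p aF * x) := HasQZ.mul hH.nice hNξ haH hx
  have hUHξ : HasQZ (heckeU (2 + (K : ℤ)) p (heckeU 2 p F * Δf ^ p)) (Uop p (Uop p aF * x)) :=
    HasQZ.heckeU (hH.nice.mul hNξ) hHξ _ hp0
  have hpK : (((p : ℤ) ^ K : ℤ) : ℂ) = (p : ℂ) ^ K := by push_cast; rfl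
  have hFVK := HasQZ.int_smul (hF.nice.mul hVξ) hFV ((p : ℤ) ^ K)
  rw [hpK] at hFVK
  set Z : ℍ → ℂ := ((p : ℂ) ^ K) • (F * Vd p (Δf ^ p)) -
    heckeU (2 + (K : ℤ)) p (heckeU 2 p F * Δf ^ p) with hZdef
  have haZ : HasQZ Z (((p : ℤ) ^ K) • (aF * Vop p x) - Uop p (Uop p aF * x)) :=
    HasQZ.sub ((hF.nice.mul hVξ).smul _) ((hH.nice.mul hNξ).heckeU _ p) hFVK hUHξ
  have hZtr : Z = ((p : ℂ) ^ K) • trFun (2 + (K : ℤ)) p (F * Vd p (Δf ^ p)) := by
    rw [tr_mul_V hF hξ, hZdef, smul_sub, smul_smul]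
    congr 1
    rw [zpow_neg, zpow_natCast, mul_inv_cancel₀ (pow_ne_zero _ hpC), one_smul]
  have hFVmf : IsMF p (2 + (K : ℤ)) (F * Vd p (Δf ^ p)) := by
    have h1 : IsMF (p * 1) (K : ℤ) (Vd p (Δf ^ p)) := IsMF.Vd p hξ
    rw [mul_one] at h1
    exact hF.mul h1
  have hZmf : IsMF 1 ((K : ℤ) + 2) Z := by
    rw [hZtr]
    exact ((isMF_trFun hFVmf).smul _).cast (add_comm _ _)
  -- `T_p ξ`
  have hTmf : IsMF 1 (K : ℤ) (heckeT (K : ℤ) p (Δf ^ p)) := isMF_heckeT_levelOne hp hξ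
  have haT : HasQZ (heckeT (K : ℤ) p (Δf ^ p)) (Uop p x + ((p : ℤ) ^ (K - 1)) • Vop p x) := by
    have := HasQZ.heckeT hNξ hx (K - 1) hp0
    have e : (((K - 1 : ℕ) : ℤ)) + 1 = (K : ℤ) := by
      rw [Nat.cast_sub hK1]; ring
    rwa [e] at this
  have hpm : ((((p : ℤ) - 1 : ℤ)) : ℂ) = (p : ℂ) - 1 := by push_cast; rfl
  have haT1 := HasQZ.int_smul hTmf.nice haT ((p : ℤ) - 1)
  -- Swinnerton-Dyer lite
  have hnegZ : HasQZ (-Z) (-(((p : ℤ) ^ K) • (aF * Vop p x) - Uop p (Uop p aF * x))) :=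
    HasQZ.neg hZmf.nice haZ
  have hnegZmf : IsMF 1 ((K : ℤ) + 2) (-Z) := by
    have := hZmf.smul (-1)
    simpa using this
  have hcong : (((p : ℤ) - 1) • (Uop p x + ((p : ℤ) ^ (K - 1)) • Vop p x)).map
        (Int.castRingHom (ZMod l)) =
      (-(((p : ℤ) ^ K) • (aF * Vop p x) - Uop p (Uop p aF * x))).map
        (Int.castRingHom (ZMod l)) := by
    have hH0 : coeff 0 (Uop p aF) = (p : ℤ) - 1 := by rw [coeff_Uop, zero_mul, hF0]
    have hHn : ∀ n, 1 ≤ n → (l : ℤ) ∣ coeff n (Uop p aF) := fun n hn => by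
      rw [coeff_Uop]
      exact hFl _ (Nat.one_le_iff_ne_zero.mpr (Nat.mul_ne_zero (by omega) hp0))
    have hkey : ∀ n : ℕ, (l : ℤ) ∣ coeff n
        ((((p : ℤ) - 1) • (Uop p x + ((p : ℤ) ^ (K - 1)) • Vop p x)) -
          (-(((p : ℤ) ^ K) • (aF * Vop p x) - Uop p (Uop p aF * x)))) := by
      intro n
      have e1 := T1Formal.coeff_mul_modEq (N := (l : ℤ)) (B := Vop p x) hF0 hFl n
      have e2 := T1Formal.coeff_mul_modEq (N := (l : ℤ)) (B := x) hH0 hHn (n * p)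
      have hKs : (p : ℤ) ^ K = (p : ℤ) ^ (K - 1) * p := by
        rw [← pow_succ, Nat.sub_add_cancel hK1]
      have hl1 : (l : ℤ) ∣ (p : ℤ) + 1 := by exact_mod_cast hlp
      simp only [map_sub, map_neg, map_add, coeff_int_smul, coeff_Uop]
      have e3 : ((p : ℤ) - 1) * (coeff (n * p) x + (p : ℤ) ^ (K - 1) * coeff n (Vop p x)) -
          -((p : ℤ) ^ K * coeff n (aF * Vop p x) - coeff (n * p) (Uop p aF * x)) ≡
          ((p : ℤ) - 1) * (coeff (n * p) x + (p : ℤ) ^ (K - 1) * coeff n (Vop p x)) -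
          -((p : ℤ) ^ K * (((p : ℤ) - 1) * coeff n (Vop p x)) -
            ((p : ℤ) - 1) * coeff (n * p) x) [ZMOD (l : ℤ)] :=
        Int.ModEq.sub (Int.ModEq.refl _) (((e1.mul_left _).sub e2).neg)
      have e4 : ((p : ℤ) - 1) * (coeff (n * p) x + (p : ℤ) ^ (K - 1) * coeff n (Vop p x)) -
          -((p : ℤ) ^ K * (((p : ℤ) - 1) * coeff n (Vop p x)) -
            ((p : ℤ) - 1) * coeff (n * p) x) =
          ((p : ℤ) + 1) * (((p : ℤ) - 1) * (p : ℤ) ^ (K - 1) * coeff n (Vop p x)) := by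
        rw [hKs]; ring
      rw [e4] at e3
      exact (Int.modEq_zero_iff_dvd.mp (e3.trans
        (Int.modEq_zero_iff_dvd.mpr (Dvd.dvd.mul_right hl1 _))))
    have h0 := (redL_eq_zero_iff l _).mpr hkey
    rw [map_sub, sub_eq_zero] at h0
    exact h0
  have hswd := SwDLite.swd_lite l h5 (hTmf.smul ((((p : ℤ) - 1 : ℤ)) : ℂ)) hnegZmf haT1 hnegZ hcong
  -- the first coefficient of `(p-1) T_p ξ` is `p - 1`
  have h1 := (redL_eq_zero_iff l _).mp hswd 1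
  have hp1 : ¬ p ∣ 1 := fun hd => hp.one_lt.ne' (Nat.dvd_one.mp hd)
  rw [coeff_int_smul, map_add, coeff_Uop, coeff_int_smul, coeff_Vop_of_not_dvd hp0 x hp1, one_mul,
    hxdef, coeff_deltaZ_pow, mul_zero, add_zero, mul_one] at h1
  have hl1 : (l : ℤ) ∣ (p : ℤ) + 1 := by exact_mod_cast hlp
  have h2 : (l : ℤ) ∣ 2 := by
    have := dvd_sub hl1 h1
    simpa using this
  have h3 : l ∣ 2 := by exact_mod_cast h2
  have := Nat.le_of_dvd (by norm_num) h3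
  omega

end

end Fermat.Agent.S16.LevelOne.T2h17
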